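import Mathlib
import Fermat.Prelude.Def_AlgebraicCurve_Correspondence
import Fermat.Agent.S24.PlacesPrincipal

/-!
# Program MR (S44), block `mrm` : THE NORM FORMULA AND THE FUNDAMENTAL IDENTITY IN ANY CHARACTERISTIC

Owner: helper20.  Namespace `Fermat.Agent.MR`, prefix `mrmn`.

Main's `G/FF/{Dict,Norm,Abs}` prove `∑_{w | v} ord_w f = ord_v (N_{F'/F} f)` and
`∑_{w | v} e(w | v) = [F' : F]` for a finite extension `F'/F` of function fields over an
algebraically closed field `K` OF CHARACTERISTIC ZERO.  Program MR needs them for
`ᾱ : F_k(M) → F_k(M ℓ)` over `k = 𝔸/𝔪` (characteristic `p`).  This file redoes the three files with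
`[Algebra.IsSeparable F F']` in place of `[CharZero K]`, and with the hypothesis
"all places of `F` and `F'` have degree one" (`IsSepGen.deg_eq_one`, any characteristic) in place
of the separating generator.

The only place where main uses characteristic zero beyond separability is
`Ideal.relNorm_eq_pow_of_isMaximal` (it wants a perfect fraction field); here
`relNorm 𝔮 = 𝔪_v` for every prime `𝔮` of `B` is obtained from `relNorm (𝔪_v B) = 𝔪_v ^ n`,
`𝔪_v B = ∏ 𝔮^{e_𝔮}`, `∑ e_𝔮 = n` and `relNorm 𝔮 ≤ 𝔪_v`.
-/

set_option autoImplicit false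
set_option linter.unusedSectionVars false
set_option linter.style.haveILetI false

namespace Fermat.Agent.MR

open AlgebraicCurve IsDedekindDomain WithZero IsLocalRing Fermat.Agent.S24 IntermediateField
open UniqueFactorizationMonoid

variable {K F F' : Type*} [Field K] [Field F] [Field F'] [Algebra K F] [Algebra K F']
  [Algebra F F'] [IsScalarTower K F F']

/-- the tower `K → 𝒪_v → F'` -/
theorem mrmn_isScalarTower_place (v : Place K F) : IsScalarTower K v.toValuationSubring F' :=
  IsScalarTower.of_algebraMap_eq fun a => by
    rw [IsScalarTower.algebraMap_apply K F F']; rfl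

/-- integral closure of `𝒪_v` in `F'` -/
abbrev mrmnB (v : Place K F) (F' : Type*) [Field F'] [Algebra F F'] :
    Subalgebra v.toValuationSubring F' := integralClosure v.toValuationSubring F'

section Finite

variable [Algebra.IsSeparable F F'] [Module.Finite F F'] (v : Place K F)

theorem mrmnB_isDedekindDomain : IsDedekindDomain (mrmnB v F') :=
  integralClosure.isDedekindDomain v.toValuationSubring F F'

theorem mrmnB_isFractionRing : IsFractionRing (mrmnB v F') F' :=
  IsIntegralClosure.isFractionRing_of_finite_extension v.toValuationSubring F F' _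

theorem mrmnB_finite : Module.Finite v.toValuationSubring (mrmnB v F') :=
  IsIntegralClosure.finite v.toValuationSubring F F' _

theorem mrmnB_flat : Module.Flat v.toValuationSubring (mrmnB v F') := by
  have h1 : IsDedekindDomain v.toValuationSubring := inferInstance
  have h2 : Module.IsTorsionFree v.toValuationSubring (mrmnB v F') := inferInstance
  exact Module.Flat.instOfIsDedekindDomainOfIsTorsionFree

end Finite

section Dict

variable [Algebra.IsSeparable F F'] [Module.Finite F F'] (v : Place K F)

local instance mrmni_tower : IsScalarTower K v.toValuationSubring F' := mrmn_isScalarTower_place v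
local instance mrmni_dedekind : IsDedekindDomain (mrmnB v F') := mrmnB_isDedekindDomain v
local instance mrmni_fraction : IsFractionRing (mrmnB v F') F' := mrmnB_isFractionRing v
local instance mrmni_finite : Module.Finite v.toValuationSubring (mrmnB v F') := mrmnB_finite v
local instance mrmni_flat : Module.Flat v.toValuationSubring (mrmnB v F') := mrmnB_flat v

theorem mrmnB_finite_primesOver :
    ((maximalIdeal v.toValuationSubring).primesOver (mrmnB v F')).Finite :=
  Algebra.QuasiFinite.finite_primesOver _

theorem mrmnB_algebraMap_injective :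
    Function.Injective (algebraMap v.toValuationSubring (mrmnB v F')) := by
  intro a b h
  have h1 := congrArg (algebraMap (mrmnB v F') F') h
  have h2 : algebraMap F F' (a : F) = algebraMap F F' (b : F) := h1
  exact Subtype.ext ((algebraMap F F').injective h2)

/-- the height one prime attached to a prime of `B` over `𝔪_v` -/
def mrmnHeightOne (q : (maximalIdeal v.toValuationSubring).primesOver (mrmnB v F')) :
    HeightOneSpectrum (mrmnB v F') :=
  ⟨q.1, q.2.1, by
    intro h
    have hlies := q.2.2
    have h1 : maximalIdeal v.toValuationSubring = q.1.under v.toValuationSubring :=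
      Ideal.LiesOver.over
    apply IsDiscreteValuationRing.not_a_field v.toValuationSubring
    rw [h1, h, eq_bot_iff]
    intro x hx
    rw [Ideal.mem_bot]
    have hx' : algebraMap v.toValuationSubring (mrmnB v F') x = 0 :=
      Ideal.mem_bot.mp (Ideal.mem_comap.mp hx)
    exact mrmnB_algebraMap_injective v (hx'.trans (map_zero _).symm)⟩

/-- the place of `F'` attached to a prime of `B` over `𝔪_v` -/
noncomputable def mrmnPlace (q : (maximalIdeal v.toValuationSubring).primesOver (mrmnB v F')) :
    Place K F' :=
  Place.ofHeightOneSpectrum (K := K) (mrmnHeightOne v q)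

theorem mrmnPlace_injective :
    Function.Injective (mrmnPlace (K := K) (F' := F') v) := by
  intro q₁ q₂ h
  have := ofHeightOneSpectrum_injective (K := K) h
  apply Subtype.ext
  exact congrArg HeightOneSpectrum.asIdeal this

theorem mrmnPlace_restrict (q : (maximalIdeal v.toValuationSubring).primesOver (mrmnB v F')) :
    (mrmnPlace v q).restrict F = v := by
  apply Place.ext
  symm
  refine ValuationSubring.eq_of_le_of_ne_top _ ?_ ((mrmnPlace v q).restrict F).ne_top'
  intro a ha
  rw [Place.restrict_toValuationSubring, ValuationSubring.mem_comap]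
  exact algebraMap_mem_ofHeightOneSpectrum (K := K) (mrmnHeightOne v q)
    (algebraMap v.toValuationSubring (mrmnB v F') ⟨a, ha⟩)

/-- positivity of `ord` at the place attached to a height one prime -/
theorem mrmn_ord_ofHeightOneSpectrum_pos_iff {R : Type*} [CommRing R] [IsDedekindDomain R]
    [Algebra R F'] [IsFractionRing R F'] [Algebra K R] [IsScalarTower K R F']
    (P : HeightOneSpectrum R) {f : F'} (hf : f ≠ 0) :
    0 < (Place.ofHeightOneSpectrum (K := K) P).ord f ↔ P.valuation F' f < 1 := by
  rw [ord_ofHeightOneSpectrum]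
  have hval0 : P.valuation F' f ≠ 0 := (Valuation.ne_zero_iff _).2 hf
  rw [← log_lt_log hval0 one_ne_zero, log_one]
  omega

theorem mrmnPlace_surj (w : Place K F') (hw : w.restrict F = v) :
    ∃ q : (maximalIdeal v.toValuationSubring).primesOver (mrmnB v F'), mrmnPlace v q = w := by
  subst hw
  have hA : ∀ a : (w.restrict F).toValuationSubring,
      algebraMap (w.restrict F).toValuationSubring F' a ∈ w.toValuationSubring := fun a => a.2
  have hB : ∀ b : mrmnB (w.restrict F) F',
      algebraMap (mrmnB (w.restrict F) F') F' b ∈ w.toValuationSubring := fun b =>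
    mem_of_isIntegral_of_forall_mem w (A := (w.restrict F).toValuationSubring) hA b.2
  obtain ⟨P, hP⟩ := exists_eq_ofHeightOneSpectrum (K := K) w hB
  have hlies : P.asIdeal.LiesOver (maximalIdeal (w.restrict F).toValuationSubring) := by
    constructor
    have hle : maximalIdeal (w.restrict F).toValuationSubring ≤
        P.asIdeal.under (w.restrict F).toValuationSubring := by
      intro x hx
      rw [Ideal.under_def, Ideal.mem_comap]
      rcases eq_or_ne x 0 with rfl | hx0
      · rw [map_zero]; exact zero_mem _
      rw [← HeightOneSpectrum.valuation_lt_one_iff_mem (K := F')]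
      have hxF : (x : F) ≠ 0 := by simpa [ne_eq, ZeroMemClass.coe_eq_zero] using hx0
      have hxF' : algebraMap F F' (x : F) ≠ 0 := by simpa using hxF
      have h1 : 0 < (w.restrict F).ord (x : F) :=
        (PlaceOrd.ord_pos_iff_mem_maximalIdeal (w.restrict F) hx0).2 hx
      have h2 : 0 < w.ord (algebraMap F F' (x : F)) := by
        rw [w.ord_restrict]
        exact mul_pos (by exact_mod_cast w.ramificationIndex_pos (F := F)) h1
      have key : ∀ y : F', w.ord y = (Place.ofHeightOneSpectrum (K := K) P).ord y :=
        fun y => congrArg (fun u => Place.ord u y) hP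
      rw [key] at h2
      exact (mrmn_ord_ofHeightOneSpectrum_pos_iff P hxF').1 h2
    have hne : P.asIdeal.under (w.restrict F).toValuationSubring ≠ ⊤ :=
      (Ideal.IsPrime.under (w.restrict F).toValuationSubring P.asIdeal).ne_top
    exact ((maximalIdeal.isMaximal (w.restrict F).toValuationSubring).eq_of_le hne hle)
  exact ⟨⟨P.asIdeal, P.isPrime, hlies⟩, hP.symm⟩

theorem mrmnPlace_mem_iff [HasPrincipalDivisors K F'] (w : Place K F') :
    w ∈ v.fiber F' ↔ ∃ q, mrmnPlace v q = w := by
  rw [Place.mem_fiber]
  constructor
  · exact mrmnPlace_surj v w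
  · rintro ⟨q, rfl⟩
    exact mrmnPlace_restrict v q

theorem mrmnPlace_ramificationIndex
    (q : (maximalIdeal v.toValuationSubring).primesOver (mrmnB v F')) :
    (mrmnPlace v q).ramificationIndex F = q.1.ramificationIdx v.toValuationSubring := by
  have := q.2.1
  have := q.2.2
  obtain ⟨π, hπ⟩ := IsDiscreteValuationRing.exists_irreducible v.toValuationSubring
  set πB : mrmnB v F' := algebraMap v.toValuationSubring (mrmnB v F') π with hπB
  have hπB0 : πB ≠ 0 := fun h =>
    hπ.ne_zero (mrmnB_algebraMap_injective v (h.trans (map_zero _).symm))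
  have hmap : (maximalIdeal v.toValuationSubring).map
      (algebraMap v.toValuationSubring (mrmnB v F')) = Ideal.span {πB} := by
    rw [hπ.maximalIdeal_eq, Ideal.map_span, Set.image_singleton]
  have hmap0 : (maximalIdeal v.toValuationSubring).map
      (algebraMap v.toValuationSubring (mrmnB v F')) ≠ ⊥ := by
    rw [hmap, ne_eq, Ideal.span_singleton_eq_bot]; exact hπB0
  have h1 : (mrmnPlace v q).ord (algebraMap F F' (π : F))
      = ((mrmnPlace v q).ramificationIndex F : ℤ) := by
    rw [(mrmnPlace v q).ord_restrict, mrmnPlace_restrict, v.ord_coe_irreducible hπ, mul_one]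
  have h2 : (mrmnPlace v q).ord (algebraMap F F' (π : F))
      = (q.1.ramificationIdx v.toValuationSubring : ℤ) := by
    have h3 : (mrmnHeightOne v q).valuation F' (algebraMap F F' (π : F))
        = (mrmnHeightOne v q).intValuation πB := by
      rw [← HeightOneSpectrum.valuation_of_algebraMap (K := F')]
      rfl
    rw [mrmnPlace, ord_ofHeightOneSpectrum, h3,
      HeightOneSpectrum.intValuation_eq_exp_neg_multiplicity _ hπB0, log_exp, neg_neg,
      Ideal.IsDedekindDomain.ramificationIdx_eq_multiplicity
        (maximalIdeal v.toValuationSubring) q.1 hmap0, hmap]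
    rfl
  exact_mod_cast h1.symm.trans h2

end Dict

section Sum

variable [Algebra.IsSeparable F F'] [Module.Finite F F'] (v : Place K F)

local instance mrmnj_tower : IsScalarTower K v.toValuationSubring F' := mrmn_isScalarTower_place v
local instance mrmnj_dedekind : IsDedekindDomain (mrmnB v F') := mrmnB_isDedekindDomain v
local instance mrmnj_fraction : IsFractionRing (mrmnB v F') F' := mrmnB_isFractionRing v
local instance mrmnj_finite : Module.Finite v.toValuationSubring (mrmnB v F') := mrmnB_finite v
local instance mrmnj_flat : Module.Flat v.toValuationSubring (mrmnB v F') := mrmnB_flat v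

/-- all places of `F` and of `F'` have degree one ⟹ all inertia degrees are one -/
theorem mrmn_inertiaDeg_eq_one (hdeg : ∀ v : Place K F, v.deg = 1)
    (hdeg' : ∀ w : Place K F', w.deg = 1) (w : Place K F') : w.inertiaDeg F = 1 := by
  have h := w.deg_restrict_mul_inertiaDeg (F := F)
  rw [hdeg, hdeg', one_mul] at h
  exact h

theorem mrmnB_inertiaDeg_eq_one (hdeg' : ∀ w : Place K F', w.deg = 1)
    (q : (maximalIdeal v.toValuationSubring).primesOver (mrmnB v F')) :
    q.1.inertiaDeg v.toValuationSubring = 1 := by
  have := q.2.1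
  have := q.2.2
  have hmax : q.1.IsMaximal := (mrmnHeightOne v q).isMaximal
  rw [Ideal.inertiaDeg_eq_of_isMaximal (maximalIdeal v.toValuationSubring) q.1]
  let := Ideal.Quotient.field (maximalIdeal v.toValuationSubring)
  let := Ideal.Quotient.field q.1
  haveI : Module.Free K (v.toValuationSubring ⧸ maximalIdeal v.toValuationSubring) :=
    Module.Free.of_divisionRing K _
  have h1 := Module.finrank_mul_finrank K
    (v.toValuationSubring ⧸ maximalIdeal v.toValuationSubring) (mrmnB v F' ⧸ q.1)
  have h2 : Module.finrank K (mrmnB v F' ⧸ q.1) = 1 :=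
    (deg_ofHeightOneSpectrum (K := K) (F := F') (mrmnHeightOne v q)).symm.trans (hdeg' _)
  rw [h2] at h1
  exact Nat.eq_one_of_mul_eq_one_left h1

/-- `∑_{𝔮 | 𝔪_v} e(𝔮) = [F' : F]` -/
theorem mrmnB_sum_ramificationIdx (hdeg' : ∀ w : Place K F', w.deg = 1)
    [Fintype ((maximalIdeal v.toValuationSubring).primesOver (mrmnB v F'))] :
    ∑ q : (maximalIdeal v.toValuationSubring).primesOver (mrmnB v F'),
      q.1.ramificationIdx v.toValuationSubring = Module.finrank F F' := by
  classical
  have hfund := Ideal.sum_ramification_inertia_eq_finrank (maximalIdeal v.toValuationSubring)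
    (mrmnB v F')
  have hfr : Module.finrank F F' = Module.finrank v.toValuationSubring (mrmnB v F') :=
    IsFractionRing.finrank_eq v.toValuationSubring F (mrmnB v F') F'
  rw [hfr, ← hfund]
  refine Finset.sum_congr rfl fun q _ => ?_
  rw [mrmnB_inertiaDeg_eq_one v hdeg' q, mul_one]

end Sum

section Norm

variable [Algebra.IsSeparable F F'] [Module.Finite F F'] (v : Place K F)

local instance mrmnk_tower : IsScalarTower K v.toValuationSubring F' := mrmn_isScalarTower_place v
local instance mrmnk_dedekind : IsDedekindDomain (mrmnB v F') := mrmnB_isDedekindDomain v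
local instance mrmnk_fraction : IsFractionRing (mrmnB v F') F' := mrmnB_isFractionRing v
local instance mrmnk_finite : Module.Finite v.toValuationSubring (mrmnB v F') := mrmnB_finite v
local instance mrmnk_flat : Module.Flat v.toValuationSubring (mrmnB v F') := mrmnB_flat v

/-- every nonzero prime of `B` lies over `𝔪_v` -/
theorem mrmnB_liesOver_of_prime (q : Ideal (mrmnB v F')) [hq : q.IsPrime] (hq0 : q ≠ ⊥) :
    q.LiesOver (maximalIdeal v.toValuationSubring) := by
  have hmax : q.IsMaximal := hq.isMaximal hq0
  constructor
  have : (q.under v.toValuationSubring).IsMaximal :=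
    Ideal.isMaximal_comap_of_isIntegral_of_isMaximal q
  exact (IsLocalRing.eq_maximalIdeal this).symm

theorem mrmn_max_ne_bot : maximalIdeal v.toValuationSubring ≠ ⊥ := by
  intro h
  exact IsDiscreteValuationRing.not_a_field v.toValuationSubring h

/-- the exponent `s` with `relNorm 𝔮 = 𝔪_v ^ s` is at least one -/
theorem mrmnB_relNorm_exponent_pos
    (q : (maximalIdeal v.toValuationSubring).primesOver (mrmnB v F')) {s : ℕ}
    (hs : Ideal.relNorm v.toValuationSubring q.1 = maximalIdeal v.toValuationSubring ^ s) :
    1 ≤ s := by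
  have := q.2.1
  have hl : q.1.LiesOver (maximalIdeal v.toValuationSubring) := q.2.2
  by_contra h0
  have hs0 : s = 0 := by omega
  rw [hs0, pow_zero, Ideal.one_eq_top] at hs
  have h1 := Ideal.relNorm_le_comap v.toValuationSubring q.1
  rw [hs, top_le_iff] at h1
  have h2 : maximalIdeal v.toValuationSubring = ⊤ := by
    rw [hl.over]
    exact h1
  exact (maximalIdeal.isMaximal v.toValuationSubring).ne_top h2

/-- **`relNorm 𝔮 = 𝔪_v`** for every prime of `B` over `𝔪_v`, when all places of `F'` have degree
one.  (No perfectness of `F` : from `relNorm (𝔪_v B) = 𝔪_v ^ n`, `𝔪_v B = ∏ 𝔮 ^ e_𝔮`,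
`∑ e_𝔮 = n`, `relNorm 𝔮 = 𝔪_v ^ s_𝔮` with `s_𝔮 ≥ 1`.) -/
theorem mrmnB_relNorm_prime (hdeg' : ∀ w : Place K F', w.deg = 1)
    (q : (maximalIdeal v.toValuationSubring).primesOver (mrmnB v F')) :
    Ideal.relNorm v.toValuationSubring q.1 = maximalIdeal v.toValuationSubring := by
  classical
  have hfinp := mrmnB_finite_primesOver (F' := F') v
  let _ : Fintype ((maximalIdeal v.toValuationSubring).primesOver (mrmnB v F')) := hfinp.fintype
  have hex : ∀ q : (maximalIdeal v.toValuationSubring).primesOver (mrmnB v F'),
      ∃ s : ℕ, Ideal.relNorm v.toValuationSubring q.1 = maximalIdeal v.toValuationSubring ^ s := by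
    intro q
    have := q.2.1
    have hl : q.1.LiesOver (maximalIdeal v.toValuationSubring) := q.2.2
    exact Ideal.exists_relNorm_eq_pow_of_isPrime q.1 (maximalIdeal v.toValuationSubring)
  choose s hs using hex
  have hpos : ∀ q, 1 ≤ s q := fun q => mrmnB_relNorm_exponent_pos v q (hs q)
  have hmap := Ideal.map_algebraMap_eq_finsetProd_pow (R := mrmnB v F')
    (p := maximalIdeal v.toValuationSubring) (mrmn_max_ne_bot v)
  have h1 := congrArg (Ideal.relNorm v.toValuationSubring) hmap
  rw [Ideal.relNorm_algebraMap, ← Finset.prod_set_coe, map_prod] at h1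
  have h2 : ∀ q : (maximalIdeal v.toValuationSubring).primesOver (mrmnB v F'),
      Ideal.relNorm v.toValuationSubring (q.1 ^ q.1.ramificationIdx v.toValuationSubring)
        = maximalIdeal v.toValuationSubring ^ (s q * q.1.ramificationIdx v.toValuationSubring) := by
    intro q
    rw [map_pow, hs q, ← pow_mul]
  simp_rw [h2] at h1
  rw [Finset.prod_pow_eq_pow_sum] at h1
  have hfr : Module.finrank F F' = Module.finrank v.toValuationSubring (mrmnB v F') :=
    IsFractionRing.finrank_eq v.toValuationSubring F (mrmnB v F') F'
  have hinj : Function.Injective (fun n : ℕ => maximalIdeal v.toValuationSubring ^ n) := by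
    have hprime : Prime (maximalIdeal v.toValuationSubring) :=
      Ideal.prime_of_isPrime (mrmn_max_ne_bot v) inferInstance
    exact pow_injective_of_not_isUnit hprime.not_isUnit hprime.ne_zero
  have h3 := hinj h1
  rw [← hfr, ← mrmnB_sum_ramificationIdx v hdeg'] at h3
  -- `∑ e = ∑ s e`, `s ≥ 1`, `e ≥ 1` ⟹ `s = 1`
  have he : ∀ q : (maximalIdeal v.toValuationSubring).primesOver (mrmnB v F'),
      1 ≤ q.1.ramificationIdx v.toValuationSubring := by
    intro q
    have := q.2.1
    have hl : q.1.LiesOver (maximalIdeal v.toValuationSubring) := q.2.2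
    exact Ideal.ramificationIdx_pos q.1 v.toValuationSubring
  have hle : ∀ q ∈ (Finset.univ : Finset ((maximalIdeal v.toValuationSubring).primesOver
      (mrmnB v F'))), q.1.ramificationIdx v.toValuationSubring
        ≤ s q * q.1.ramificationIdx v.toValuationSubring := fun q _ =>
    Nat.le_mul_of_pos_left _ (hpos q)
  have heq := (Finset.sum_eq_sum_iff_of_le hle).1 h3 q (Finset.mem_univ q)
  have hsq : s q = 1 := by
    have h4 := he q
    have h5 : 1 * q.1.ramificationIdx v.toValuationSubring
        = s q * q.1.ramificationIdx v.toValuationSubring := by rw [one_mul]; exact heq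
    exact (Nat.eq_of_mul_eq_mul_right (by omega) h5).symm
  rw [hs q, hsq, pow_one]

theorem mrmnB_relNorm_eq_pow (hdeg' : ∀ w : Place K F', w.deg = 1) (I : Ideal (mrmnB v F')) (hI : I ≠ ⊥) :
    Ideal.relNorm v.toValuationSubring I
      = maximalIdeal v.toValuationSubring ^ Multiset.card (normalizedFactors I) := by
  conv_lhs => rw [← Ideal.prod_normalizedFactors_eq_self hI]
  rw [map_multiset_prod]
  have : Multiset.map (Ideal.relNorm v.toValuationSubring) (normalizedFactors I)
      = Multiset.replicate (Multiset.card (normalizedFactors I))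
          (maximalIdeal v.toValuationSubring) := by
    rw [Multiset.eq_replicate]
    refine ⟨by simp, fun J hJ => ?_⟩
    obtain ⟨q, hq, rfl⟩ := Multiset.mem_map.1 hJ
    have hprime := Ideal.isPrime_of_prime (prime_of_normalized_factor q hq)
    have hlies := mrmnB_liesOver_of_prime v q (prime_of_normalized_factor q hq).ne_zero
    exact mrmnB_relNorm_prime v hdeg' ⟨q, hprime, hlies⟩
  rw [this, Multiset.prod_replicate]

/-- `ord` at the place attached to `q` of an element of `B` is the multiplicity of `q` -/
theorem mrmnPlace_ord_algebraMap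
    (q : (maximalIdeal v.toValuationSubring).primesOver (mrmnB v F')) {b : mrmnB v F'}
    (hb : b ≠ 0) :
    (mrmnPlace v q).ord (algebraMap (mrmnB v F') F' b)
      = ((normalizedFactors (Ideal.span {b})).count q.1 : ℤ) := by
  classical
  have hq := q.2.1
  have hq0 : q.1 ≠ ⊥ := (mrmnHeightOne v q).ne_bot
  have hI : Ideal.span {b} ≠ ⊥ := by
    rw [ne_eq, Ideal.span_singleton_eq_bot]; exact hb
  rw [mrmnPlace, ord_ofHeightOneSpectrum, HeightOneSpectrum.valuation_of_algebraMap,
    HeightOneSpectrum.intValuation_eq_exp_neg_multiplicity _ hb, log_exp, neg_neg]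
  congr 1
  show multiplicity q.1 (Ideal.span {b}) = _
  rw [multiplicity_eq_of_emultiplicity_eq_some (emultiplicity_eq_count_normalizedFactors
      (Ideal.prime_of_isPrime hq0 hq).irreducible hI), normalize_eq]

theorem mrmnB_sum_count (I : Ideal (mrmnB v F'))
    [Fintype ((maximalIdeal v.toValuationSubring).primesOver (mrmnB v F'))]
    [DecidableEq (Ideal (mrmnB v F'))] :
    ∑ q : (maximalIdeal v.toValuationSubring).primesOver (mrmnB v F'),
      (normalizedFactors I).count q.1 = Multiset.card (normalizedFactors I) := by
  classical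
  rw [← Multiset.toFinset_sum_count_eq]
  have h1 : ∑ q : (maximalIdeal v.toValuationSubring).primesOver (mrmnB v F'),
      (normalizedFactors I).count q.1
      = ∑ J ∈ (Finset.univ.image (fun q : (maximalIdeal v.toValuationSubring).primesOver
          (mrmnB v F') => q.1)), (normalizedFactors I).count J := by
    rw [Finset.sum_image (fun a _ b _ h => Subtype.ext h)]
  rw [h1]
  symm
  refine Finset.sum_subset ?_ ?_
  · intro J hJ
    rw [Multiset.mem_toFinset] at hJ
    have hprime := Ideal.isPrime_of_prime (prime_of_normalized_factor J hJ)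
    have hlies := mrmnB_liesOver_of_prime v J (prime_of_normalized_factor J hJ).ne_zero
    rw [Finset.mem_image]
    exact ⟨⟨J, hprime, hlies⟩, Finset.mem_univ _, rfl⟩
  · intro J _ hJ
    rw [Multiset.mem_toFinset] at hJ
    exact Multiset.count_eq_zero.2 hJ

/-- an element of `𝒪_v` generating `𝔪_v ^ m` has order `m` -/
theorem mrmn_ord_of_span_eq_pow {x : v.toValuationSubring} {m : ℕ}
    (h : Ideal.span {x} = maximalIdeal v.toValuationSubring ^ m) : v.ord (x : F) = m := by
  obtain ⟨π, hπ⟩ := IsDiscreteValuationRing.exists_irreducible v.toValuationSubring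
  rw [hπ.maximalIdeal_eq, Ideal.span_singleton_pow, Ideal.span_singleton_eq_span_singleton] at h
  obtain ⟨u, hu⟩ := h.symm
  have hx : (x : F) = ((u : v.toValuationSubring) : F) * ((π : F) ^ (m : ℤ)) := by
    rw [← hu, zpow_natCast]
    push_cast
    ring
  rw [hx]
  exact v.ord_unit_smul_zpow u hπ m

/-- (N1) the norm formula for elements of `B` -/
theorem mrmn_sum_ord_algebraMap (hdeg' : ∀ w : Place K F', w.deg = 1)
    [Fintype ((maximalIdeal v.toValuationSubring).primesOver (mrmnB v F'))]
    {b : mrmnB v F'} (hb : b ≠ 0) :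
    ∑ q : (maximalIdeal v.toValuationSubring).primesOver (mrmnB v F'),
      (mrmnPlace v q).ord (algebraMap (mrmnB v F') F' b)
      = v.ord (Algebra.norm F (algebraMap (mrmnB v F') F' b)) := by
  classical
  have hI : Ideal.span {b} ≠ ⊥ := by
    rw [ne_eq, Ideal.span_singleton_eq_bot]; exact hb
  have h1 : ∑ q : (maximalIdeal v.toValuationSubring).primesOver (mrmnB v F'),
      (mrmnPlace v q).ord (algebraMap (mrmnB v F') F' b)
      = (Multiset.card (normalizedFactors (Ideal.span {b})) : ℤ) := by
    rw [← mrmnB_sum_count v (Ideal.span {b})]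
    push_cast
    exact Finset.sum_congr rfl fun q _ => mrmnPlace_ord_algebraMap v q hb
  have h2 := mrmnB_relNorm_eq_pow v hdeg' (Ideal.span {b}) hI
  rw [Ideal.relNorm_singleton] at h2
  have h3 := mrmn_ord_of_span_eq_pow v h2
  rw [h1, ← h3, ← Algebra.algebraMap_intNorm (A := v.toValuationSubring) (K := F) (L := F')
    (B := mrmnB v F') b]
  rfl


end Norm

section OnePlace

variable [Algebra.IsSeparable F F'] [Module.Finite F F'] (v : Place K F)

local instance mrmnl_tower : IsScalarTower K v.toValuationSubring F' := mrmn_isScalarTower_place v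
local instance mrmnl_dedekind : IsDedekindDomain (mrmnB v F') := mrmnB_isDedekindDomain v
local instance mrmnl_fraction : IsFractionRing (mrmnB v F') F' := mrmnB_isFractionRing v
local instance mrmnl_finite : Module.Finite v.toValuationSubring (mrmnB v F') := mrmnB_finite v
local instance mrmnl_flat : Module.Flat v.toValuationSubring (mrmnB v F') := mrmnB_flat v

/-- the norm formula at `v`, summed over the primes of `B` over `𝔪_v` -/
theorem mrmn_sum_ord (hdeg' : ∀ w : Place K F', w.deg = 1)
    [Fintype ((maximalIdeal v.toValuationSubring).primesOver (mrmnB v F'))]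
    {f : F'} (hf : f ≠ 0) :
    ∑ q : (maximalIdeal v.toValuationSubring).primesOver (mrmnB v F'), (mrmnPlace v q).ord f
      = v.ord (Algebra.norm F f) := by
  obtain ⟨b, c, hc, rfl⟩ := IsFractionRing.div_surjective (A := mrmnB v F') f
  have hc0 : c ≠ 0 := nonZeroDivisors.ne_zero hc
  have hcF : algebraMap (mrmnB v F') F' c ≠ 0 := by
    rwa [ne_eq, FaithfulSMul.algebraMap_eq_zero_iff]
  have hbF : algebraMap (mrmnB v F') F' b ≠ 0 := by
    intro h
    rw [h, zero_div] at hf
    exact hf rfl
  have hb0 : b ≠ 0 := by
    rintro rfl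
    exact hbF (map_zero _)
  have hNc : Algebra.norm F (algebraMap (mrmnB v F') F' c) ≠ 0 := Algebra.norm_ne_zero_iff.mpr hcF
  have hNf : Algebra.norm F (algebraMap (mrmnB v F') F' b / algebraMap (mrmnB v F') F' c) ≠ 0 :=
    Algebra.norm_ne_zero_iff.mpr hf
  have hmul : algebraMap (mrmnB v F') F' b / algebraMap (mrmnB v F') F' c
      * algebraMap (mrmnB v F') F' c = algebraMap (mrmnB v F') F' b := div_mul_cancel₀ _ hcF
  have h1 : ∀ q : (maximalIdeal v.toValuationSubring).primesOver (mrmnB v F'),
      (mrmnPlace v q).ord (algebraMap (mrmnB v F') F' b / algebraMap (mrmnB v F') F' c)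
        = (mrmnPlace v q).ord (algebraMap (mrmnB v F') F' b)
          - (mrmnPlace v q).ord (algebraMap (mrmnB v F') F' c) := by
    intro q
    have := (mrmnPlace v q).ord_mul hf hcF
    rw [hmul] at this
    omega
  have h2 : v.ord (Algebra.norm F (algebraMap (mrmnB v F') F' b / algebraMap (mrmnB v F') F' c))
      = v.ord (Algebra.norm F (algebraMap (mrmnB v F') F' b))
        - v.ord (Algebra.norm F (algebraMap (mrmnB v F') F' c)) := by
    have := v.ord_mul hNf hNc
    rw [← map_mul, hmul] at this
    omega
  simp_rw [h1]
  rw [Finset.sum_sub_distrib, mrmn_sum_ord_algebraMap v hdeg' hb0,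
    mrmn_sum_ord_algebraMap v hdeg' hc0, h2]


/-- the places of `F'` over `v` are finitely many -/
theorem mrmn_fiber_finite : {w : Place K F' | w.restrict F = v}.Finite := by
  have hfinp := mrmnB_finite_primesOver (F' := F') v
  have hsub : {w : Place K F' | w.restrict F = v} ⊆
      Set.range (mrmnPlace (K := K) (F' := F') v) := by
    intro w hw
    obtain ⟨q, hq⟩ := mrmnPlace_surj v w hw
    exact ⟨q, hq⟩
  haveI : Finite ((maximalIdeal v.toValuationSubring).primesOver (mrmnB v F')) := hfinp
  exact (Set.finite_range _).subset hsub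

/-- **THE NORM FORMULA** (any characteristic) : `ord_v (N_{F'/F} f) = ∑_{w | v} ord_w f`. -/
theorem mrmn_norm_formula (hdeg' : ∀ w : Place K F', w.deg = 1) {f : F'} (hf : f ≠ 0)
    (T : Finset (Place K F')) (hT : ∀ w, w ∈ T ↔ w.restrict F = v) :
    v.ord (Algebra.norm F f) = ∑ w ∈ T, w.ord f := by
  classical
  have hfinp := mrmnB_finite_primesOver (F' := F') v
  let _ : Fintype ((maximalIdeal v.toValuationSubring).primesOver (mrmnB v F')) := hfinp.fintype
  rw [← mrmn_sum_ord v hdeg' hf]
  have himg : T = Finset.univ.image (mrmnPlace (K := K) (F' := F') v) := by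
    ext w
    simp only [Finset.mem_image, Finset.mem_univ, true_and, hT]
    constructor
    · exact mrmnPlace_surj v w
    · rintro ⟨q, rfl⟩
      exact mrmnPlace_restrict v q
  rw [himg, Finset.sum_image (fun a _ b _ h => mrmnPlace_injective v h)]

/-- **THE FUNDAMENTAL IDENTITY** (any characteristic, degree one places) :
`∑_{w | v} e(w | v) = [F' : F]`. -/
theorem mrmn_sum_ramificationIndex (hdeg' : ∀ w : Place K F', w.deg = 1)
    (T : Finset (Place K F')) (hT : ∀ w, w ∈ T ↔ w.restrict F = v) :
    ∑ w ∈ T, w.ramificationIndex F = Module.finrank F F' := by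
  classical
  have hfinp := mrmnB_finite_primesOver (F' := F') v
  let _ : Fintype ((maximalIdeal v.toValuationSubring).primesOver (mrmnB v F')) := hfinp.fintype
  rw [← mrmnB_sum_ramificationIdx v hdeg']
  have himg : T = Finset.univ.image (mrmnPlace (K := K) (F' := F') v) := by
    ext w
    simp only [Finset.mem_image, Finset.mem_univ, true_and, hT]
    constructor
    · exact mrmnPlace_surj v w
    · rintro ⟨q, rfl⟩
      exact mrmnPlace_restrict v q
  rw [himg, Finset.sum_image (fun a _ b _ h => mrmnPlace_injective v h)]
  exact Finset.sum_congr rfl fun q _ => mrmnPlace_ramificationIndex v q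

end OnePlace

/-! ### The `…Along` forms (Prelude conventions) -/

section Along

variable {K F F' : Type*} [Field K] [Field F] [Field F'] [Algebra K F] [Algebra K F']

/-- `φ` makes `F'` a finite separable extension of `F`. -/
def MrmnSepAlong (φ : F →ₐ[K] F') : Prop :=
  letI := algebraAlong φ
  Algebra.IsSeparable F F'

/-- the norm along `φ` (the same algebra structure as `Divisor.pushforwardAlong φ`). -/
noncomputable def mrmnNorm (φ : F →ₐ[K] F') (g : F') : F :=
  letI := algebraAlong φ
  Algebra.norm F g

theorem mrmn_along_fiber_finite (φ : F →ₐ[K] F') (hφ : φ.toRingHom.IsIntegral)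
    (hfin : FiniteAlong K φ) (hsep : MrmnSepAlong φ) (v : Place K F) :
    {w : Place K F' | w.restrictAlong φ hφ = v}.Finite := by
  letI := algebraAlong φ
  haveI := isScalarTower_along φ
  haveI := isIntegral_along φ hφ
  haveI : Module.Finite F F' := hfin
  haveI : Algebra.IsSeparable F F' := hsep
  exact mrmn_fiber_finite v

/-- **NORM FORMULA along `φ`**, any characteristic. -/
theorem mrmn_along_norm_formula (φ : F →ₐ[K] F') (hφ : φ.toRingHom.IsIntegral)
    (hfin : FiniteAlong K φ) (hsep : MrmnSepAlong φ) (hdeg' : ∀ w : Place K F', w.deg = 1)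
    (v : Place K F) {f : F'} (hf : f ≠ 0) (T : Finset (Place K F'))
    (hT : ∀ w, w ∈ T ↔ w.restrictAlong φ hφ = v) :
    v.ord (mrmnNorm φ f) = ∑ w ∈ T, w.ord f := by
  letI := algebraAlong φ
  haveI := isScalarTower_along φ
  haveI := isIntegral_along φ hφ
  haveI : Module.Finite F F' := hfin
  haveI : Algebra.IsSeparable F F' := hsep
  exact mrmn_norm_formula v hdeg' hf T hT

/-- **FUNDAMENTAL IDENTITY along `φ`**, any characteristic. -/
theorem mrmn_along_sum_ramificationIndex (φ : F →ₐ[K] F') (hφ : φ.toRingHom.IsIntegral)
    (hfin : FiniteAlong K φ) (hsep : MrmnSepAlong φ) (hdeg' : ∀ w : Place K F', w.deg = 1)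
    (v : Place K F) (T : Finset (Place K F'))
    (hT : ∀ w, w ∈ T ↔ w.restrictAlong φ hφ = v) :
    ∑ w ∈ T, w.ramificationIndexAlong φ = finrankAlong K φ := by
  letI := algebraAlong φ
  haveI := isScalarTower_along φ
  haveI := isIntegral_along φ hφ
  haveI : Module.Finite F F' := hfin
  haveI : Algebra.IsSeparable F F' := hsep
  exact mrmn_sum_ramificationIndex v hdeg' T hT

end Along

end Fermat.Agent.MR
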