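import Mathlib
import Fermat.Agent.MR.Mu.NormP

/-!
# Program MR (S44), block `mrm`, leaf EISENSTEIN (M3) : THE EISENSTEIN VECTOR, generic form

Owner: helper20.  Namespace `Fermat.Agent.MR`, prefix `mrme`.

`a b : F →ₐ[K] F'` two maps of function fields over an algebraically closed field `K` of ANY
characteristic (`a = ᾱ`, `b = β̄ : F_k(M) → F_k(M ℓ)`), `a` finite separable of degree `n`
(`n = ℓ + 1`), all places of `F'` of degree one.  `node` a set of places of `F`, `e` the thickness,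
BALANCED (helper26's `MrmBalance`, = thickness multiplicativity at the two levels) :
a place `y` of `F'` lies over a node along `a` iff it does along `b`, and then
`e (a y) * e_b(y) = e (b y) * e_a(y)`.
If `p ∤ e Q` and the orders of `ψ` at the nodes lie on the line `e_Q ord_Q ψ ≡ c (mod p)` then
`ord_Q (N_a (b ψ)) ≡ n ord_Q ψ (mod p)` at every node `Q` : `mrme_eis_gen`.
-/

set_option autoImplicit false
set_option linter.unusedSectionVars false
set_option linter.style.haveILetI false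

namespace Fermat.Agent.MR

open AlgebraicCurve Finset

/-- the arithmetic core, balanced form (no thickness upstairs). -/
theorem mrme_eis_bal (p : ℕ) [hp : Fact p.Prime] {ι : Type*} (T : Finset ι) (eα eβ : ι → ℕ)
    (eQ : ℕ) (eB : ι → ℕ) (mQ : ℤ) (mB : ι → ℤ) (c : ℤ) (n : ℕ)
    (hbal : ∀ y ∈ T, eQ * eβ y = eB y * eα y) (hQ : ¬ p ∣ eQ)
    (hWQ : (p : ℤ) ∣ (eQ : ℤ) * mQ - c) (hWB : ∀ y ∈ T, (p : ℤ) ∣ (eB y : ℤ) * mB y - c)
    (hdeg : ∑ y ∈ T, eα y = n) :
    (p : ℤ) ∣ ∑ y ∈ T, (eβ y : ℤ) * mB y - (n : ℤ) * mQ := by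
  have hpZ : Prime (p : ℤ) := Nat.prime_iff_prime_int.mp hp.out
  have hQZ : ¬ (p : ℤ) ∣ (eQ : ℤ) := by
    intro h
    exact hQ (Int.natCast_dvd_natCast.mp h)
  -- termwise: `p ∣ eβ y * mB y - eα y * mQ`
  have key : ∀ y ∈ T, (p : ℤ) ∣ (eβ y : ℤ) * mB y - (eα y : ℤ) * mQ := by
    intro y hy
    have h1 : ((eQ : ℤ)) * ((eβ y : ℤ) * mB y - (eα y : ℤ) * mQ)
        = (eα y : ℤ) * ((eB y : ℤ) * mB y - c) - (eα y : ℤ) * ((eQ : ℤ) * mQ - c) := by
      have hb : ((eQ : ℤ)) * (eβ y : ℤ) = (eB y : ℤ) * (eα y : ℤ) := by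
        exact_mod_cast hbal y hy
      have : ((eQ : ℤ)) * ((eβ y : ℤ) * mB y) = (eB y : ℤ) * (eα y : ℤ) * mB y := by
        rw [← mul_assoc, hb]
      linear_combination this
    have h2 : (p : ℤ) ∣ ((eQ : ℤ)) * ((eβ y : ℤ) * mB y - (eα y : ℤ) * mQ) := by
      rw [h1]
      exact dvd_sub (Dvd.dvd.mul_left (hWB y hy) _) (Dvd.dvd.mul_left hWQ _)
    exact (hpZ.dvd_or_dvd h2).resolve_left hQZ
  have hsum : ∑ y ∈ T, (eβ y : ℤ) * mB y - (n : ℤ) * mQ
      = ∑ y ∈ T, ((eβ y : ℤ) * mB y - (eα y : ℤ) * mQ) := by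
    rw [Finset.sum_sub_distrib, ← Finset.sum_mul, ← hdeg]
    push_cast
    ring
  rw [hsum]
  exact Finset.dvd_sum key

variable {K F F' : Type*} [Field K] [Field F] [Field F'] [Algebra K F] [Algebra K F']

/-- **(M3) THE EISENSTEIN VECTOR, generic form.** -/
theorem mrme_eis_gen (p : ℕ) [Fact p.Prime] (a b : F →ₐ[K] F')
    (ha : a.toRingHom.IsIntegral) (hb : b.toRingHom.IsIntegral)
    (hfin : FiniteAlong K a) (hsep : MrmnSepAlong a) (hdeg' : ∀ w : Place K F', w.deg = 1)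
    (n : ℕ) (hn : finrankAlong K a = n)
    (node : Set (Place K F)) (e : Place K F → ℕ)
    (hbal : ∀ y : Place K F',
      (y.restrictAlong a ha ∈ node ↔ y.restrictAlong b hb ∈ node) ∧
      (y.restrictAlong a ha ∈ node →
        e (y.restrictAlong a ha) * y.ramificationIndexAlong b =
          e (y.restrictAlong b hb) * y.ramificationIndexAlong a))
    (hthick : ∀ Q ∈ node, ¬ p ∣ e Q) (ψ : F) (c : ℤ) (hψ : ψ ≠ 0)
    (hW : ∀ Q ∈ node, (p : ℤ) ∣ (e Q : ℤ) * Q.ord ψ - c) :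
    ∀ Q ∈ node, (p : ℤ) ∣ Q.ord (mrmnNorm a (b ψ)) - (n : ℤ) * Q.ord ψ := by
  classical
  intro Q hQ
  -- the fibre of `a` over `Q`
  have hfinT := mrmn_along_fiber_finite a ha hfin hsep Q
  set T : Finset (Place K F') := hfinT.toFinset with hTdef
  have hT : ∀ w, w ∈ T ↔ w.restrictAlong a ha = Q := by
    intro w
    rw [hTdef, Set.Finite.mem_toFinset]
    rfl
  have hbψ : b ψ ≠ 0 := by
    intro h
    exact hψ ((map_eq_zero_iff b b.toRingHom.injective).mp h)
  rw [mrmn_along_norm_formula a ha hfin hsep hdeg' Q hbψ T hT]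
  have hord : ∀ y ∈ T, y.ord (b ψ)
      = (y.ramificationIndexAlong b : ℤ) * (y.restrictAlong b hb).ord ψ := fun y _ =>
    Place.ord_restrictAlong b hb y ψ
  rw [Finset.sum_congr rfl hord]
  refine mrme_eis_bal p T (fun y => y.ramificationIndexAlong a)
    (fun y => y.ramificationIndexAlong b) (e Q) (fun y => e (y.restrictAlong b hb)) (Q.ord ψ)
    (fun y => (y.restrictAlong b hb).ord ψ) c n ?_ (hthick Q hQ) (hW Q hQ) ?_ ?_
  · intro y hy
    have hyQ : y.restrictAlong a ha = Q := (hT y).1 hy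
    have h := (hbal y).2 (by rw [hyQ]; exact hQ)
    rw [hyQ] at h
    exact h
  · intro y hy
    have hyQ : y.restrictAlong a ha = Q := (hT y).1 hy
    have hnode : y.restrictAlong b hb ∈ node := (hbal y).1.1 (by rw [hyQ]; exact hQ)
    exact hW _ hnode
  · rw [← hn]
    exact mrmn_along_sum_ramificationIndex a ha hfin hsep hdeg' Q T hT

end Fermat.Agent.MR
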