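import Mathlib
import Fermat.Agent.MR.Mu.NormP

/-!
# Program MR (S44), block `mrm` : separability of a map of function fields from a separating
generator upstairs (any characteristic)

Owner: helper20.  Namespace `Fermat.Agent.MR`, prefix `mrmn`.

`φ : F →ₐ[K] F'`, `t : F` such that `φ t` is a separating generator of `F'/K` (S24 `IsSepGen`).
Then `F'` is separable (and finite) over `F` along `φ` : `mrmn_sepAlong_of_isSepGen`,
`mrmn_finiteAlong_of_isSepGen`.  (For `ᾱ = ssvmdIncl k M ℓ : F_k(M) → F_k(M ℓ)` and `t = j̄` :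
`φ t = j̄` is a separating generator at level `M ℓ` by `GrdChart.sepK`.)
-/

set_option autoImplicit false
set_option linter.unusedSectionVars false
set_option linter.style.haveILetI false

namespace Fermat.Agent.MR

open AlgebraicCurve IntermediateField Polynomial Fermat.Agent.S24

variable {K F F' : Type*} [Field K] [Field F] [Field F'] [Algebra K F] [Algebra K F']

/-- `K⟮φ t⟯` lies in the range of `φ`. -/
theorem mrmn_adjoin_le_range (φ : F →ₐ[K] F') (t : F) (c : K⟮φ t⟯) :
    ∃ c₀ : F, φ c₀ = (c : F') := by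
  have hle : K⟮φ t⟯ ≤ φ.fieldRange := by
    rw [adjoin_simple_le_iff]
    exact ⟨t, rfl⟩
  obtain ⟨c₀, hc₀⟩ := hle c.2
  exact ⟨c₀, hc₀⟩

/-- **separability along `φ`** from a separating generator upstairs. -/
theorem mrmn_sepAlong_of_isSepGen (φ : F →ₐ[K] F') (t : F) (ht' : IsSepGen K (φ t)) :
    MrmnSepAlong φ := by
  letI := algebraAlong φ
  haveI := ht'.separable
  show Algebra.IsSeparable F F'
  refine ⟨fun x => ?_⟩
  have hx : IsSeparable K⟮φ t⟯ x := Algebra.IsSeparable.isSeparable K⟮φ t⟯ x
  set P : F'[X] := (minpoly K⟮φ t⟯ x).map (algebraMap K⟮φ t⟯ F') with hP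
  have hPsep : P.Separable := Polynomial.Separable.map hx
  have hlift : P ∈ Polynomial.lifts (φ : F →+* F') := by
    rw [Polynomial.lifts_iff_coeff_lifts]
    intro n
    rw [hP, Polynomial.coeff_map]
    obtain ⟨c₀, hc₀⟩ := mrmn_adjoin_le_range φ t ((minpoly K⟮φ t⟯ x).coeff n)
    exact ⟨c₀, hc₀⟩
  obtain ⟨g, hg⟩ := (Polynomial.mem_lifts P).1 hlift
  have hgsep : g.Separable := (Polynomial.separable_map (φ : F →+* F')).1 (by rw [hg]; exact hPsep)
  have hroot : Polynomial.aeval x g = 0 := by
    have h1 : Polynomial.aeval x g = Polynomial.eval x (g.map (algebraMap F F')) := by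
      rw [Polynomial.aeval_def, Polynomial.eval_map]
    have h2 : g.map (algebraMap F F') = P := hg
    rw [h1, h2, hP, Polynomial.eval_map, ← Polynomial.aeval_def, minpoly.aeval]
  exact hgsep.of_dvd (minpoly.dvd F x hroot)

/-- **finiteness along `φ`** from a separating generator upstairs. -/
theorem mrmn_finiteAlong_of_isSepGen (φ : F →ₐ[K] F') (t : F) (ht' : IsSepGen K (φ t)) :
    FiniteAlong K φ := by
  letI := algebraAlong φ
  haveI := isScalarTower_along φ
  show Module.Finite F F'
  have hfin : FiniteDimensional K⟮φ t⟯ F' := ht'.finite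
  -- a finite spanning set over `K⟮φ t⟯` spans over `F`
  obtain ⟨s, hs⟩ := hfin.fg_top
  refine ⟨⟨s, ?_⟩⟩
  rw [eq_top_iff]
  intro x _
  have hx : x ∈ Submodule.span K⟮φ t⟯ (s : Set F') := by rw [hs]; trivial
  refine Submodule.span_induction (p := fun y _ => y ∈ Submodule.span F (s : Set F'))
    (fun y hy => Submodule.subset_span hy) (Submodule.zero_mem _)
    (fun y z _ _ hy hz => Submodule.add_mem _ hy hz) (fun c y _ hy => ?_) hx
  obtain ⟨c₀, hc₀⟩ := mrmn_adjoin_le_range φ t c
  have : c • y = c₀ • y := by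
    rw [Algebra.smul_def, Algebra.smul_def]
    congr 1
    exact hc₀.symm
  rw [this]
  exact Submodule.smul_mem _ c₀ hy

end Fermat.Agent.MR
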