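import Mathlib
import Fermat.Agent.MR.M.Spec
import Fermat.Agent.MR.Mu.EisGen
import Fermat.Agent.MR.Mu.SepP

/-!
# Program MR (S44), block `mrm`, leaf EISENSTEIN (M3) : `MrmEisSpec` PROVED

Owner: helper20.  Namespace `Fermat.Agent.MR`, prefix `mrme`.
Imports helper26's `MR/M/Spec.lean` (the literal `MrmEisSpec`, `MrmBalance`, `mrmAlB`, `mrmBeB`,
`mrmTbarFun`) + `MR/Mu/{EisGen,SepP}` (mine).

`mrme_eisSpec` : `MrmEisSpec M A` from the four facts about `ᾱ = ssvmdIncl k M ℓ` in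
characteristic `p` :
* `hfin`  : `F_k(M ℓ)` is finite over `F_k(M)` along `ᾱ`      (helper18 `MR/Hecke/Deg.lean`);
* `hsep`  : … and separable (`mrmn_sepAlong_of_isSepGen` with `t = j̄`, `GrdChart.sepK` at `M ℓ`);
* `hdeg'` : all places of `F_k(M ℓ)` have degree one (`IsSepGen.deg_eq_one`, `k` alg. closed);
* `hrank` : `[F_k(M ℓ) : F_k(M)] = ℓ + 1`                       (helper18 `mrhd_finrank`).
`mrme_eisSpec'` : the same with `hfin`, `hsep`, `hdeg'` replaced by ONE separating generator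
`ᾱ t` upstairs.
-/

set_option autoImplicit false
set_option linter.unusedSectionVars false
set_option linter.unusedVariables false
set_option linter.style.haveILetI false

noncomputable section

namespace Fermat.Agent.MR

open AlgebraicCurve IsLocalRing ModularCurve Fermat.Agent.SS Fermat.Agent.S24

local notation "Qb" => AlgebraicClosure ℚ

variable (M : ℕ) [NeZero M] {p : ℕ} [Fact p.Prime] [NeZero p]
variable (A : ValuationSubring Qb)

/-- `T̄_ℓ ψ` is the norm along `ᾱ` of `β̄ ψ`. -/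
theorem mrme_tbar_eq (ℓ : ℕ) [NeZero ℓ]
    (ψ : modularFunctionFieldFullC (ResidueField A) M) :
    mrmTbarFun (ResidueField A) M ℓ ψ =
      mrmnNorm (mrmAlB (ResidueField A) M ℓ) (mrmBeB (ResidueField A) M ℓ ψ) := rfl

/-- **(M3) `MrmEisSpec`** from the generic Eisenstein vector. -/
theorem mrme_eisSpec
    (hfin : ∀ (ℓ : ℕ) [NeZero ℓ], ℓ.Prime → ¬ ℓ ∣ M * p →
      FiniteAlong (ResidueField A) (mrmAlB (ResidueField A) M ℓ))
    (hsep : ∀ (ℓ : ℕ) [NeZero ℓ], ℓ.Prime → ¬ ℓ ∣ M * p →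
      MrmnSepAlong (mrmAlB (ResidueField A) M ℓ))
    (hdeg' : ∀ (ℓ : ℕ) [NeZero ℓ], ℓ.Prime → ¬ ℓ ∣ M * p →
      ∀ w : Place (ResidueField A) ↥(modularFunctionFieldFullC (ResidueField A) (M * ℓ)),
        w.deg = 1)
    (hrank : ∀ (ℓ : ℕ) [NeZero ℓ], ℓ.Prime → ¬ ℓ ∣ M * p →
      finrankAlong (ResidueField A) (mrmAlB (ResidueField A) M ℓ) = ℓ + 1) :
    MrmEisSpec M (p := p) A := by
  intro node e ℓ _ hℓ hℓN hα hβ hbal hthick ψ c hψ hW Q hQ
  have h := mrme_eis_gen p (mrmAlB (ResidueField A) M ℓ) (mrmBeB (ResidueField A) M ℓ) hα hβ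
    (hfin ℓ hℓ hℓN) (hsep ℓ hℓ hℓN) (hdeg' ℓ hℓ hℓN) (ℓ + 1) (hrank ℓ hℓ hℓN) node e hbal hthick
    ψ c hψ hW Q hQ
  have hc : (((ℓ + 1 : ℕ) : ℤ)) = (ℓ : ℤ) + 1 := by push_cast; rfl
  rw [hc] at h
  exact h

/-- the same, from ONE separating generator `ᾱ t` upstairs for every `ℓ` (e.g. `t = j̄`) and the
degree. -/
theorem mrme_eisSpec' [IsAlgClosed (ResidueField A)]
    (t : modularFunctionFieldFullC (ResidueField A) M)
    (hgen : ∀ (ℓ : ℕ) [NeZero ℓ], ℓ.Prime → ¬ ℓ ∣ M * p →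
      IsSepGen (ResidueField A) (mrmAlB (ResidueField A) M ℓ t))
    (hrank : ∀ (ℓ : ℕ) [NeZero ℓ], ℓ.Prime → ¬ ℓ ∣ M * p →
      finrankAlong (ResidueField A) (mrmAlB (ResidueField A) M ℓ) = ℓ + 1) :
    MrmEisSpec M (p := p) A :=
  mrme_eisSpec M A
    (fun ℓ _ hℓ hℓN => mrmn_finiteAlong_of_isSepGen _ t (hgen ℓ hℓ hℓN))
    (fun ℓ _ hℓ hℓN => mrmn_sepAlong_of_isSepGen _ t (hgen ℓ hℓ hℓN))
    (fun ℓ _ hℓ hℓN w => (hgen ℓ hℓ hℓN).deg_eq_one w)
    hrank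

end Fermat.Agent.MR
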