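import Mathlib
import Fermat.Agent.MR.Slope.Cor
import Fermat.Prelude.Def_AlgebraicCurve_Correspondence

/-!
# Program MR (S44), block `mrm`, leaf BALANCE : abstract two-level assembly

Owner: helper20.  Namespace `Fermat.Agent.MR`, prefix `mrmb`.
Imports helper29's `MR/Slope/Cor.lean` (`mrs_thick_mul`) + the Prelude correspondence file.

Two levels.  DOWNSTAIRS : `F/K`, `V₁ V₂`, `red₁ : V₁ → F₁`, a set `node` of places of `F₁` (the
first branches of the nodes), for each `Q ∈ node` the annulus `cen Q` and coordinates `u w` with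
`u w = κ`, `u` a `V₁`-unit with `ord_Q red₁ u = 1`, `w` a `V₂`-unit, `u` zero-free on the annulus,
and `val κ = val π ^ E Q` (`E` = a thickness function, `π` = the prime `p`).
UPSTAIRS : `F'/K` with an `MrsModel`, a set `node'` of places of `F₁'`, for each `y ∈ node'` an
`MrsNode` with annulus `cen' y`.
TWO MAPS `a b : F →ₐ[K] F'` with residual maps `ak bk : F₁ →ₐ[k] F₁'` on the first component :
units go to units (`V_i' ∩ F = V_i`), `red₁' ∘ φ = φ_k ∘ red₁`, a place of `F₁'` lies over a node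
iff it is a node (for both maps), and the annulus of `y` restricts into the annulus of `φ_k y`.

`mrmb_thick_mul` : `val π ^ E (φ_k y) = val κ_y ^ e_{φ_k}(y)`.
`mrmb_balance`   : the literal body of helper26's `MrmBalance` :
`E (ak y) * e_{bk}(y) = E (bk y) * e_{ak}(y)`.
-/

set_option autoImplicit false
set_option linter.unusedSectionVars false
set_option linter.unusedVariables false
set_option linter.style.haveILetI false

noncomputable section

namespace Fermat.Agent.MR

open AlgebraicCurve IsLocalRing Fermat.Agent.G Fermat.Agent.TT Fermat.Agent.S24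

/-- `x ↦ x ^ n` (`n : ℤ`) is injective for `0 < x < 1` in a linearly ordered group with zero. -/
theorem mrmb_zpow_inj {Γ : Type*} [LinearOrderedCommGroupWithZero Γ] {x : Γ} (hx0 : x ≠ 0)
    (hx1 : x < 1) {m n : ℤ} (h : x ^ m = x ^ n) : m = n := by
  by_contra hne
  rcases lt_or_gt_of_ne hne with hlt | hgt
  · have h1 : x ^ (n - m) = 1 := by
      rw [zpow_sub₀ hx0, h, div_self (zpow_ne_zero _ hx0)]
    have hpos : 0 < n - m := by omega
    obtain ⟨d, hd⟩ := Int.eq_ofNat_of_zero_le hpos.le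
    rw [hd, zpow_natCast] at h1
    have hd0 : d ≠ 0 := by
      rintro rfl
      simp at hd
      omega
    have : x ^ d < 1 := pow_lt_one₀ zero_le hx1 hd0
    exact absurd h1 this.ne
  · have h1 : x ^ (m - n) = 1 := by
      rw [zpow_sub₀ hx0, h, div_self (zpow_ne_zero _ hx0)]
    have hpos : 0 < m - n := by omega
    obtain ⟨d, hd⟩ := Int.eq_ofNat_of_zero_le hpos.le
    rw [hd, zpow_natCast] at h1
    have hd0 : d ≠ 0 := by
      rintro rfl
      simp at hd
      omega
    have : x ^ d < 1 := pow_lt_one₀ zero_le hx1 hd0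
    exact absurd h1 this.ne

section TwoLevel

variable {K F F' F₁ F₁' F₂' : Type*} [Field K] [Field F] [Algebra K F] [Field F'] [Algebra K F']
variable (A : ValuationSubring K)
variable [Field F₁] [Algebra (ResidueField A) F₁] [Field F₁'] [Algebra (ResidueField A) F₁']
variable [Field F₂'] [Algebra (ResidueField A) F₂']
variable (V₁ V₂ : ValuationSubring F) (red₁ : V₁ →+* F₁)
variable (V₁' V₂' : ValuationSubring F') (red₁' : V₁' →+* F₁') (red₂' : V₂' →+* F₂')

/-- the data of ONE map `φ : F → F'` between the two levels, with its residual map `φk` on the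
first component. -/
structure MrmbMap (φ : F →ₐ[K] F') (hφ : φ.toRingHom.IsIntegral)
    (φk : F₁ →ₐ[ResidueField A] F₁') (hφk : φk.toRingHom.IsIntegral)
    (node : Set (Place (ResidueField A) F₁)) (node' : Set (Place (ResidueField A) F₁'))
    (cen : Place (ResidueField A) F₁ → Place K F → Prop)
    (cen' : Place (ResidueField A) F₁' → Place K F' → Prop) : Prop where
  /-- units of `V₁` go to units of `V₁'` -/
  unit₁ : ∀ x, TtalIsU V₁ x → TtalIsU V₁' (φ x)
  /-- units of `V₂` go to units of `V₂'` -/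
  unit₂ : ∀ x, TtalIsU V₂ x → TtalIsU V₂' (φ x)
  /-- `red₁' ∘ φ = φk ∘ red₁` -/
  red : ∀ (x : F) (h : x ∈ V₁) (h' : φ x ∈ V₁'), red₁' ⟨φ x, h'⟩ = φk (red₁ ⟨x, h⟩)
  /-- a place of `F₁'` lies over a node iff it is a node -/
  node_iff : ∀ y : Place (ResidueField A) F₁', y.restrictAlong φk hφk ∈ node ↔ y ∈ node'
  /-- the annulus of `y` restricts into the annulus of `φk y` -/
  cen_le : ∀ y ∈ node', ∀ v', cen' y v' → cen (y.restrictAlong φk hφk) (v'.restrictAlong φ hφ)

variable {A V₁ V₂ red₁ V₁' V₂' red₁' red₂'}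

/-- **thickness multiplicativity along one map** : `val κ_s = val κ_y ^ e_{φk}(y)`. -/
theorem mrmb_thick_mul (hM' : MrsModel A V₁' V₂' red₁' red₂')
    {φ : F →ₐ[K] F'} {hφ : φ.toRingHom.IsIntegral}
    {φk : F₁ →ₐ[ResidueField A] F₁'} {hφk : φk.toRingHom.IsIntegral}
    {node : Set (Place (ResidueField A) F₁)} {node' : Set (Place (ResidueField A) F₁')}
    {cen : Place (ResidueField A) F₁ → Place K F → Prop}
    {cen' : Place (ResidueField A) F₁' → Place K F' → Prop}
    (hφd : MrmbMap A V₁ V₂ red₁ V₁' V₂' red₁' φ hφ φk hφk node node' cen cen')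
    (y : Place (ResidueField A) F₁') (hy : y ∈ node')
    {Q₂' : Place (ResidueField A) F₂'} {u' w' : F'} {κ' : K}
    (hN' : MrsNode A V₁' V₂' red₁' red₂' y Q₂' (cen' y) u' w' κ')
    (u w : F) (κ : K) (hκ : κ ≠ 0) (huw : u * w = algebraMap K F κ)
    (hu : TtalIsU V₁ u) (hw : TtalIsU V₂ w)
    (hord : (y.restrictAlong φk hφk).ord (red₁ ⟨u, hu.1⟩) = 1)
    (hfree : ∀ v, cen (y.restrictAlong φk hφk) v → v.ord u = 0) :
    A.valuation κ = A.valuation κ' ^ (y.ramificationIndexAlong φk : ℤ) := by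
  have hUW : φ u * φ w = algebraMap K F' κ := by
    rw [← map_mul, huw, AlgHom.commutes]
  have hfree' : ∀ v', cen' y v' → v'.ord (φ u) = 0 := by
    intro v' hv'
    rw [Place.ord_restrictAlong φ hφ v' u, hfree _ (hφd.cen_le y hy v' hv'), mul_zero]
  obtain ⟨h1, -, -⟩ := mrs_thick_mul hM' hN' (φ u) (φ w) κ hκ hUW (hφd.unit₁ u hu)
    (hφd.unit₂ w hw) hfree'
  rw [h1, hφd.red u hu.1 (hφd.unit₁ u hu).1, Place.ord_restrictAlong φk hφk y, hord, mul_one]

/-- **BALANCE**, abstract : the literal body of `MrmBalance`. -/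
theorem mrmb_balance (hM' : MrsModel A V₁' V₂' red₁' red₂')
    {a b : F →ₐ[K] F'} {ha : a.toRingHom.IsIntegral} {hb : b.toRingHom.IsIntegral}
    {ak bk : F₁ →ₐ[ResidueField A] F₁'} {hak : ak.toRingHom.IsIntegral}
    {hbk : bk.toRingHom.IsIntegral}
    {node : Set (Place (ResidueField A) F₁)} {node' : Set (Place (ResidueField A) F₁')}
    {cen : Place (ResidueField A) F₁ → Place K F → Prop}
    {cen' : Place (ResidueField A) F₁' → Place K F' → Prop}
    (had : MrmbMap A V₁ V₂ red₁ V₁' V₂' red₁' a ha ak hak node node' cen cen')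
    (hbd : MrmbMap A V₁ V₂ red₁ V₁' V₂' red₁' b hb bk hbk node node' cen cen')
    (hnode' : ∀ y ∈ node', ∃ (Q₂' : Place (ResidueField A) F₂') (u' w' : F') (κ' : K),
      MrsNode A V₁' V₂' red₁' red₂' y Q₂' (cen' y) u' w' κ')
    (π : K) (hπ0 : π ≠ 0) (hπ1 : π ∈ A.nonunits) (E : Place (ResidueField A) F₁ → ℕ)
    (hnode : ∀ Q ∈ node, ∃ (u w : F) (κ : K) (hu : TtalIsU V₁ u), κ ≠ 0 ∧
      u * w = algebraMap K F κ ∧ TtalIsU V₂ w ∧ Q.ord (red₁ ⟨u, hu.1⟩) = 1 ∧
      (∀ v, cen Q v → v.ord u = 0) ∧ A.valuation κ = A.valuation π ^ E Q)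
    (y : Place (ResidueField A) F₁') :
    (y.restrictAlong ak hak ∈ node ↔ y.restrictAlong bk hbk ∈ node) ∧
      (y.restrictAlong ak hak ∈ node →
        E (y.restrictAlong ak hak) * y.ramificationIndexAlong bk =
          E (y.restrictAlong bk hbk) * y.ramificationIndexAlong ak) := by
  refine ⟨(had.node_iff y).trans (hbd.node_iff y).symm, fun hya => ?_⟩
  have hy : y ∈ node' := (had.node_iff y).1 hya
  have hyb : y.restrictAlong bk hbk ∈ node := (hbd.node_iff y).2 hy
  obtain ⟨Q₂', u', w', κ', hN'⟩ := hnode' y hy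
  obtain ⟨ua, wa, κa, hua, hκa, huwa, hwa, horda, hfreea, hvala⟩ := hnode _ hya
  obtain ⟨ub, wb, κb, hub, hκb, huwb, hwb, hordb, hfreeb, hvalb⟩ := hnode _ hyb
  have h1 := mrmb_thick_mul hM' had y hy hN' ua wa κa hκa huwa hua hwa horda hfreea
  have h2 := mrmb_thick_mul hM' hbd y hy hN' ub wb κb hκb huwb hub hwb hordb hfreeb
  rw [hvala] at h1
  rw [hvalb] at h2
  -- `val π ^ (E(a y) e_b) = val κ' ^ (e_a e_b) = val π ^ (E(b y) e_a)`
  have hx0 : A.valuation π ≠ 0 := (Valuation.ne_zero_iff _).2 hπ0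
  have hx1 : A.valuation π < 1 := hπ1
  have h3 : A.valuation π ^ ((E (y.restrictAlong ak hak) * y.ramificationIndexAlong bk : ℕ) : ℤ)
      = A.valuation π ^ ((E (y.restrictAlong bk hbk) * y.ramificationIndexAlong ak : ℕ) : ℤ) := by
    calc A.valuation π ^ ((E (y.restrictAlong ak hak) * y.ramificationIndexAlong bk : ℕ) : ℤ)
        = (A.valuation π ^ E (y.restrictAlong ak hak)) ^ y.ramificationIndexAlong bk := by
          rw [zpow_natCast, pow_mul]
      _ = (A.valuation κ' ^ (y.ramificationIndexAlong ak : ℤ)) ^ y.ramificationIndexAlong bk := by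
          rw [h1]
      _ = A.valuation κ' ^ ((y.ramificationIndexAlong ak : ℤ) * (y.ramificationIndexAlong bk : ℤ)) := by
          rw [zpow_mul]
          exact (zpow_natCast _ _).symm
      _ = A.valuation κ' ^ ((y.ramificationIndexAlong bk : ℤ) * (y.ramificationIndexAlong ak : ℤ)) := by
          rw [mul_comm]
      _ = (A.valuation κ' ^ (y.ramificationIndexAlong bk : ℤ)) ^ y.ramificationIndexAlong ak := by
          rw [zpow_mul]
          exact zpow_natCast _ _
      _ = (A.valuation π ^ E (y.restrictAlong bk hbk)) ^ y.ramificationIndexAlong ak := by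
          rw [h2]
      _ = A.valuation π ^ ((E (y.restrictAlong bk hbk) * y.ramificationIndexAlong ak : ℕ) : ℤ) := by
          rw [zpow_natCast, pow_mul]
  have h4 := mrmb_zpow_inj hx0 hx1 h3
  exact_mod_cast h4

end TwoLevel

end Fermat.Agent.MR
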