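import Mathlib
import Fermat.Agent.TT.Red2.NodePlc
import Fermat.Agent.TT.Red2.NodeGlue
import Fermat.Prelude.Def_AlgebraicCurve_Correspondence

/-!
# PROGRAM MR (S44), block `mrm`, leaf (B3)/(B4) : FUNCTORIALITY OF THE NODES, abstract part

Owner: helper1.  Namespace `Fermat.Agent.MR`, prefix `mrmf`.

Two levels : a chart ring `B ⊂ F` downstairs with its two reductions `r₁ r₂ : B → F₁, F₂`, a chart
ring `B' ⊂ F'` upstairs (`F'/F` finite) with `r₁' r₂' : B' → F₁', F₂'`, compatible along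
`φ_j : F_j → F_j'`.

* `mrmf_isIntegral_inv_mul_norm` : `x⁻¹ N(x)` is integral;
* `mrmf_key` : **(KEY)** over a crossing pair `(Q₁, Q₂)` of `B`, every place `y₁` of `F₁'` above `Q₁`
  kills `ker r₂'` (input : the norm commutes with the SECOND reduction, block `mrh`);
* `mrmf_pair_up` : **(B4b)** every place above a node branch is a node branch;
* `mrmf_pair_down` : **(B4a)** a crossing pair upstairs restricts to a crossing pair downstairs.
-/

set_option autoImplicit false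
set_option linter.unusedSectionVars false
set_option linter.unusedVariables false

noncomputable section

namespace Fermat.Agent.MR

open AlgebraicCurve Polynomial Fermat.Agent.G Fermat.Agent.TT Fermat.Agent.S24

section Norm

/-- `x⁻¹ N_{L/K}(x)` is integral over `R` when `x` is. -/
theorem mrmf_isIntegral_inv_mul_norm {R K L : Type*} [CommRing R] [Field K] [Field L]
    [Algebra R K] [Algebra K L] [Algebra R L] [IsScalarTower R K L] [FiniteDimensional K L]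
    {x : L} (hx : IsIntegral R x) (hx0 : x ≠ 0) :
    IsIntegral R (x⁻¹ * algebraMap K L (Algebra.norm K x)) := by
  classical
  let E := AlgebraicClosure L
  rw [← isIntegral_algHom_iff (IsScalarTower.toAlgHom R L E) (algebraMap L E).injective]
  simp only [IsScalarTower.coe_toAlgHom', map_mul, map_inv₀]
  rw [← IsScalarTower.algebraMap_apply K L E, Algebra.norm_eq_prod_roots E (IsAlgClosed.splits _)]
  have hmem : algebraMap L E x ∈ (minpoly K x).aroots E := by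
    rw [mem_aroots]
    refine ⟨minpoly.ne_zero (IsIntegral.of_finite K x), ?_⟩
    rw [aeval_algebraMap_apply, minpoly.aeval, map_zero]
  have hm : Module.finrank (↥(IntermediateField.adjoin K {x})) L ≠ 0 :=
    Nat.pos_iff_ne_zero.1 Module.finrank_pos
  rw [← Multiset.prod_erase hmem, mul_pow,
    ← mul_pow_sub_one hm (algebraMap L E x), mul_assoc, inv_mul_cancel_left₀
      ((map_ne_zero_iff _ (algebraMap L E).injective).2 hx0)]
  have hroot : ∀ a ∈ (minpoly K x).aroots E, IsIntegral R a := by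
    intro a ha
    refine ⟨minpoly R x, minpoly.monic hx, ?_⟩
    have h1 : aeval a ((minpoly R x).map (algebraMap R K)) = 0 := by
      obtain ⟨P, hP⟩ := minpoly.dvd K x
        (show aeval x ((minpoly R x).map (algebraMap R K)) = 0 by simp)
      rw [hP, aeval_mul, (mem_aroots'.mp ha).2, zero_mul]
    rw [aeval_map_algebraMap] at h1
    exact h1
  refine IsIntegral.mul (IsIntegral.pow (hroot _ hmem) _) (IsIntegral.pow ?_ _)
  exact IsIntegral.multiset_prod (fun a ha => hroot a (Multiset.erase_subset _ _ ha))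

end Norm

section Key

variable {k : Type*} [Field k]
variable {F F' : Type*} [Field F] [Field F'] [Algebra F F'] [FiniteDimensional F F']
variable {F₁ F₂ F₁' F₂' : Type*} [Field F₁] [Field F₂] [Field F₁'] [Field F₂']
  [Algebra k F₁] [Algebra k F₂] [Algebra k F₁'] [Algebra k F₂']

/-- the value `1` of the constant function `1`. -/
theorem mrmf_val_one {E : Type*} [Field E] [Algebra k E] (Q : Place k E) : GrdVal Q (1 : E) 1 := by
  have := grdg_val_algebraMap Q (1 : k)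
  rwa [map_one] at this

/-- the value of a difference. -/
theorem mrmf_val_sub {E : Type*} [Field E] [Algebra k E] (Q : Place k E) {x y : E} {a b : k}
    (hx : GrdVal Q x a) (hy : GrdVal Q y b) : GrdVal Q (x - y) (a - b) := by
  have := grdg_val_add Q hx (grdg_val_neg Q hy)
  rwa [← sub_eq_add_neg, ← sub_eq_add_neg] at this

/-- **(KEY)** : over a crossing pair `(Q₁, Q₂)` of `B`, a place `y₁` of `F₁'` above `Q₁` kills
`ker r₂'`. -/
theorem mrmf_key (B : Subring F) (B' : Subring F')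
    (hcl' : ∀ z : F', IsIntegral B z → z ∈ B')
    (r₁ : B →+* F₁) (r₂ : B →+* F₂) (r₁' : B' →+* F₁') (r₂' : B' →+* F₂') (φ₁ : F₁ →+* F₁')
    (hφ₁ : ∀ (b : B) (h : algebraMap F F' (b : F) ∈ B'),
      r₁' ⟨algebraMap F F' (b : F), h⟩ = φ₁ (r₁ b))
    (hint : ∀ z : B', IsIntegral B (z : F'))
    (hnorm : ∀ z : B', r₂' z = 1 → ∃ n : B, (n : F) = Algebra.norm F (z : F') ∧ r₂ n = 1)
    (hconst' : ∀ c : k, ∃ b : B', r₁' b = algebraMap k F₁' c ∧ r₂' b = algebraMap k F₂' c)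
    {Q₁ : Place k F₁} {Q₂ : Place k F₂}
    (hpair : ∀ b : B, ∃ c : k, GrdVal Q₁ (r₁ b) c ∧ GrdVal Q₂ (r₂ b) c)
    (y₁ : Place k F₁') (hy : ∀ (g : F₁) (c : k), GrdVal y₁ (φ₁ g) c → GrdVal Q₁ g c)
    (hval : ∀ b : B', ∃ c : k, GrdVal y₁ (r₁' b) c)
    (x : B') (hx : r₂' x = 0) : GrdVal y₁ (r₁' x) 0 := by
  obtain ⟨c, hc⟩ := hval x
  by_cases hc0 : c = 0
  · rwa [hc0] at hc
  exfalso
  obtain ⟨bc, hb₁, hb₂⟩ := hconst' c⁻¹
  -- `z := 1 - x * bc`
  have hz₂ : r₂' (1 - x * bc) = 1 := by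
    rw [map_sub, map_one, map_mul, hx, zero_mul, sub_zero]
  have hz₁ : GrdVal y₁ (r₁' (1 - x * bc)) 0 := by
    rw [map_sub, map_one, map_mul, hb₁]
    have h1 := grdg_val_mul y₁ hc (grdg_val_algebraMap y₁ c⁻¹)
    have h2 := mrmf_val_sub y₁ (mrmf_val_one y₁) h1
    rwa [mul_inv_cancel₀ hc0, sub_self] at h2
  set z : B' := 1 - x * bc with hz
  obtain ⟨n, hn, hn₂⟩ := hnorm z hz₂
  have hz0 : (z : F') ≠ 0 := by
    intro h0
    have : z = 0 := Subtype.ext h0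
    rw [this, map_zero] at hz₂
    exact zero_ne_one hz₂
  have hzs := hcl' _ (mrmf_isIntegral_inv_mul_norm (K := F) (hint z) hz0)
  have hnB' : algebraMap F F' (n : F) ∈ B' := hcl' _ isIntegral_algebraMap
  have e : (⟨algebraMap F F' (n : F), hnB'⟩ : B') =
      z * ⟨(z : F')⁻¹ * algebraMap F F' (Algebra.norm F (z : F')), hzs⟩ := by
    apply Subtype.ext
    show algebraMap F F' (n : F) = (z : F') * ((z : F')⁻¹ * algebraMap F F' (Algebra.norm F (z : F')))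
    rw [hn, mul_inv_cancel_left₀ hz0]
  have h3 : φ₁ (r₁ n) = r₁' z *
      r₁' ⟨(z : F')⁻¹ * algebraMap F F' (Algebra.norm F (z : F')), hzs⟩ := by
    rw [← hφ₁ n hnB', e, map_mul]
  obtain ⟨d, hd⟩ := hval ⟨(z : F')⁻¹ * algebraMap F F' (Algebra.norm F (z : F')), hzs⟩
  have h4 : GrdVal y₁ (φ₁ (r₁ n)) 0 := by
    rw [h3]
    have := grdg_val_mul y₁ hz₁ hd
    rwa [zero_mul] at this
  have h5 := hy _ _ h4
  obtain ⟨c', h6, h7⟩ := hpair n
  have hc' : c' = 0 := grdg_val_unique Q₁ h6 h5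
  rw [hc', hn₂] at h7
  exact zero_ne_one (grdg_val_unique Q₂ h7 (mrmf_val_one Q₂))

end Key

section Pair

variable {k : Type*} [Field k] [IsAlgClosed k]
variable {F₁' F₂' : Type*} [Field F₁'] [Field F₂'] [Algebra k F₁'] [Algebra k F₂']
variable {B' : Type*} [CommRing B'] {t₁' : F₁'} {t₂' : F₂'}

/-- values exist at a place of the chart. -/
theorem mrmf_val_exists (ht₁' : IsSepGen k t₁') (r₁' : B' →+* F₁')
    (hR₁' : ∀ y, y ∈ intRing k t₁' ↔ ∃ b, r₁' b = y) (y₁ : Place k F₁')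
    (hy₁ : t₁' ∈ y₁.toValuationSubring) (b : B') : ∃ c : k, GrdVal y₁ (r₁' b) c := by
  have h1 : r₁' b ∈ intRing k t₁' := (hR₁' _).2 ⟨b, rfl⟩
  exact grdg_val_exists ht₁' y₁ (intRing_le_place y₁ hy₁ ⟨_, h1⟩)

/-- **(B4b), from (KEY)** : a place of the first component upstairs which kills `ker r₂'` is the
first branch of a crossing pair. -/
theorem mrmf_pair_of_key (ht₁' : IsSepGen k t₁') (ht₂' : IsSepGen k t₂')
    (r₁' : B' →+* F₁') (r₂' : B' →+* F₂')
    (hR₁' : ∀ y, y ∈ intRing k t₁' ↔ ∃ b, r₁' b = y)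
    (hR₂' : ∀ y, y ∈ intRing k t₂' ↔ ∃ b, r₂' b = y)
    (hconst' : ∀ c : k, ∃ b, r₁' b = algebraMap k F₁' c ∧ r₂' b = algebraMap k F₂' c)
    (y₁ : Place k F₁') (hy₁ : t₁' ∈ y₁.toValuationSubring)
    (hkey : ∀ x : B', r₂' x = 0 → GrdVal y₁ (r₁' x) 0) :
    ∃ y₂ : Place k F₂', TtrzPair r₁' r₂' t₁' t₂' y₁ y₂ := by
  have hval := mrmf_val_exists ht₁' r₁' hR₁' y₁ hy₁
  let 𝔫 : Ideal B' :=
    { carrier := {x | GrdVal y₁ (r₁' x) 0}
      add_mem' := by
        intro a b ha hb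
        show GrdVal y₁ (r₁' (a + b)) 0
        have := grdg_val_add y₁ ha hb
        rwa [← map_add, add_zero] at this
      zero_mem' := by
        show GrdVal y₁ (r₁' 0) 0
        rw [map_zero]
        have := grdg_val_algebraMap y₁ (0 : k)
        rwa [map_zero] at this
      smul_mem' := by
        intro c a ha
        show GrdVal y₁ (r₁' (c • a)) 0
        obtain ⟨d, hd⟩ := hval c
        have := grdg_val_mul y₁ hd ha
        rwa [smul_eq_mul, map_mul, ← mul_zero d] }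
  have hmem : ∀ x, x ∈ 𝔫 ↔ GrdVal y₁ (r₁' x) 0 := fun x => Iff.rfl
  have h𝔫 : 𝔫.IsMaximal := by
    rw [Ideal.isMaximal_iff]
    constructor
    · intro h1
      have h2 : GrdVal y₁ (r₁' 1) 0 := h1
      rw [map_one] at h2
      exact zero_ne_one (grdg_val_unique y₁ h2 (mrmf_val_one y₁))
    · intro J x hJ hx hxJ
      obtain ⟨c, hc⟩ := hval x
      have hc0 : c ≠ 0 := by
        rintro rfl
        exact hx hc
      obtain ⟨b, hb, -⟩ := hconst' c⁻¹
      have h1 : x * b - 1 ∈ 𝔫 := by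
        show GrdVal y₁ (r₁' (x * b - 1)) 0
        rw [map_sub, map_mul, map_one, hb]
        have h2 := grdg_val_mul y₁ hc (grdg_val_algebraMap y₁ c⁻¹)
        have h4 := mrmf_val_sub y₁ h2 (mrmf_val_one y₁)
        rwa [mul_inv_cancel₀ hc0, sub_self] at h4
      have h2 : (1 : B') = x * b - (x * b - 1) := by ring
      rw [h2]
      exact J.sub_mem (J.mul_mem_right b hxJ) (hJ h1)
  have h₁ : RingHom.ker r₁' ≤ 𝔫 := by
    intro x hx
    show GrdVal y₁ (r₁' x) 0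
    rw [RingHom.mem_ker.1 hx]
    have := grdg_val_algebraMap y₁ (0 : k)
    rwa [map_zero] at this
  have h₂ : RingHom.ker r₂' ≤ 𝔫 := fun x hx => hkey x (RingHom.mem_ker.1 hx)
  obtain ⟨Q₁', Q₂', hp, hQ⟩ := ttrm_exists_pair ht₁' ht₂' r₁' r₂' hR₁' hR₂' hconst' 𝔫 h𝔫 h₁ h₂
  have hQy : Q₁' = y₁ := by
    by_contra hne
    obtain ⟨w, hw0, hw1⟩ := grdg_separate ht₁' Q₁' y₁ hp.1 hy₁ hne
    obtain ⟨b, hb⟩ := (hR₁' (w : F₁')).1 w.2
    have h3 : b ∈ 𝔫 := (hQ b).2 (by rw [hb]; exact hw0)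
    have h4 : GrdVal y₁ (r₁' b) 0 := h3
    rw [hb] at h4
    exact zero_ne_one (grdg_val_unique y₁ h4 hw1)
  subst hQy
  exact ⟨Q₂', hp⟩

end Pair

section Restrict

variable {k : Type*} [Field k] {E E' : Type*} [Field E] [Field E'] [Algebra k E] [Algebra k E']

/-- values and restriction of places. -/
theorem mrmf_val_restrict (φ : E →ₐ[k] E') (hφ : φ.toRingHom.IsIntegral) (y : Place k E') (g : E)
    (c : k) : GrdVal (y.restrictAlong φ hφ) g c ↔ GrdVal y (φ g) c := by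
  unfold GrdVal
  rw [ValuationSubring.mem_nonunits_iff_or, ValuationSubring.mem_nonunits_iff_or]
  have e : φ g - algebraMap k E' c = φ (g - algebraMap k E c) := by rw [map_sub, AlgHom.commutes]
  rw [e, map_eq_zero_iff φ φ.toRingHom.injective, ← map_inv₀]
  rfl

/-- membership and restriction of places. -/
theorem mrmf_mem_restrict (φ : E →ₐ[k] E') (hφ : φ.toRingHom.IsIntegral) (y : Place k E') (g : E) :
    g ∈ (y.restrictAlong φ hφ).toValuationSubring ↔ φ g ∈ y.toValuationSubring := Iff.rfl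

end Restrict

section Two

variable {k : Type*} [Field k] [IsAlgClosed k]
variable {F F' : Type*} [Field F] [Field F'] [Algebra F F'] [FiniteDimensional F F']
variable {F₁ F₂ F₁' F₂' : Type*} [Field F₁] [Field F₂] [Field F₁'] [Field F₂']
  [Algebra k F₁] [Algebra k F₂] [Algebra k F₁'] [Algebra k F₂']
variable {t₁ : F₁} {t₂ : F₂} {t₁' : F₁'} {t₂' : F₂'}

/-- **(B4b)** : every place of the first component upstairs above the first branch of a crossing
pair downstairs is the first branch of a crossing pair upstairs. -/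
theorem mrmf_pair_up (B : Subring F) (B' : Subring F')
    (hcl' : ∀ z : F', IsIntegral B z → z ∈ B')
    (r₁ : B →+* F₁) (r₂ : B →+* F₂) (r₁' : B' →+* F₁') (r₂' : B' →+* F₂')
    (φ₁ : F₁ →ₐ[k] F₁') (hφ₁i : φ₁.toRingHom.IsIntegral)
    (hφ₁ : ∀ (b : B) (h : algebraMap F F' (b : F) ∈ B'),
      r₁' ⟨algebraMap F F' (b : F), h⟩ = φ₁ (r₁ b))
    (hint : ∀ z : B', IsIntegral B (z : F'))
    (hnorm : ∀ z : B', r₂' z = 1 → ∃ n : B, (n : F) = Algebra.norm F (z : F') ∧ r₂ n = 1)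
    (ht₁' : IsSepGen k t₁') (ht₂' : IsSepGen k t₂')
    (hR₁' : ∀ y, y ∈ intRing k t₁' ↔ ∃ b, r₁' b = y)
    (hR₂' : ∀ y, y ∈ intRing k t₂' ↔ ∃ b, r₂' b = y)
    (hconst' : ∀ c : k, ∃ b : B', r₁' b = algebraMap k F₁' c ∧ r₂' b = algebraMap k F₂' c)
    {Q₁ : Place k F₁} {Q₂ : Place k F₂} (hp : TtrzPair r₁ r₂ t₁ t₂ Q₁ Q₂)
    (y₁ : Place k F₁') (hy : y₁.restrictAlong φ₁ hφ₁i = Q₁)
    (hy₁ : t₁' ∈ y₁.toValuationSubring) :
    ∃ y₂ : Place k F₂', TtrzPair r₁' r₂' t₁' t₂' y₁ y₂ := by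
  refine mrmf_pair_of_key ht₁' ht₂' r₁' r₂' hR₁' hR₂' hconst' y₁ hy₁ (fun x hx => ?_)
  refine mrmf_key B B' hcl' r₁ r₂ r₁' r₂' φ₁.toRingHom hφ₁ hint hnorm hconst' hp.2.2 y₁
    (fun g c h => ?_) (mrmf_val_exists ht₁' r₁' hR₁' y₁ hy₁) x hx
  rw [← hy]
  exact (mrmf_val_restrict φ₁ hφ₁i y₁ g c).2 h

end Two

section Down

variable {k : Type*} [Field k]
variable {F₁ F₂ F₁' F₂' : Type*} [Field F₁] [Field F₂] [Field F₁'] [Field F₂']
  [Algebra k F₁] [Algebra k F₂] [Algebra k F₁'] [Algebra k F₂']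
variable {B B' : Type*} [CommRing B] [CommRing B']
variable {t₁ : F₁} {t₂ : F₂} {t₁' : F₁'} {t₂' : F₂'}

/-- a valuation subring contains `x` as soon as it contains a power `x ^ n`, `n ≠ 0`. -/
theorem mrmf_mem_of_pow_mem {E : Type*} [Field E] (V : ValuationSubring E) {x : E} {n : ℕ}
    (hn : n ≠ 0) (h : x ^ n ∈ V) : x ∈ V := by
  rw [← ValuationSubring.valuation_le_one_iff] at h ⊢
  rw [map_pow] at h
  exact (pow_le_one_iff hn).1 h

/-- **(B4a)** : a crossing pair upstairs restricts to a crossing pair downstairs. -/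
theorem mrmf_pair_down (r₁ : B →+* F₁) (r₂ : B →+* F₂) (r₁' : B' →+* F₁') (r₂' : B' →+* F₂')
    (ψ : B →+* B') (φ₁ : F₁ →ₐ[k] F₁') (φ₂ : F₂ →ₐ[k] F₂')
    (hφ₁i : φ₁.toRingHom.IsIntegral) (hφ₂i : φ₂.toRingHom.IsIntegral)
    (hψ₁ : ∀ b, r₁' (ψ b) = φ₁ (r₁ b)) (hψ₂ : ∀ b, r₂' (ψ b) = φ₂ (r₂ b))
    (ht₁ : ∃ (b : B) (n : ℕ), n ≠ 0 ∧ r₁ b = t₁ ^ n)
    (ht₂ : ∃ (b : B) (n : ℕ), n ≠ 0 ∧ r₂ b = t₂ ^ n)
    {y₁ : Place k F₁'} {y₂ : Place k F₂'} (hp : TtrzPair r₁' r₂' t₁' t₂' y₁ y₂) :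
    TtrzPair r₁ r₂ t₁ t₂ (y₁.restrictAlong φ₁ hφ₁i) (y₂.restrictAlong φ₂ hφ₂i) := by
  have hv : ∀ b : B, ∃ c : k, GrdVal (y₁.restrictAlong φ₁ hφ₁i) (r₁ b) c ∧
      GrdVal (y₂.restrictAlong φ₂ hφ₂i) (r₂ b) c := by
    intro b
    obtain ⟨c, h1, h2⟩ := hp.2.2 (ψ b)
    rw [hψ₁] at h1
    rw [hψ₂] at h2
    exact ⟨c, (mrmf_val_restrict φ₁ hφ₁i y₁ _ c).2 h1, (mrmf_val_restrict φ₂ hφ₂i y₂ _ c).2 h2⟩
  obtain ⟨b₁, n₁, hn₁, hb₁⟩ := ht₁
  obtain ⟨b₂, n₂, hn₂, hb₂⟩ := ht₂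
  refine ⟨?_, ?_, hv⟩
  · obtain ⟨c, h1, -⟩ := hv b₁
    rw [hb₁] at h1
    exact mrmf_mem_of_pow_mem _ hn₁ (grdg_val_mem _ h1)
  · obtain ⟨c, -, h2⟩ := hv b₂
    rw [hb₂] at h2
    exact mrmf_mem_of_pow_mem _ hn₂ (grdg_val_mem _ h2)

end Down

end Fermat.Agent.MR
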