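import Mathlib
import Fermat.Agent.MR.Mu.FunctAbs
import Fermat.Agent.MR.Hecke.Level
import Fermat.Agent.MR.Sp.Inst
import Fermat.Agent.TT.Red2.IntoNodeS
import Fermat.Agent.TT.Red2.CountJC

/-!
# PROGRAM MR (S44), block `mrm`, leaf (B3)/(B4) : FUNCTORIALITY OF THE NODES AND OF THE ANNULI
along a level map, at the landed two-valuation models of `X₀(M p)` and `X₀((M ℓ) p)`

Owner: helper1.  Namespace `Fermat.Agent.MR`, prefix `mrmf`.

`Φ : F(M p) →ₐ[ℚ̄] F((M ℓ) p)` and `φk : F_k(M) →ₐ[k] F_k(M ℓ)` a pair of level maps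
(`(α_ℓ, ᾱ)` or `(β_ℓ, β̄)`), compatible in the sense of `MrmfLvl` (Gauss rings, first reduction,
Atkin-Lehner involutions).
-/

set_option autoImplicit false
set_option linter.unusedSectionVars false
set_option linter.unusedVariables false
set_option linter.style.haveILetI false
set_option synthInstance.maxHeartbeats 400000

noncomputable section

namespace Fermat.Agent.MR

open Polynomial ModularCurve AlgebraicCurve IsLocalRing Fermat.Agent.G Fermat.Agent.S18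
  Fermat.Agent.S24 Fermat.Agent.FF Fermat.Agent.TT Fermat.Agent.SS

local notation "Qb" => AlgebraicClosure ℚ

section Int

variable (N N' : ℕ) [NeZero N] [NeZero N'] (A : ValuationSubring Qb)
variable (Φ : ↥(modularFunctionFieldBar N) →ₐ[Qb] ↥(modularFunctionFieldBar N'))

theorem mrmf_inclA (r : A) : Φ (grdInclA N A r) = grdInclA N' A r := Φ.commutes _

/-- a level map carries the chart ring of `u` into the chart ring of `u'` as soon as it does so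
for `u` itself. -/
theorem mrmf_grdB_map {u : ↥(modularFunctionFieldBar N)} {u' : ↥(modularFunctionFieldBar N')}
    (hu : Φ u ∈ grdB N' A u') {b : ↥(modularFunctionFieldBar N)} (hb : b ∈ grdB N A u) :
    Φ b ∈ grdB N' A u' :=
  ttrc_isIntegralElem_map (grdInclA N A) (grdInclA N' A) Φ.toRingHom (mrmf_inclA N N' A Φ) u u'
    hu hb

/-- the chart ring upstairs is integrally closed over the chart ring downstairs. -/
theorem mrmf_grdB_closed {u : ↥(modularFunctionFieldBar N)} {u' : ↥(modularFunctionFieldBar N')}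
    (hu : Φ u ∈ grdB N' A u') (z : ↥(modularFunctionFieldBar N'))
    (P : Polynomial ↥(grdB N A u)) (hP : P.Monic)
    (hz : eval₂ (Φ.toRingHom.comp (grdB N A u).subtype) z P = 0) : z ∈ grdB N' A u' := by
  letI : Algebra A[X] ↥(modularFunctionFieldBar N') :=
    (eval₂RingHom (grdInclA N' A) u').toAlgebra
  show IsIntegral A[X] z
  have hev : eval z (P.map (Φ.toRingHom.comp (grdB N A u).subtype)) = 0 := by
    rw [eval_map]; exact hz
  have hdeg : (P.map (Φ.toRingHom.comp (grdB N A u).subtype)).natDegree ≠ 0 := by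
    rw [hP.natDegree_map]
    intro h0
    have h1 : P = 1 := by
      rw [Polynomial.eq_C_of_natDegree_eq_zero h0]
      have := hP.leadingCoeff
      rw [Polynomial.leadingCoeff, h0] at this
      rw [this, map_one]
    rw [h1, Polynomial.map_one, eval_one] at hev
    exact one_ne_zero hev
  refine IsIntegral.of_aeval_monic_of_isIntegral_coeff (hP.map _) hdeg ?_ ?_
  · rw [hev]
    exact isIntegral_zero
  · intro i
    rw [coeff_map]
    exact mrmf_grdB_map N N' A Φ hu (P.coeff i).2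

/-- the chart ring upstairs is integral over the chart ring downstairs. -/
theorem mrmf_grdB_int {u : ↥(modularFunctionFieldBar N)} {u' : ↥(modularFunctionFieldBar N')}
    (hu' : u' ∈ grdB N' A (Φ u)) {z : ↥(modularFunctionFieldBar N')} (hz : z ∈ grdB N' A u') :
    ∃ P : Polynomial ↥(grdB N A u), P.Monic ∧
      eval₂ (Φ.toRingHom.comp (grdB N A u).subtype) z P = 0 := by
  obtain ⟨P, hP, hPz⟩ : GrdIsInt N' A (Φ u) z :=
    ttrc_isIntegralElem_map (grdInclA N' A) (grdInclA N' A) (RingHom.id _) (fun _ => rfl) u' (Φ u)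
      hu' hz
  let ψ : A[X] →+* ↥(grdB N A u) :=
    (eval₂RingHom (grdInclA N A) u).codRestrict (grdB N A u) (fun a => by
      rw [coe_eval₂RingHom, eval₂_eq_sum_range]
      refine Subring.sum_mem _ fun i _ => ?_
      refine Subring.mul_mem _ ?_ (Subring.pow_mem _ (ttrli_u_mem N A u) i)
      exact ttrli_const N A u (a.coeff i))
  refine ⟨P.map ψ, hP.map ψ, ?_⟩
  rw [eval₂_map]
  have e : (Φ.toRingHom.comp (grdB N A u).subtype).comp ψ =
      eval₂RingHom (grdInclA N' A) (Φ u) := by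
    apply Polynomial.ringHom_ext
    · intro a
      show Φ (eval₂ (grdInclA N A) u (C a)) = eval₂ (grdInclA N' A) (Φ u) (C a)
      rw [eval₂_C, eval₂_C]
      exact mrmf_inclA N N' A Φ a
    · show Φ (eval₂ (grdInclA N A) u X) = eval₂ (grdInclA N' A) (Φ u) X
      rw [eval₂_X, eval₂_X]
  rw [e]
  exact hPz

end Int

section Lvl

variable (M : ℕ) [NeZero M] {p : ℕ} [Fact p.Prime] [NeZero p] (ℓ : ℕ) [NeZero ℓ]
variable (A : ValuationSubring Qb) (hpM : ¬ p ∣ M) (hpMℓ : ¬ p ∣ M * ℓ) (hA : A.LiesOverPrime p)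

/-- **the level-change data** : `Φ` maps the Gauss ring into the Gauss ring, commutes with the first
reduction (`φk` on the residue side), and commutes with the Atkin-Lehner involutions. -/
structure MrmfLvl
    (Φ : ↥(modularFunctionFieldBar (M * p)) →ₐ[Qb] ↥(modularFunctionFieldBar (M * ℓ * p)))
    (φk : ↥(modularFunctionFieldFullC (ResidueField A) M) →ₐ[ResidueField A]
      ↥(modularFunctionFieldFullC (ResidueField A) (M * ℓ))) : Prop where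
  mem₁ : ∀ f, f ∈ grdO (M * p) A → Φ f ∈ grdO (M * ℓ * p) A
  red₁ : ∀ f (hf : f ∈ grdO (M * p) A) (h : Φ f ∈ grdO (M * ℓ * p) A),
    ttrRed1 (M * ℓ) A hA ⟨Φ f, h⟩ = φk (ttrRed1 M A hA ⟨f, hf⟩)
  comm : ∀ x, ttrW (M * ℓ) hpMℓ (Φ x) = Φ (ttrW M hpM x)

variable {M ℓ A hpM hpMℓ hA}
variable {Φ : ↥(modularFunctionFieldBar (M * p)) →ₐ[Qb] ↥(modularFunctionFieldBar (M * ℓ * p))}
  {φk : ↥(modularFunctionFieldFullC (ResidueField A) M) →ₐ[ResidueField A]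
      ↥(modularFunctionFieldFullC (ResidueField A) (M * ℓ))}

theorem MrmfLvl.mem₂ (h : MrmfLvl M ℓ A hpM hpMℓ hA Φ φk)
    {f : ↥(modularFunctionFieldBar (M * p))} (hf : f ∈ ttraV2 M A hpM hA) :
    Φ f ∈ ttraV2 (M * ℓ) A hpMℓ hA := by
  rw [ttal_mem_V2] at hf ⊢
  rw [h.comm]
  exact h.mem₁ _ hf

theorem MrmfLvl.red₂ (h : MrmfLvl M ℓ A hpM hpMℓ hA Φ φk)
    (f : ↥(modularFunctionFieldBar (M * p))) (hf : f ∈ ttraV2 M A hpM hA)
    (h' : Φ f ∈ ttraV2 (M * ℓ) A hpMℓ hA) :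
    ttraRed2 (M * ℓ) A hpMℓ hA ⟨Φ f, h'⟩ = φk (ttraRed2 M A hpM hA ⟨f, hf⟩) := by
  have h1 := h.red₁ (ttrW M hpM f) hf (h.mem₁ _ hf)
  show ttrRed1 (M * ℓ) A hA ⟨ttrW (M * ℓ) hpMℓ (Φ f), h'⟩ =
    φk (ttrRed1 M A hA ⟨ttrW M hpM f, hf⟩)
  rw [← h1]
  congr 1
  exact Subtype.ext (h.comm f)

end Lvl

section Node

variable (M : ℕ) [NeZero M] {p : ℕ} [Fact p.Prime] [NeZero p] (ℓ : ℕ) [NeZero ℓ]
variable (A : ValuationSubring Qb) (hpM : ¬ p ∣ M) (hpMℓ : ¬ p ∣ M * ℓ) (hA : A.LiesOverPrime p)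
variable {τ τ' : LaurentSeries ℤ} (hat : GrdAtlas M A τ τ') (hat'' : GrdAtlas (M * ℓ) A τ τ')
variable {Φ : ↥(modularFunctionFieldBar (M * p)) →ₐ[Qb] ↥(modularFunctionFieldBar (M * ℓ * p))}
  {φk : ↥(modularFunctionFieldFullC (ResidueField A) M) →ₐ[ResidueField A]
      ↥(modularFunctionFieldFullC (ResidueField A) (M * ℓ))}

/-- **(B3) FUNCTORIALITY OF THE ANNULI** : a place of `F((M ℓ) p)` centred at the closed point of
the chart under `y₁` restricts to a place of `F(M p)` centred at the closed point under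
`y₁ ∘ φk`. -/
theorem mrmf_cen (h : MrmfLvl M ℓ A hpM hpMℓ hA Φ φk) (hΦ : Φ.toRingHom.IsIntegral)
    (hφk : φk.toRingHom.IsIntegral)
    (hu : Φ (heckeAlphaBar Qb M p (grdQ M hat.c.mem)) ∈
      grdB (M * ℓ * p) A (heckeAlphaBar Qb (M * ℓ) p (grdQ (M * ℓ) hat''.c.mem)))
    (y₁ : Place (ResidueField A) ↥(modularFunctionFieldFullC (ResidueField A) (M * ℓ)))
    (v : Place Qb ↥(modularFunctionFieldBar (M * ℓ * p)))
    (hv : ttruCenN (M * ℓ) A hpMℓ hA hat''.c y₁ v) :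
    ttruCenN M A hpM hA hat.c (y₁.restrictAlong φk hφk) (v.restrictAlong Φ hΦ) := by
  obtain ⟨hv1, hv2⟩ := hv
  refine ⟨?_, fun b hb => ?_⟩
  · obtain ⟨a, ha⟩ := ttrli_chart (M * ℓ * p) A _ v hv1 _ hu
    exact ⟨a, (mrmf_val_restrict Φ hΦ v _ _).2 ha⟩
  · have hb'' := mrmf_grdB_map (M * p) (M * ℓ * p) A Φ hu b.2
    have h1 := (mrmf_val_restrict φk hφk y₁ _ _).1 hb
    have e : φk (ttalRedO₁ (V₂ := ttraV2 M A hpM hA) (ttraRed1 M A hpM hA)
        ⟨b, ttru_le_inst M A hpM hA hat.c b.2⟩) =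
        ttalRedO₁ (V₂ := ttraV2 (M * ℓ) A hpMℓ hA) (ttraRed1 (M * ℓ) A hpMℓ hA)
          ⟨Φ b, ttru_le_inst (M * ℓ) A hpMℓ hA hat''.c hb''⟩ :=
      (h.red₁ b (ttru_le_inst M A hpM hA hat.c b.2).1
        (ttru_le_inst (M * ℓ) A hpMℓ hA hat''.c hb'').1).symm
    rw [e] at h1
    obtain ⟨a, ha, hva⟩ := hv2 ⟨Φ b, hb''⟩ h1
    exact ⟨a, ha, (mrmf_val_restrict Φ hΦ v _ _).2 hva⟩

/-- (B3) at the canonical nodes. -/
theorem mrmf_cenS (h : MrmfLvl M ℓ A hpM hpMℓ hA Φ φk) (hΦ : Φ.toRingHom.IsIntegral)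
    (hφk : φk.toRingHom.IsIntegral)
    (hu : Φ (heckeAlphaBar Qb M p (grdQ M hat.c.mem)) ∈
      grdB (M * ℓ * p) A (heckeAlphaBar Qb (M * ℓ) p (grdQ (M * ℓ) hat''.c.mem)))
    (i'' : ttrkS (M * ℓ) p A hpMℓ hA hat'') (i : ttrkS M p A hpM hA hat)
    (hi : ttrkSν₁ M p A hpM hA hat i =
      (ttrkSν₁ (M * ℓ) p A hpMℓ hA hat'' i'').restrictAlong φk hφk)
    (v : Place Qb ↥(modularFunctionFieldBar (M * ℓ * p)))
    (hv : ttruCenS (M * ℓ) A hpMℓ hA hat'' i'' v) :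
    ttruCenS M A hpM hA hat i (v.restrictAlong Φ hΦ) := by
  unfold ttruCenS at hv ⊢
  rw [hi]
  exact mrmf_cen M ℓ A hpM hpMℓ hA hat hat'' h hΦ hφk hu _ v hv

/-- the restriction of `Φ` to the chart rings. -/
def mrmfPsi
    (hu : Φ (heckeAlphaBar Qb M p (grdQ M hat.c.mem)) ∈
      grdB (M * ℓ * p) A (heckeAlphaBar Qb (M * ℓ) p (grdQ (M * ℓ) hat''.c.mem))) :
    ↥(ttrkT M p A hpM hA hat).B →+* ↥(ttrkT (M * ℓ) p A hpMℓ hA hat'').B :=
  (Φ.toRingHom.comp (ttrkT M p A hpM hA hat).B.val.toRingHom).codRestrict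
    (ttrkT (M * ℓ) p A hpMℓ hA hat'').B
    (fun b => mrmf_grdB_map (M * p) (M * ℓ * p) A Φ hu b.2)

theorem mrmfPsi_coe
    (hu : Φ (heckeAlphaBar Qb M p (grdQ M hat.c.mem)) ∈
      grdB (M * ℓ * p) A (heckeAlphaBar Qb (M * ℓ) p (grdQ (M * ℓ) hat''.c.mem)))
    (b : ↥(ttrkT M p A hpM hA hat).B) :
    ((mrmfPsi M ℓ A hpM hpMℓ hA hat hat'' hu b : ↥(ttrkT (M * ℓ) p A hpMℓ hA hat'').B) :
      ↥(modularFunctionFieldBar (M * ℓ * p))) = Φ (b : ↥(modularFunctionFieldBar (M * p))) := rfl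

theorem mrmf_psi₁ (h : MrmfLvl M ℓ A hpM hpMℓ hA Φ φk)
    (hu : Φ (heckeAlphaBar Qb M p (grdQ M hat.c.mem)) ∈
      grdB (M * ℓ * p) A (heckeAlphaBar Qb (M * ℓ) p (grdQ (M * ℓ) hat''.c.mem)))
    (b : ↥(ttrkT M p A hpM hA hat).B) :
    ttrkR₁ (ttrkT (M * ℓ) p A hpMℓ hA hat'') (mrmfPsi M ℓ A hpM hpMℓ hA hat hat'' hu b) =
      φk (ttrkR₁ (ttrkT M p A hpM hA hat) b) :=
  h.red₁ (b : ↥(modularFunctionFieldBar (M * p))) ((ttrkT M p A hpM hA hat).hB b.2).1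
    ((ttrkT (M * ℓ) p A hpMℓ hA hat'').hB (mrmfPsi M ℓ A hpM hpMℓ hA hat hat'' hu b).2).1

theorem mrmf_psi₂ (h : MrmfLvl M ℓ A hpM hpMℓ hA Φ φk)
    (hu : Φ (heckeAlphaBar Qb M p (grdQ M hat.c.mem)) ∈
      grdB (M * ℓ * p) A (heckeAlphaBar Qb (M * ℓ) p (grdQ (M * ℓ) hat''.c.mem)))
    (b : ↥(ttrkT M p A hpM hA hat).B) :
    ttrkR₂ (ttrkT (M * ℓ) p A hpMℓ hA hat'') (mrmfPsi M ℓ A hpM hpMℓ hA hat hat'' hu b) =
      φk (ttrkR₂ (ttrkT M p A hpM hA hat) b) :=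
  h.red₂ (b : ↥(modularFunctionFieldBar (M * p))) ((ttrkT M p A hpM hA hat).hB b.2).2
    ((ttrkT (M * ℓ) p A hpMℓ hA hat'').hB (mrmfPsi M ℓ A hpM hpMℓ hA hat hat'' hu b).2).2

/-- the chart coordinate and its reductions. -/
theorem mrmf_t₁ : ∃ (b : ↥(ttrkT M p A hpM hA hat).B) (n : ℕ), n ≠ 0 ∧
    ttrkR₁ (ttrkT M p A hpM hA hat) b = grdK M A hat.c.mem ^ n :=
  ⟨⟨(ttrkT M p A hpM hA hat).u, (ttrkT M p A hpM hA hat).hu⟩, 1, one_ne_zero, by
    rw [pow_one]; exact congrArg Prod.fst (ttrkT_ub M p A hpM hA hat)⟩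

theorem mrmf_t₂ : ∃ (b : ↥(ttrkT M p A hpM hA hat).B) (n : ℕ), n ≠ 0 ∧
    ttrkR₂ (ttrkT M p A hpM hA hat) b = grdK M A hat.c.mem ^ n :=
  ⟨⟨(ttrkT M p A hpM hA hat).u, (ttrkT M p A hpM hA hat).hu⟩, p,
    (Fact.out : p.Prime).ne_zero, congrArg Prod.snd (ttrkT_ub M p A hpM hA hat)⟩

/-- **(B4a) FUNCTORIALITY OF THE NODES, downwards** : a node of `X₀((M ℓ) p)` restricts along `φk`
(on both branches) to a node of `X₀(M p)`. -/
theorem mrmf_node_down (h : MrmfLvl M ℓ A hpM hpMℓ hA Φ φk) (hφk : φk.toRingHom.IsIntegral)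
    (hu : Φ (heckeAlphaBar Qb M p (grdQ M hat.c.mem)) ∈
      grdB (M * ℓ * p) A (heckeAlphaBar Qb (M * ℓ) p (grdQ (M * ℓ) hat''.c.mem)))
    (i'' : ttrkS (M * ℓ) p A hpMℓ hA hat'') :
    ∃ i : ttrkS M p A hpM hA hat,
      ttrkSν₁ M p A hpM hA hat i =
        (ttrkSν₁ (M * ℓ) p A hpMℓ hA hat'' i'').restrictAlong φk hφk ∧
      ttrkSν₂ M p A hpM hA hat i =
        (ttrkSν₂ (M * ℓ) p A hpMℓ hA hat'' i'').restrictAlong φk hφk := by
  have key := mrmf_pair_down (k := ResidueField A) (t₁ := grdK M A hat.c.mem)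
    (t₂ := grdK M A hat.c.mem)
    (ttrkR₁ (ttrkT M p A hpM hA hat)) (ttrkR₂ (ttrkT M p A hpM hA hat))
    (ttrkR₁ (ttrkT (M * ℓ) p A hpMℓ hA hat'')) (ttrkR₂ (ttrkT (M * ℓ) p A hpMℓ hA hat''))
    (mrmfPsi M ℓ A hpM hpMℓ hA hat hat'' hu) φk φk hφk hφk
    (mrmf_psi₁ M ℓ A hpM hpMℓ hA hat hat'' h hu) (mrmf_psi₂ M ℓ A hpM hpMℓ hA hat hat'' h hu)
    (mrmf_t₁ M A hpM hA hat) (mrmf_t₂ M A hpM hA hat) i''.2
  exact ⟨⟨(_, _), key⟩, rfl, rfl⟩

end Node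




end Fermat.Agent.MR
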