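import Mathlib
import Fermat.Agent.MR.Mu.BalanceAbs
import Fermat.Agent.MR.Mu.Funct
import Fermat.Agent.MR.M.Leaf
import Fermat.Agent.MR.Node.UpperNode
import Fermat.Agent.MR.Slope.Inst

/-!
# Program MR (S44), block `mrm`, leaf BALANCE : the concrete instance (`MrmBalanceLeaf`)

Owner: helper20 (second: helper18).  Namespace `Fermat.Agent.MR`, prefix `mrmb`.

Imports (by reference): helper1 `MR/Mu/Funct.lean` (`MrmfLvl`, `mrmf_cen`), helper26 `MR/M/Leaf.lean`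
(`MrmBalanceLeaf`, `MrmIsThick`, `mrmNode`), helper19 `MR/Node/UpperNode.lean`
(`mrnup_node_of_coord`, `mrnup_u_free`), helper29 `MR/Slope/Inst.lean` (`mrs_model_inst`),
and `MR/Mu/BalanceAbs.lean` (mine: `MrmbMap`, `mrmb_balance`).

* `mrmbCen M A hpM hA hat Q v` : the places centred at the closed point of the `α`-chart under the
  branch `Q` (`= ttruCenN`; at `Q = ν₁ i` it is `ttruCenS … i`);
* `mrmb_map_of_lvl` : `MrmbMap` from helper1's level bundle `MrmfLvl` + (B3) `mrmf_cen` + the node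
  equivalence `node_iff` (helper1 `mrmf_node_iff`, hypothesis here);
* `mrmb_balance_inst` : `MrmBalance M A (mrmNode …) E ℓ hα hβ` from two `MrmbMap`s, exact node
  coordinates at the level `M ℓ` (`MrnCoordSpec`) and a thickness function `E` at the level `M`;
* `mrmb_balanceLeaf` : `MrmBalanceLeaf M A hpM hA hat`.
-/

set_option autoImplicit false
set_option linter.unusedSectionVars false
set_option linter.unusedVariables false
set_option linter.style.haveILetI false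
set_option synthInstance.maxHeartbeats 400000

noncomputable section

namespace Fermat.Agent.MR

open Polynomial ModularCurve AlgebraicCurve IsLocalRing IntermediateField
  Fermat.Agent.G Fermat.Agent.S18 Fermat.Agent.S24 Fermat.Agent.FF Fermat.Agent.TT
  Fermat.Agent.SS

local notation "Qb" => AlgebraicClosure ℚ

section Map

variable (M : ℕ) [NeZero M] {p : ℕ} [Fact p.Prime] [NeZero p] (ℓ : ℕ) [NeZero ℓ]
variable (A : ValuationSubring Qb) (hpM : ¬ p ∣ M) (hpMℓ : ¬ p ∣ M * ℓ) (hA : A.LiesOverPrime p)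
variable {τ τ' : LaurentSeries ℤ} (hat : GrdAtlas M A τ τ') (hat'' : GrdAtlas (M * ℓ) A τ τ')

/-- the annulus under a branch `Q` of the first component (`= ttruCenN`). -/
def mrmbCen (Q : Place (ResidueField A) ↥(modularFunctionFieldFullC (ResidueField A) M))
    (v : Place Qb ↥(modularFunctionFieldBar (M * p))) : Prop :=
  ttruCenN M A hpM hA hat.c Q v

theorem mrmbCen_node (i : ttrkS M p A hpM hA hat)
    (v : Place Qb ↥(modularFunctionFieldBar (M * p))) :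
    mrmbCen M A hpM hA hat (ttrkSν₁ M p A hpM hA hat i) v ↔ ttruCenS M A hpM hA hat i v :=
  Iff.rfl

variable {Φ : ↥(modularFunctionFieldBar (M * p)) →ₐ[Qb] ↥(modularFunctionFieldBar (M * ℓ * p))}
  {φk : ↥(modularFunctionFieldFullC (ResidueField A) M) →ₐ[ResidueField A]
      ↥(modularFunctionFieldFullC (ResidueField A) (M * ℓ))}

/-- **`MrmbMap` from the level bundle.** -/
theorem mrmb_map_of_lvl (h : MrmfLvl M ℓ A hpM hpMℓ hA Φ φk) (hΦ : Φ.toRingHom.IsIntegral)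
    (hφk : φk.toRingHom.IsIntegral)
    (hu : Φ (heckeAlphaBar Qb M p (grdQ M hat.c.mem)) ∈
      grdB (M * ℓ * p) A (heckeAlphaBar Qb (M * ℓ) p (grdQ (M * ℓ) hat''.c.mem)))
    (hiff : ∀ y : Place (ResidueField A) ↥(modularFunctionFieldFullC (ResidueField A) (M * ℓ)),
      y.restrictAlong φk hφk ∈ Set.range (ttrkSν₁ M p A hpM hA hat) ↔
        y ∈ Set.range (ttrkSν₁ (M * ℓ) p A hpMℓ hA hat'')) :
    MrmbMap A (ttrV1 M A hpM hA) (ttraV2 M A hpM hA) (ttraRed1 M A hpM hA)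
      (ttrV1 (M * ℓ) A hpMℓ hA) (ttraV2 (M * ℓ) A hpMℓ hA) (ttraRed1 (M * ℓ) A hpMℓ hA)
      Φ hΦ φk hφk (Set.range (ttrkSν₁ M p A hpM hA hat))
      (Set.range (ttrkSν₁ (M * ℓ) p A hpMℓ hA hat''))
      (mrmbCen M A hpM hA hat) (mrmbCen (M * ℓ) A hpMℓ hA hat'') where
  unit₁ := fun x hx => ⟨h.mem₁ x hx.1, by rw [← map_inv₀]; exact h.mem₁ _ hx.2⟩
  unit₂ := fun x hx => ⟨h.mem₂ hx.1, by rw [← map_inv₀]; exact h.mem₂ hx.2⟩
  red := fun x hx hx' => h.red₁ x hx hx'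
  node_iff := hiff
  cen_le := fun y _ v' hv' => mrmf_cen M ℓ A hpM hpMℓ hA hat hat'' h hΦ hφk hu y v' hv'

end Map

section Inst

variable (M : ℕ) [NeZero M] {p : ℕ} [Fact p.Prime] [NeZero p] (ℓ : ℕ) [NeZero ℓ]
variable (A : ValuationSubring Qb) (hpM : ¬ p ∣ M) (hpMℓ : ¬ p ∣ M * ℓ) (hA : A.LiesOverPrime p)
variable {σ' : LaurentSeries ℤ} (hat : GrdAtlas M A (jqModC ℤ) σ')
  (hat'' : GrdAtlas (M * ℓ) A (jqModC ℤ) σ')

/-- **BALANCE at one `ℓ`** : from the two level maps `Φa` (`α_ℓ`, residually `ᾱ = mrmAlB`) and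
`Φb` (`β_ℓ`, residually `β̄ = mrmBeB`) as `MrmbMap`s, exact node coordinates at the level `M ℓ`
and a thickness function at the level `M`. -/
theorem mrmb_balance_inst (h5 : 5 ≤ p)
    {Φa Φb : ↥(modularFunctionFieldBar (M * p)) →ₐ[Qb] ↥(modularFunctionFieldBar (M * ℓ * p))}
    {hΦa : Φa.toRingHom.IsIntegral} {hΦb : Φb.toRingHom.IsIntegral}
    {hα : (mrmAlB (ResidueField A) M ℓ).toRingHom.IsIntegral}
    {hβ : (mrmBeB (ResidueField A) M ℓ).toRingHom.IsIntegral}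
    (hmapa : MrmbMap A (ttrV1 M A hpM hA) (ttraV2 M A hpM hA) (ttraRed1 M A hpM hA)
      (ttrV1 (M * ℓ) A hpMℓ hA) (ttraV2 (M * ℓ) A hpMℓ hA) (ttraRed1 (M * ℓ) A hpMℓ hA)
      Φa hΦa (mrmAlB (ResidueField A) M ℓ) hα (Set.range (ttrkSν₁ M p A hpM hA hat))
      (Set.range (ttrkSν₁ (M * ℓ) p A hpMℓ hA hat''))
      (mrmbCen M A hpM hA hat) (mrmbCen (M * ℓ) A hpMℓ hA hat''))
    (hmapb : MrmbMap A (ttrV1 M A hpM hA) (ttraV2 M A hpM hA) (ttraRed1 M A hpM hA)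
      (ttrV1 (M * ℓ) A hpMℓ hA) (ttraV2 (M * ℓ) A hpMℓ hA) (ttraRed1 (M * ℓ) A hpMℓ hA)
      Φb hΦb (mrmBeB (ResidueField A) M ℓ) hβ (Set.range (ttrkSν₁ M p A hpM hA hat))
      (Set.range (ttrkSν₁ (M * ℓ) p A hpMℓ hA hat''))
      (mrmbCen M A hpM hA hat) (mrmbCen (M * ℓ) A hpMℓ hA hat''))
    (hcoord'' : MrnCoordSpec (M * ℓ) A hpMℓ hA hat'')
    (E : Place (ResidueField A) (MrmFk M A) → ℕ) (hE : MrmIsThick M A hpM hA hat E) :
    MrmBalance M A (mrmNode M A hpM hA hat) E ℓ hα hβ := by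
  intro y
  have hπ0 : ((p : ℕ) : Qb) ≠ 0 := by
    exact_mod_cast (NeZero.ne p)
  refine mrmb_balance (mrs_model_inst (M * ℓ) A hpMℓ hA) hmapa hmapb ?_ ((p : ℕ) : Qb) hπ0 hA E ?_ y
  · -- some `MrsNode` at every node upstairs
    rintro _ ⟨i'', rfl⟩
    obtain ⟨u, w, ε, κ, hC⟩ := hcoord'' i''
    exact ⟨ttrkSν₂ (M * ℓ) p A hpMℓ hA hat'' i'', u, w * ε⁻¹, κ,
      mrnup_node_of_coord (M * ℓ) A hpMℓ hA hat'' h5 i'' u w ε κ hC⟩
  · -- the coordinates downstairs with `|κ| = |p| ^ E`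
    rintro _ ⟨i, rfl⟩
    obtain ⟨u, w, ε, κ, hC, hκ⟩ := hE i
    have hN := mrnup_node_of_coord M A hpM hA hat h5 i u w ε κ hC
    exact ⟨u, w * ε⁻¹, κ, hN.u_unit, hN.kap_ne, hN.mul, hN.w_unit, hN.u_ord _,
      fun v hv => mrnup_u_free h5 hC v hv, hκ⟩

/-- **`MrmBalanceLeaf`** : from, for every prime `ℓ ∤ M p`, a `j`-atlas at the level `M ℓ`, the two
level maps as `MrmbMap`s and exact node coordinates at the level `M ℓ`. -/
theorem mrmb_balanceLeaf (h5 : 5 ≤ p)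
    (hup : ∀ (ℓ : ℕ) [NeZero ℓ], ℓ.Prime → ¬ ℓ ∣ M * p →
      ∃ (hpMℓ : ¬ p ∣ M * ℓ) (hat'' : GrdAtlas (M * ℓ) A (jqModC ℤ) σ')
        (Φa Φb : ↥(modularFunctionFieldBar (M * p)) →ₐ[Qb]
          ↥(modularFunctionFieldBar (M * ℓ * p)))
        (hΦa : Φa.toRingHom.IsIntegral) (hΦb : Φb.toRingHom.IsIntegral)
        (hα : (mrmAlB (ResidueField A) M ℓ).toRingHom.IsIntegral)
        (hβ : (mrmBeB (ResidueField A) M ℓ).toRingHom.IsIntegral),
        MrmbMap A (ttrV1 M A hpM hA) (ttraV2 M A hpM hA) (ttraRed1 M A hpM hA)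
          (ttrV1 (M * ℓ) A hpMℓ hA) (ttraV2 (M * ℓ) A hpMℓ hA) (ttraRed1 (M * ℓ) A hpMℓ hA)
          Φa hΦa (mrmAlB (ResidueField A) M ℓ) hα (Set.range (ttrkSν₁ M p A hpM hA hat))
          (Set.range (ttrkSν₁ (M * ℓ) p A hpMℓ hA hat''))
          (mrmbCen M A hpM hA hat) (mrmbCen (M * ℓ) A hpMℓ hA hat'') ∧
        MrmbMap A (ttrV1 M A hpM hA) (ttraV2 M A hpM hA) (ttraRed1 M A hpM hA)
          (ttrV1 (M * ℓ) A hpMℓ hA) (ttraV2 (M * ℓ) A hpMℓ hA) (ttraRed1 (M * ℓ) A hpMℓ hA)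
          Φb hΦb (mrmBeB (ResidueField A) M ℓ) hβ (Set.range (ttrkSν₁ M p A hpM hA hat))
          (Set.range (ttrkSν₁ (M * ℓ) p A hpMℓ hA hat''))
          (mrmbCen M A hpM hA hat) (mrmbCen (M * ℓ) A hpMℓ hA hat'') ∧
        MrnCoordSpec (M * ℓ) A hpMℓ hA hat'') :
    MrmBalanceLeaf M A hpM hA hat := by
  intro E hE ℓ _ hℓ hℓN
  obtain ⟨hpMℓ, hat'', Φa, Φb, hΦa, hΦb, hα, hβ, hmapa, hmapb, hcoord''⟩ := hup ℓ hℓ hℓN
  exact ⟨hα, hβ, mrmb_balance_inst M ℓ A hpM hpMℓ hA hat hat'' h5 hmapa hmapb hcoord'' E hE⟩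

end Inst

end Fermat.Agent.MR
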