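import Mathlib
import Fermat.Agent.MR.Mu.Balance
import Fermat.Agent.MR.M.LevelCast
import Fermat.Agent.MR.Hecke.Data
import Fermat.Agent.MR.Hecke.BetaInt
import Fermat.Agent.MR.Out.RedPushGrd

/-!
# Program MR (S44), block `mrm`, leaf BALANCE : discharge of the level-map inputs of
`mrmb_balanceLeaf` (helper18, prefix `mrmbb`)

For a prime `ℓ ∤ M p`, `p ≥ 5`, the `j`-atlases at the levels `M` and `M ℓ` :

* `mrmbb_lvl_al`, `mrmbb_lvl_be` : helper1's level bundle `MrmfLvl` for `(α_ℓ, ᾱ)` and `(β_ℓ, β̄)`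
  (`α_ℓ = mrmcAl`, `β_ℓ = mrmcBe` : helper26's level maps with values in the type of the upper TT
  model), from `mrmc_al_V1`, `mrmc_be_V1`, `mrmc_w_al`, `mrmc_w_be`;
* finiteness, integrality and the degree inequality `[F((Mℓ)p) : F(Mp)] ≤ [F_k(Mℓ) : F_k(M)]` for
  both maps (helper6's `mrh_data_alpha₁`, `mrh_data_beta₁` through the cast) = the inputs
  `hfin`, `hdeg`, `hφk` of helper1's `mrmf_node_iff`;
* `mrmbb_chart_al`, `mrmbb_chart_al'` : the chart hypotheses `hu`, `hu'` for `α_ℓ` (the chart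
  coordinate of level `M ℓ p` IS `α_ℓ` of the chart coordinate of level `M p`);
* `MrmbbNodeIff` : the conclusion of helper1's `mrmf_node_iff` (kept as a hypothesis HERE: this
  file does not import `MR/Mu/FunctUp.lean`; the closed form is in `MR/Mu/BalanceClosed.lean`);
* `mrmbb_map_al`, `mrmbb_map_be` : the two `MrmbMap`s (for `β_ℓ` the chart hypothesis `hu` is an
  input);
* **`mrmbb_balanceLeaf`** : `MrmBalanceLeaf` from (NODE-IFF) for `ᾱ`, `β̄`, the `β`-chart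
  hypothesis and the exact node coordinates `MrnCoordSpec` at the levels `M ℓ`.
-/

set_option autoImplicit false
set_option linter.unusedSectionVars false
set_option linter.unusedVariables false
set_option linter.style.haveILetI false
set_option synthInstance.maxHeartbeats 400000

noncomputable section

namespace Fermat.Agent.MR

open Polynomial ModularCurve AlgebraicCurve IsLocalRing IntermediateField
  Fermat.Agent.G Fermat.Agent.S18 Fermat.Agent.S24 Fermat.Agent.FF Fermat.Agent.TT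
  Fermat.Agent.SS

local notation "Qb" => AlgebraicClosure ℚ

/-! ### Post-composition with an isomorphism -/

section Equiv

variable {K F F' F'' : Type*} [Field K] [Field F] [Field F'] [Field F''] [Algebra K F]
  [Algebra K F'] [Algebra K F'']

/-- the `F`-linear equivalence `F' ≃ F''` underlying `e`, for the structures along `φ`, `e ∘ φ` -/
def mrmbbLin (φ : F →ₐ[K] F') (e : F' ≃ₐ[K] F'') :
    letI := algebraAlong φ
    letI := algebraAlong ((e : F' →ₐ[K] F'').comp φ)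
    F' ≃ₗ[F] F'' :=
  letI := algebraAlong φ
  letI := algebraAlong ((e : F' →ₐ[K] F'').comp φ)
  { e.toRingEquiv.toAddEquiv with
    map_smul' := fun c x => by
      show e (φ c * x) = e (φ c) * e x
      exact map_mul e _ _ }

theorem mrmbb_finiteAlong_comp (φ : F →ₐ[K] F') (e : F' ≃ₐ[K] F'') (h : FiniteAlong K φ) :
    FiniteAlong K ((e : F' →ₐ[K] F'').comp φ) := by
  letI := algebraAlong φ
  letI := algebraAlong ((e : F' →ₐ[K] F'').comp φ)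
  haveI : Module.Finite F F' := h
  exact Module.Finite.equiv (mrmbbLin φ e)

theorem mrmbb_finrankAlong_comp (φ : F →ₐ[K] F') (e : F' ≃ₐ[K] F'') :
    finrankAlong K ((e : F' →ₐ[K] F'').comp φ) = finrankAlong K φ := by
  letI := algebraAlong φ
  letI := algebraAlong ((e : F' →ₐ[K] F'').comp φ)
  exact (LinearEquiv.finrank_eq (mrmbbLin φ e)).symm

theorem mrmbb_isIntegral_of_finiteAlong (φ : F →ₐ[K] F') (h : FiniteAlong K φ) :
    φ.toRingHom.IsIntegral := by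
  letI := algebraAlong φ
  haveI : Module.Finite F F' := h
  intro x
  exact Algebra.IsIntegral.isIntegral (R := F) x

end Equiv

/-! ### The level bundles -/

section Lvl

variable (M : ℕ) [NeZero M] {p : ℕ} [Fact p.Prime] [NeZero p] (ℓ : ℕ) [NeZero ℓ]
variable (A : ValuationSubring Qb) (hpM : ¬ p ∣ M) (hpMℓ : ¬ p ∣ M * ℓ) (hA : A.LiesOverPrime p)

/-- helper1's level bundle for `(α_ℓ, ᾱ)` -/
theorem mrmbb_lvl_al :
    MrmfLvl M ℓ A hpM hpMℓ hA (mrmcAl M p ℓ) (mrmAlB (ResidueField A) M ℓ) where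
  mem₁ := fun f hf => (mrmc_al_V1 M p ℓ A hpM hpMℓ hA f hf).1
  red₁ := fun f hf h => (mrmc_al_V1 M p ℓ A hpM hpMℓ hA f hf).2
  comm := mrmc_w_al M p ℓ hpM hpMℓ

/-- helper1's level bundle for `(β_ℓ, β̄)` -/
theorem mrmbb_lvl_be :
    MrmfLvl M ℓ A hpM hpMℓ hA (mrmcBe M p ℓ) (mrmBeB (ResidueField A) M ℓ) where
  mem₁ := fun f hf => (mrmc_be_V1 M p ℓ A hpM hpMℓ hA f hf).1
  red₁ := fun f hf h => (mrmc_be_V1 M p ℓ A hpM hpMℓ hA f hf).2
  comm := mrmc_w_be M p ℓ hpM hpMℓ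

end Lvl

/-! ### Finiteness, integrality, degrees -/

section Fin

variable (M : ℕ) [NeZero M] (p ℓ : ℕ) [Fact p.Prime] [NeZero p] [NeZero ℓ]
variable (A : ValuationSubring Qb)

theorem mrmbb_al_finite : FiniteAlong Qb (mrmcAl M p ℓ) :=
  mrmbb_finiteAlong_comp _ _ (gff_alpha_finite (M * p) ℓ)

theorem mrmbb_be_finite : FiniteAlong Qb (mrmcBe M p ℓ) :=
  mrmbb_finiteAlong_comp _ _ (gff_beta_finite (M * p) ℓ)

theorem mrmbb_al_integral : (mrmcAl M p ℓ).toRingHom.IsIntegral :=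
  mrmbb_isIntegral_of_finiteAlong _ (mrmbb_al_finite M p ℓ)

theorem mrmbb_be_integral : (mrmcBe M p ℓ).toRingHom.IsIntegral :=
  mrmbb_isIntegral_of_finiteAlong _ (mrmbb_be_finite M p ℓ)

/-- `[F((M ℓ) p) : α_ℓ F(M p)] ≤ [F_k(M ℓ) : ᾱ F_k(M)]` -/
theorem mrmbb_al_deg (hpM : ¬ p ∣ M) (hA : A.LiesOverPrime p) (hℓ : ℓ.Prime)
    (hℓM : ¬ ℓ ∣ M * p) :
    finrankAlong Qb (mrmcAl M p ℓ) ≤
      finrankAlong (ResidueField A) (mrmAlB (ResidueField A) M ℓ) := by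
  have h := (mrh_data_alpha₁ M p ℓ A hpM hA hℓ hℓM).deg
  have e : finrankAlong Qb (mrmcAl M p ℓ) = finrankAlong Qb (heckeAlphaBar Qb (M * p) ℓ) :=
    mrmbb_finrankAlong_comp _ _
  rw [e]
  exact h

/-- `[F((M ℓ) p) : β_ℓ F(M p)] ≤ [F_k(M ℓ) : β̄ F_k(M)]` -/
theorem mrmbb_be_deg (hpM : ¬ p ∣ M) (hA : A.LiesOverPrime p) (hℓ : ℓ.Prime)
    (hℓM : ¬ ℓ ∣ M * p) :
    finrankAlong Qb (mrmcBe M p ℓ) ≤
      finrankAlong (ResidueField A) (mrmBeB (ResidueField A) M ℓ) := by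
  have h := (mrh_data_beta₁ M p ℓ A hpM hA hℓ hℓM).deg
  have e : finrankAlong Qb (mrmcBe M p ℓ) = finrankAlong Qb (heckeBetaBar Qb (M * p) ℓ) :=
    mrmbb_finrankAlong_comp _ _
  rw [e]
  exact h

/-- `ᾱ` is integral -/
theorem mrmbb_alB_integral (hpMℓ : ¬ p ∣ M * ℓ) (hA : A.LiesOverPrime p) :
    (mrmAlB (ResidueField A) M ℓ).toRingHom.IsIntegral :=
  mrorg_alphaK_isIntegral M ℓ A hpMℓ hA

/-- `β̄` is integral -/
theorem mrmbb_beB_integral (hpMℓ : ¬ p ∣ M * ℓ) (hA : A.LiesOverPrime p) :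
    (mrmBeB (ResidueField A) M ℓ).toRingHom.IsIntegral :=
  mrhb_phi_isIntegral_res M ℓ A hA hpMℓ

end Fin

/-! ### The chart hypotheses for `α_ℓ` -/

section ChartAl

variable (M : ℕ) [NeZero M] {p : ℕ} [Fact p.Prime] [NeZero p] (ℓ : ℕ) [NeZero ℓ]
variable (A : ValuationSubring Qb)
variable {τ τ' : LaurentSeries ℤ} (hat : GrdAtlas M A τ τ') (hat'' : GrdAtlas (M * ℓ) A τ τ')

/-- the chart coordinate of level `(M ℓ) p` is `α_ℓ` of the chart coordinate of level `M p` -/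
theorem mrmbb_chart_al_eq :
    mrmcAl M p ℓ (heckeAlphaBar Qb M p (grdQ M hat.c.mem)) =
      heckeAlphaBar Qb (M * ℓ) p (grdQ (M * ℓ) hat''.c.mem) := by
  rw [mrmc_al_al, mrorg_grdQ_up hat.c.mem hat''.c.mem]

theorem mrmbb_chart_al :
    mrmcAl M p ℓ (heckeAlphaBar Qb M p (grdQ M hat.c.mem)) ∈
      grdB (M * ℓ * p) A (heckeAlphaBar Qb (M * ℓ) p (grdQ (M * ℓ) hat''.c.mem)) := by
  rw [mrmbb_chart_al_eq M ℓ A hat hat'']
  exact grda_isInt_self (M * ℓ * p) A _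

theorem mrmbb_chart_al' :
    heckeAlphaBar Qb (M * ℓ) p (grdQ (M * ℓ) hat''.c.mem) ∈
      grdB (M * ℓ * p) A (mrmcAl M p ℓ (heckeAlphaBar Qb M p (grdQ M hat.c.mem))) := by
  rw [mrmbb_chart_al_eq M ℓ A hat hat'']
  exact grda_isInt_self (M * ℓ * p) A _

end ChartAl

/-! ### The two `MrmbMap`s -/

section Maps

variable (M : ℕ) [NeZero M] {p : ℕ} [Fact p.Prime] [NeZero p] (ℓ : ℕ) [NeZero ℓ]
variable (A : ValuationSubring Qb) (hpM : ¬ p ∣ M) (hpMℓ : ¬ p ∣ M * ℓ) (hA : A.LiesOverPrime p)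
variable {τ τ' : LaurentSeries ℤ} (hat : GrdAtlas M A τ τ') (hat'' : GrdAtlas (M * ℓ) A τ τ')

/-- **(NODE-IFF)** along a residual level map `φk` (= the conclusion of helper1's
`mrmf_node_iff`, `MR/Mu/FunctUp.lean`) : a place of `F_k(M ℓ)` is the first branch of a node of
`X₀((M ℓ) p)` iff its restriction along `φk` is the first branch of a node of `X₀(M p)`. -/
def MrmbbNodeIff
    (φk : ↥(modularFunctionFieldFullC (ResidueField A) M) →ₐ[ResidueField A]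
      ↥(modularFunctionFieldFullC (ResidueField A) (M * ℓ)))
    (hφk : φk.toRingHom.IsIntegral) : Prop :=
  ∀ y₁ : Place (ResidueField A) ↥(modularFunctionFieldFullC (ResidueField A) (M * ℓ)),
    y₁ ∈ Set.range (ttrkSν₁ (M * ℓ) p A hpMℓ hA hat'') ↔
      y₁.restrictAlong φk hφk ∈ Set.range (ttrkSν₁ M p A hpM hA hat)

/-- the `MrmbMap` of `(α_ℓ, ᾱ)` -/
theorem mrmbb_map_al
    (hiff : MrmbbNodeIff M ℓ A hpM hpMℓ hA hat hat'' (mrmAlB (ResidueField A) M ℓ)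
      (mrmbb_alB_integral M p ℓ A hpMℓ hA)) :
    MrmbMap A (ttrV1 M A hpM hA) (ttraV2 M A hpM hA) (ttraRed1 M A hpM hA)
      (ttrV1 (M * ℓ) A hpMℓ hA) (ttraV2 (M * ℓ) A hpMℓ hA) (ttraRed1 (M * ℓ) A hpMℓ hA)
      (mrmcAl M p ℓ) (mrmbb_al_integral M p ℓ) (mrmAlB (ResidueField A) M ℓ)
      (mrmbb_alB_integral M p ℓ A hpMℓ hA) (Set.range (ttrkSν₁ M p A hpM hA hat))
      (Set.range (ttrkSν₁ (M * ℓ) p A hpMℓ hA hat''))
      (mrmbCen M A hpM hA hat) (mrmbCen (M * ℓ) A hpMℓ hA hat'') :=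
  mrmb_map_of_lvl M ℓ A hpM hpMℓ hA hat hat'' (mrmbb_lvl_al M ℓ A hpM hpMℓ hA) _ _
    (mrmbb_chart_al M ℓ A hat hat'') (fun y => (hiff y).symm)

/-- the `MrmbMap` of `(β_ℓ, β̄)`, from the chart hypothesis `hu` for `β_ℓ` -/
theorem mrmbb_map_be
    (hu : mrmcBe M p ℓ (heckeAlphaBar Qb M p (grdQ M hat.c.mem)) ∈
      grdB (M * ℓ * p) A (heckeAlphaBar Qb (M * ℓ) p (grdQ (M * ℓ) hat''.c.mem)))
    (hiff : MrmbbNodeIff M ℓ A hpM hpMℓ hA hat hat'' (mrmBeB (ResidueField A) M ℓ)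
      (mrmbb_beB_integral M p ℓ A hpMℓ hA)) :
    MrmbMap A (ttrV1 M A hpM hA) (ttraV2 M A hpM hA) (ttraRed1 M A hpM hA)
      (ttrV1 (M * ℓ) A hpMℓ hA) (ttraV2 (M * ℓ) A hpMℓ hA) (ttraRed1 (M * ℓ) A hpMℓ hA)
      (mrmcBe M p ℓ) (mrmbb_be_integral M p ℓ) (mrmBeB (ResidueField A) M ℓ)
      (mrmbb_beB_integral M p ℓ A hpMℓ hA) (Set.range (ttrkSν₁ M p A hpM hA hat))
      (Set.range (ttrkSν₁ (M * ℓ) p A hpMℓ hA hat''))
      (mrmbCen M A hpM hA hat) (mrmbCen (M * ℓ) A hpMℓ hA hat'') :=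
  mrmb_map_of_lvl M ℓ A hpM hpMℓ hA hat hat'' (mrmbb_lvl_be M ℓ A hpM hpMℓ hA) _ _
    hu (fun y => (hiff y).symm)

end Maps

/-! ### The leaf -/

section Leaf

variable (M : ℕ) [NeZero M] {p : ℕ} [Fact p.Prime] [NeZero p]
variable (A : ValuationSubring Qb) (hpM : ¬ p ∣ M) (hA : A.LiesOverPrime p)
variable {σ' : LaurentSeries ℤ} (hat : GrdAtlas M A (jqModC ℤ) σ')

/-- **`MrmBalanceLeaf`** : from, for every prime `ℓ ∤ M p` (with `hpMℓ := mrmc_hpMℓ …` and the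
`j`-atlas `hat'' := ttrli_atlas_j (M ℓ) …` at the level `M ℓ`) : (NODE-IFF) for `ᾱ` and `β̄`
(helper1's `mrmf_node_iff`), the chart hypothesis `hu` for `β_ℓ` (helper22), and exact node
coordinates at the level `M ℓ` (`MrnCoordSpec`, the coordinate block). -/
theorem mrmbb_balanceLeaf (h5 : 5 ≤ p)
    (hiffa : ∀ (ℓ : ℕ) [NeZero ℓ] (hℓ : ℓ.Prime) (hℓN : ¬ ℓ ∣ M * p),
      MrmbbNodeIff M ℓ A hpM (mrmc_hpMℓ M p ℓ hpM hℓ hℓN) hA hat
        (ttrli_atlas_j (M * ℓ) A (mrmc_hpMℓ M p ℓ hpM hℓ hℓN) hA h5 hat.inv)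
        (mrmAlB (ResidueField A) M ℓ)
        (mrmbb_alB_integral M p ℓ A (mrmc_hpMℓ M p ℓ hpM hℓ hℓN) hA))
    (hiffb : ∀ (ℓ : ℕ) [NeZero ℓ] (hℓ : ℓ.Prime) (hℓN : ¬ ℓ ∣ M * p),
      MrmbbNodeIff M ℓ A hpM (mrmc_hpMℓ M p ℓ hpM hℓ hℓN) hA hat
        (ttrli_atlas_j (M * ℓ) A (mrmc_hpMℓ M p ℓ hpM hℓ hℓN) hA h5 hat.inv)
        (mrmBeB (ResidueField A) M ℓ)
        (mrmbb_beB_integral M p ℓ A (mrmc_hpMℓ M p ℓ hpM hℓ hℓN) hA))
    (hub : ∀ (ℓ : ℕ) [NeZero ℓ] (hℓ : ℓ.Prime) (hℓN : ¬ ℓ ∣ M * p),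
      mrmcBe M p ℓ (heckeAlphaBar Qb M p (grdQ M hat.c.mem)) ∈
        grdB (M * ℓ * p) A (heckeAlphaBar Qb (M * ℓ) p (grdQ (M * ℓ)
          (ttrli_atlas_j (M * ℓ) A (mrmc_hpMℓ M p ℓ hpM hℓ hℓN) hA h5 hat.inv).c.mem)))
    (hcoord : ∀ (ℓ : ℕ) [NeZero ℓ] (hℓ : ℓ.Prime) (hℓN : ¬ ℓ ∣ M * p),
      MrnCoordSpec (M * ℓ) A (mrmc_hpMℓ M p ℓ hpM hℓ hℓN) hA
        (ttrli_atlas_j (M * ℓ) A (mrmc_hpMℓ M p ℓ hpM hℓ hℓN) hA h5 hat.inv)) :
    MrmBalanceLeaf M A hpM hA hat := by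
  refine mrmb_balanceLeaf M A hpM hA hat h5 fun ℓ _ hℓ hℓN => ?_
  exact ⟨mrmc_hpMℓ M p ℓ hpM hℓ hℓN,
    ttrli_atlas_j (M * ℓ) A (mrmc_hpMℓ M p ℓ hpM hℓ hℓN) hA h5 hat.inv,
    mrmcAl M p ℓ, mrmcBe M p ℓ, mrmbb_al_integral M p ℓ, mrmbb_be_integral M p ℓ,
    mrmbb_alB_integral M p ℓ A (mrmc_hpMℓ M p ℓ hpM hℓ hℓN) hA,
    mrmbb_beB_integral M p ℓ A (mrmc_hpMℓ M p ℓ hpM hℓ hℓN) hA,
    mrmbb_map_al M ℓ A hpM _ hA hat _ (hiffa ℓ hℓ hℓN),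
    mrmbb_map_be M ℓ A hpM _ hA hat _ (hub ℓ hℓ hℓN) (hiffb ℓ hℓ hℓN),
    hcoord ℓ hℓ hℓN⟩

end Leaf

end Fermat.Agent.MR
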