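import Mathlib
import Fermat.Agent.TT.Red2.ChartRed
import Fermat.Agent.TT.Red2.ChartOnto
import Fermat.Agent.TT.Red2.AL

/-!
# PROGRAM MR (S44), block `mrm`: THE CHART HYPOTHESES `hu`, `hu'` of helper1's (B3)/(B4a)/(B4b)
for `Φ = β_ℓ`, `τ = j`  (PM ruling R75(5))

Owner: helper22.  Namespace `Fermat.Agent.MR`, prefix `mrmfc`.  Imports: main only.

`p` the residue characteristic of `𝔸`, `p ∤ M ℓ`, `N = M ℓ p`.  `Φ : F(M p) →ₐ[ℚ̄] F(M ℓ p)` ANY
algebra map which is `f(q) ↦ f(q^ℓ)` on `q`-expansions (`hΦ`; e.g. helper26's `mrmcBe M p ℓ` with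
`mrmcBe_coe`).

* `mrmfc_core` : **`j(q^ℓ)` is integral over `𝔸[j]` at level `M ℓ p`** (S24: integral over `ℚ̄[j]`;
  then TT saturation `ttrc_saturated_int`, as `j(q^ℓ) ∈ O₂`: `w_p j(q^ℓ) = j(q^{ℓ p})`);
* `mrmfc_swap` : **`j` is integral over `𝔸[j(q^ℓ)]` at level `M ℓ p`** (`ℓ` prime, `ℓ ∤ M p`): apply
  the Atkin-Lehner involution `w_ℓ` of `F((M p) ℓ)`, which exchanges `j` and `j(q^ℓ)` and fixes the
  constants, to the integrality equation of `mrmfc_core` (all identities are read on Laurent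
  series, so the level cast `M p ℓ = M ℓ p` never appears);
* **`mrmfc_hu`**, **`mrmfc_hu'`** : the two literals of `MR/Mu/Funct.lean`, `MR/Mu/FunctUp.lean`.
-/

set_option autoImplicit false
set_option linter.unusedSectionVars false
set_option linter.unusedVariables false
set_option linter.style.haveILetI false
set_option synthInstance.maxHeartbeats 400000

noncomputable section

namespace Fermat.Agent.MR

open Polynomial ModularCurve AlgebraicCurve IsLocalRing Fermat.Agent.G Fermat.Agent.S18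
  Fermat.Agent.S24 Fermat.Agent.TT Fermat.Agent.SS

local notation "Qb" => AlgebraicClosure ℚ

/-! ### integrality equations read on Laurent series -/

section Ser

variable (A : ValuationSubring Qb)

/-- the constants `𝔸 → ℚ̄((q))`. -/
def mrmfcIota : A →+* LaurentSeries Qb :=
  (algebraMap Qb (LaurentSeries Qb)).comp A.subtype

variable (N : ℕ) [NeZero N]

/-- an integrality equation in `F(N)` is an identity of Laurent series. -/
theorem mrmfc_ser_iff (u z : modularFunctionFieldBar N) (P : A[X][X]) :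
    eval₂ (eval₂RingHom (grdInclA N A) u) z P = 0 ↔
      eval₂ (eval₂RingHom (mrmfcIota A) (u : LaurentSeries Qb)) (z : LaurentSeries Qb) P = 0 := by
  set v : modularFunctionFieldBar N →+* LaurentSeries Qb :=
    (modularFunctionFieldBar N).val.toRingHom with hv
  have hcomp : v.comp (eval₂RingHom (grdInclA N A) u) =
      eval₂RingHom (mrmfcIota A) (u : LaurentSeries Qb) := by
    apply Polynomial.ringHom_ext
    · intro a
      simp only [RingHom.comp_apply, coe_eval₂RingHom, eval₂_C]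
      rfl
    · simp only [RingHom.comp_apply, coe_eval₂RingHom, eval₂_X]
      rfl
  have h := Polynomial.hom_eval₂ P (eval₂RingHom (grdInclA N A) u) v z
  rw [hcomp] at h
  have hvz : v z = (z : LaurentSeries Qb) := rfl
  rw [hvz] at h
  rw [← h]
  constructor
  · intro h0
    rw [h0, map_zero]
  · intro h0
    have hinj : Function.Injective v := Subtype.val_injective
    exact hinj (by rw [h0, map_zero])

end Ser

section Main

variable (M : ℕ) [NeZero M] {p : ℕ} [Fact p.Prime] [NeZero p] (ℓ : ℕ) [NeZero ℓ]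
variable (A : ValuationSubring Qb)

/-- **`j(q^ℓ)` IS INTEGRAL OVER `𝔸[j]` AT LEVEL `M ℓ p`.** -/
theorem mrmfc_core (hA : A.LiesOverPrime p) (hpMℓ : ¬ p ∣ M * ℓ) :
    heckeAlphaBar Qb (M * ℓ) p (heckeBetaBar Qb M ℓ (grdQ M (grdi_mem_j M))) ∈
      grdB (M * ℓ * p) A (grdQ (M * ℓ * p) (ttrc_serMem (M * ℓ) p (grdi_mem_j (M * ℓ)))) := by
  have hw := ttrc_w_ttrW (M * ℓ) hpMℓ
  obtain ⟨hy, -⟩ := ttrc_be_mem M ℓ A (grdQ_mem_grdO M A (grdi_mem_j M))
  obtain ⟨h₁, -⟩ := ttrc_al_mem (M * ℓ) p A hy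
  obtain ⟨h₂, -⟩ := ttrc_be_mem (M * ℓ) p A hy
  refine ttrc_saturated_int hA (ttrc_loc_j hA hpMℓ hw) _ h₁ ((hw.1 _).symm ▸ h₂) ?_
  have hd : ℓ ∣ M * ℓ * p := Dvd.dvd.mul_right (dvd_mul_left ℓ M) p
  have e2 : heckeAlphaBar Qb (M * ℓ) p (heckeBetaBar Qb M ℓ (grdQ M (grdi_mem_j M))) =
      jdBar (M * ℓ * p) ℓ hd := by
    apply Subtype.ext
    have h1 : ((grdQ M (grdi_mem_j M) : modularFunctionFieldBar M) : LaurentSeries Qb) =
        grdSer (jqModC ℤ) Qb := rfl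
    rw [coe_heckeAlphaBar, coe_heckeBetaBar, coe_jdBar, h1, grdi_grdSer_j, coeffEmb,
      coeffMap_qExpand, ← jqModC_rat, coeffMap_jqModC]
  rw [ttrc_grdQ_j, e2]
  obtain ⟨P, hP, -, h0⟩ := exists_monic_of_mem_RBar (N := M * ℓ * p)
    ⟨jdBar (M * ℓ * p) ℓ hd, jdBar_mem_RBar (M * ℓ * p) ℓ hd⟩
  refine ⟨P, hP, ?_⟩
  have hcomp : eval₂RingHom (algebraMap Qb (modularFunctionFieldBar (M * ℓ * p)))
      (jBar (M * ℓ * p)) = (Polynomial.aeval (jBar (M * ℓ * p))).toRingHom := by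
    apply Polynomial.ringHom_ext
    · intro a
      simp
    · simp
  rw [hcomp]
  exact h0

end Main

/-! ### the swap `j ↔ j(q^ℓ)` -/

section Swap

variable (ℓ : ℕ) [Fact ℓ.Prime] [NeZero ℓ] (A : ValuationSubring Qb)

/-- **an integrality equation `P(j, j(q^ℓ)) = 0` over `𝔸` gives `P(j(q^ℓ), j) = 0`**: apply the
Atkin-Lehner involution `w_ℓ` of `F(ℓ)` (level `1 · ℓ`). -/
theorem mrmfc_swap (P : A[X][X])
    (h : eval₂ (eval₂RingHom (mrmfcIota A) (jqModC Qb)) (qExpand Qb ℓ (jqModC Qb)) P = 0) :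
    eval₂ (eval₂RingHom (mrmfcIota A) (qExpand Qb ℓ (jqModC Qb))) (jqModC Qb) P = 0 := by
  have hℓ1 : ¬ ℓ ∣ 1 := fun h => (Fact.out : ℓ.Prime).one_lt.ne' (Nat.dvd_one.mp h)
  set a : modularFunctionFieldBar (1 * ℓ) := heckeAlphaBar Qb 1 ℓ (grdQ 1 (grdi_mem_j 1)) with ha
  set b : modularFunctionFieldBar (1 * ℓ) := heckeBetaBar Qb 1 ℓ (grdQ 1 (grdi_mem_j 1)) with hb
  have hj : ((grdQ 1 (grdi_mem_j 1) : modularFunctionFieldBar 1) : LaurentSeries Qb) =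
      jqModC Qb := by
    have h1 : ((grdQ 1 (grdi_mem_j 1) : modularFunctionFieldBar 1) : LaurentSeries Qb) =
        grdSer (jqModC ℤ) Qb := rfl
    rw [h1, grdi_grdSer_j]
  have hac : (a : LaurentSeries Qb) = jqModC Qb := by
    rw [ha, coe_heckeAlphaBar, hj]
  have hbc : (b : LaurentSeries Qb) = qExpand Qb ℓ (jqModC Qb) := by
    rw [hb, coe_heckeBetaBar, hj]
  rw [← hbc, ← hac, ← mrmfc_ser_iff] at h ⊢
  set w := ttrW 1 hℓ1 with hw
  have hwa : w a = b := ttrW_alpha 1 hℓ1 _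
  have hwb : w b = a := ttrW_beta 1 hℓ1 _
  have hcomp : (w : modularFunctionFieldBar (1 * ℓ) →+* modularFunctionFieldBar (1 * ℓ)).comp
      (eval₂RingHom (grdInclA (1 * ℓ) A) a) = eval₂RingHom (grdInclA (1 * ℓ) A) b := by
    apply Polynomial.ringHom_ext
    · intro r
      simp only [RingHom.comp_apply, coe_eval₂RingHom, eval₂_C]
      exact ttrW_const 1 hℓ1 _
    · simp only [RingHom.comp_apply, coe_eval₂RingHom, eval₂_X]
      exact hwa
  have h2 := Polynomial.hom_eval₂ P (eval₂RingHom (grdInclA (1 * ℓ) A) a)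
    (w : modularFunctionFieldBar (1 * ℓ) →+* modularFunctionFieldBar (1 * ℓ)) b
  rw [h, map_zero, hcomp] at h2
  have hwb' : (w : modularFunctionFieldBar (1 * ℓ) →+* modularFunctionFieldBar (1 * ℓ)) b = a :=
    hwb
  rw [hwb'] at h2
  exact h2.symm

end Swap

section Literals

variable (M : ℕ) [NeZero M] {p : ℕ} [Fact p.Prime] [NeZero p] (ℓ : ℕ) [NeZero ℓ]
variable (A : ValuationSubring Qb)

theorem mrmfc_coe_j (N : ℕ) [NeZero N] (h : GrdSerMem N (jqModC ℤ)) :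
    ((grdQ N h : modularFunctionFieldBar N) : LaurentSeries Qb) = jqModC Qb := by
  have h1 : ((grdQ N h : modularFunctionFieldBar N) : LaurentSeries Qb) =
      grdSer (jqModC ℤ) Qb := rfl
  rw [h1, grdi_grdSer_j]

/-- **(hu)** for `Φ = β_ℓ`, `τ = j` : `β_ℓ (α_p j_M) ∈ B'' = grdB (M ℓ p) 𝔸 (α_p j_{Mℓ})`. -/
theorem mrmfc_hu (hA : A.LiesOverPrime p) (hpMℓ : ¬ p ∣ M * ℓ)
    (h : GrdSerMem M (jqModC ℤ)) (h'' : GrdSerMem (M * ℓ) (jqModC ℤ))
    (Φ : modularFunctionFieldBar (M * p) →ₐ[Qb] modularFunctionFieldBar (M * ℓ * p))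
    (hΦ : ∀ x, ((Φ x : modularFunctionFieldBar (M * ℓ * p)) : LaurentSeries Qb) =
      qExpand Qb ℓ (x : LaurentSeries Qb)) :
    Φ (heckeAlphaBar Qb M p (grdQ M h)) ∈
      grdB (M * ℓ * p) A (heckeAlphaBar Qb (M * ℓ) p (grdQ (M * ℓ) h'')) := by
  have e1 : Φ (heckeAlphaBar Qb M p (grdQ M h)) =
      heckeAlphaBar Qb (M * ℓ) p (heckeBetaBar Qb M ℓ (grdQ M (grdi_mem_j M))) := by
    apply Subtype.ext
    simp only [hΦ, coe_heckeAlphaBar, coe_heckeBetaBar, mrmfc_coe_j]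
  have e2 : heckeAlphaBar Qb (M * ℓ) p (grdQ (M * ℓ) h'') =
      grdQ (M * ℓ * p) (ttrc_serMem (M * ℓ) p (grdi_mem_j (M * ℓ))) :=
    ttrc_al_grdQ (M * ℓ) p h'' _
  rw [e1, e2]
  exact mrmfc_core M ℓ A hA hpMℓ

/-- **(hu')** for `Φ = β_ℓ`, `τ = j`, `ℓ` prime : `α_p j_{Mℓ} ∈ grdB (M ℓ p) 𝔸 (β_ℓ (α_p j_M))`. -/
theorem mrmfc_hu' [Fact ℓ.Prime] (hA : A.LiesOverPrime p) (hpMℓ : ¬ p ∣ M * ℓ)
    (h : GrdSerMem M (jqModC ℤ)) (h'' : GrdSerMem (M * ℓ) (jqModC ℤ))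
    (Φ : modularFunctionFieldBar (M * p) →ₐ[Qb] modularFunctionFieldBar (M * ℓ * p))
    (hΦ : ∀ x, ((Φ x : modularFunctionFieldBar (M * ℓ * p)) : LaurentSeries Qb) =
      qExpand Qb ℓ (x : LaurentSeries Qb)) :
    heckeAlphaBar Qb (M * ℓ) p (grdQ (M * ℓ) h'') ∈
      grdB (M * ℓ * p) A (Φ (heckeAlphaBar Qb M p (grdQ M h))) := by
  obtain ⟨P, hP, hPx⟩ := mrmfc_core M ℓ A hA hpMℓ
  refine ⟨P, hP, ?_⟩
  rw [mrmfc_ser_iff] at hPx ⊢
  simp only [coe_heckeAlphaBar, coe_heckeBetaBar, mrmfc_coe_j] at hPx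
  simp only [hΦ, coe_heckeAlphaBar, mrmfc_coe_j]
  exact mrmfc_swap ℓ A P hPx

/-! ### the `α`-instance (any chart coordinate): trivial -/

theorem mrmfc_al_eq {υ : LaurentSeries ℤ} (h : GrdSerMem M υ) (h'' : GrdSerMem (M * ℓ) υ)
    (Φ : modularFunctionFieldBar (M * p) →ₐ[Qb] modularFunctionFieldBar (M * ℓ * p))
    (hΦ : ∀ x, ((Φ x : modularFunctionFieldBar (M * ℓ * p)) : LaurentSeries Qb) =
      (x : LaurentSeries Qb)) :
    Φ (heckeAlphaBar Qb M p (grdQ M h)) = heckeAlphaBar Qb (M * ℓ) p (grdQ (M * ℓ) h'') := by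
  apply Subtype.ext
  have h1 : ((grdQ (M * ℓ) h'' : modularFunctionFieldBar (M * ℓ)) : LaurentSeries Qb) =
      grdSer υ Qb := rfl
  have h2 : ((grdQ M h : modularFunctionFieldBar M) : LaurentSeries Qb) = grdSer υ Qb := rfl
  rw [hΦ, coe_heckeAlphaBar, coe_heckeAlphaBar, h1, h2]

/-- (hu) for `Φ = α_ℓ` (series-preserving), any chart coordinate. -/
theorem mrmfc_hu_al {υ : LaurentSeries ℤ} (h : GrdSerMem M υ) (h'' : GrdSerMem (M * ℓ) υ)
    (Φ : modularFunctionFieldBar (M * p) →ₐ[Qb] modularFunctionFieldBar (M * ℓ * p))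
    (hΦ : ∀ x, ((Φ x : modularFunctionFieldBar (M * ℓ * p)) : LaurentSeries Qb) =
      (x : LaurentSeries Qb)) :
    Φ (heckeAlphaBar Qb M p (grdQ M h)) ∈
      grdB (M * ℓ * p) A (heckeAlphaBar Qb (M * ℓ) p (grdQ (M * ℓ) h'')) := by
  rw [mrmfc_al_eq M ℓ h h'' Φ hΦ]
  exact grda_isInt_self (M * ℓ * p) A _

/-- (hu') for `Φ = α_ℓ` (series-preserving), any chart coordinate. -/
theorem mrmfc_hu_al' {υ : LaurentSeries ℤ} (h : GrdSerMem M υ) (h'' : GrdSerMem (M * ℓ) υ)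
    (Φ : modularFunctionFieldBar (M * p) →ₐ[Qb] modularFunctionFieldBar (M * ℓ * p))
    (hΦ : ∀ x, ((Φ x : modularFunctionFieldBar (M * ℓ * p)) : LaurentSeries Qb) =
      (x : LaurentSeries Qb)) :
    heckeAlphaBar Qb (M * ℓ) p (grdQ (M * ℓ) h'') ∈
      grdB (M * ℓ * p) A (Φ (heckeAlphaBar Qb M p (grdQ M h))) := by
  rw [mrmfc_al_eq M ℓ h h'' Φ hΦ]
  exact grda_isInt_self (M * ℓ * p) A _

end Literals

end Fermat.Agent.MR
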