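import Mathlib
import Fermat.Agent.S35.AuxLvl.DegBeta
import Fermat.Agent.S35.AuxNew.Incl
import Fermat.Agent.TT.Red2.Chart
import Fermat.Agent.TT.Red2.LocInputs

/-!
# PROGRAM MR (S44), block `mrm`, leaf (B3)/(B4) : THE INVERSE CHART HYPOTHESIS `hu'` FOR `Φ = β_ℓ`
(prefix `mrmfd`)

Owner: helper6 (MR-PM R78(2), R79(2)).  Namespace `Fermat.Agent.MR`.  Imports MAIN only.

For a level map `Φ : F(M p) →ₐ[ℚ̄] F((M ℓ) p)` which is `q ↦ q ^ ℓ` on `q`-series (helper26's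
`mrmcBe M p ℓ`, helper6's `mrhlB M p ℓ`, …) helper1's (B4) needs BOTH
* `hu  : Φ (α_p τ_M) ∈ grdB (M ℓ p) 𝔸 (α_p τ_{M ℓ})` (`τ(q ^ ℓ)` integral over `𝔸[τ(q)]`), and
* `hu' : α_p τ_{M ℓ} ∈ grdB (M ℓ p) 𝔸 (Φ (α_p τ_M))` (`τ(q)` integral over `𝔸[τ(q ^ ℓ)]`).

`hu'` FOLLOWS FROM `hu` by the Atkin-Lehner involution `w_ℓ` of `F((M p) ℓ)` (main
`s35db_exists_w`, `ℓ ∤ M p` prime) : `w_ℓ` exchanges `α_ℓ x` and `β_ℓ x`, fixes the constants, and
the two elements are `α_ℓ u`, `β_ℓ u` for `u = α_p τ_M` after the identification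
`F((M ℓ) p) = F((M p) ℓ)` (main's inclusions `s35eIncl`, both directions).

* `mrmfd_isInt_map` : a ring homomorphism fixing the constants transports `GrdIsInt`;
* `mrmfd_twin`      : `GrdIsInt ((M p) ℓ) 𝔸 (α_ℓ u) (β_ℓ u) → GrdIsInt ((M p) ℓ) 𝔸 (β_ℓ u) (α_ℓ u)`;
* **`mrmfd_hu'`**   : `hu → hu'`, any `Φ` as above, any chart series `τ` (same at both levels).
-/

set_option autoImplicit false
set_option linter.unusedSectionVars false
set_option linter.unusedVariables false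
set_option linter.style.haveILetI false
set_option synthInstance.maxHeartbeats 400000

noncomputable section

namespace Fermat.Agent.MR

open Polynomial ModularCurve AlgebraicCurve IsLocalRing Fermat.Agent.G Fermat.Agent.S18
  Fermat.Agent.S24 Fermat.Agent.FF Fermat.Agent.TT Fermat.Agent.SS

local notation "Qb" => AlgebraicClosure ℚ

section Map

variable (N N' : ℕ) [NeZero N] [NeZero N'] (A : ValuationSubring Qb)

/-- a ring homomorphism fixing the constants transports integrality over `𝔸[u]`. -/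
theorem mrmfd_isInt_map (φ : ↥(modularFunctionFieldBar N) →+* ↥(modularFunctionFieldBar N'))
    (hφ : ∀ c : Qb, φ (algebraMap Qb (modularFunctionFieldBar N) c) =
      algebraMap Qb (modularFunctionFieldBar N') c)
    {u x : ↥(modularFunctionFieldBar N)} {u' x' : ↥(modularFunctionFieldBar N')}
    (hu : φ u = u') (hx' : φ x = x') (hx : GrdIsInt N A u x) :
    GrdIsInt N' A u' x' := by
  subst hu hx'
  exact ttrc_isIntegralElem_map (grdInclA N A) (grdInclA N' A) φ (fun r => hφ (r : Qb)) u (φ u)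
    (ttrli_u_mem N' A (φ u)) hx

end Map

section Twin

variable (N : ℕ) [NeZero N] (ℓ : ℕ) [NeZero ℓ] (A : ValuationSubring Qb)

/-- **the `w_ℓ`-twin** : `β_ℓ u` integral over `𝔸[α_ℓ u]` ⟹ `α_ℓ u` integral over `𝔸[β_ℓ u]`. -/
theorem mrmfd_twin (hℓ : ℓ.Prime) (hℓN : ¬ ℓ ∣ N) (u : ↥(modularFunctionFieldBar N))
    (h : GrdIsInt (N * ℓ) A (heckeAlphaBar Qb N ℓ u) (heckeBetaBar Qb N ℓ u)) :
    GrdIsInt (N * ℓ) A (heckeBetaBar Qb N ℓ u) (heckeAlphaBar Qb N ℓ u) := by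
  haveI : Fact ℓ.Prime := ⟨hℓ⟩
  obtain ⟨w, hwα, hwβ, -, hwc⟩ := s35db_exists_w N hℓN
  exact mrmfd_isInt_map (N * ℓ) (N * ℓ) A
    (w : ↥(modularFunctionFieldBar (N * ℓ)) →+* ↥(modularFunctionFieldBar (N * ℓ))) hwc
    (hwα u) (hwβ u) h

end Twin

section Chart

variable (M : ℕ) [NeZero M] (p ℓ : ℕ) [NeZero p] [NeZero ℓ]
variable (A : ValuationSubring Qb)

/-- the `q`-series of `grdQ` does not depend on the level. -/
theorem mrmfd_grdQ_coe (N : ℕ) [NeZero N] {τ : LaurentSeries ℤ} (hτ : GrdSerMem N τ) :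
    ((grdQ N hτ : ↥(modularFunctionFieldBar N)) : LaurentSeries Qb) = grdSer τ Qb := rfl

/-- **`hu → hu'`** : `Φ : F(M p) → F((M ℓ) p)` a `ℚ̄`-algebra map which is `q ↦ q ^ ℓ` on
`q`-series, `τ` a chart series present at the two levels `M`, `M ℓ`, `ℓ ∤ M p` prime : if
`Φ (α_p τ_M)` is integral over `𝔸[α_p τ_{M ℓ}]` then `α_p τ_{M ℓ}` is integral over
`𝔸[Φ (α_p τ_M)]`. -/
theorem mrmfd_hu' (hℓ : ℓ.Prime) (hℓMp : ¬ ℓ ∣ M * p)
    (Φ : ↥(modularFunctionFieldBar (M * p)) →ₐ[Qb] ↥(modularFunctionFieldBar (M * ℓ * p)))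
    (hΦ : ∀ x : modularFunctionFieldBar (M * p),
      ((Φ x : modularFunctionFieldBar (M * ℓ * p)) : LaurentSeries Qb) =
        qExpand Qb ℓ (x : LaurentSeries Qb))
    {τ : LaurentSeries ℤ} (hτ : GrdSerMem M τ) (hτ'' : GrdSerMem (M * ℓ) τ)
    (hu : Φ (heckeAlphaBar Qb M p (grdQ M hτ)) ∈
      grdB (M * ℓ * p) A (heckeAlphaBar Qb (M * ℓ) p (grdQ (M * ℓ) hτ''))) :
    heckeAlphaBar Qb (M * ℓ) p (grdQ (M * ℓ) hτ'') ∈
      grdB (M * ℓ * p) A (Φ (heckeAlphaBar Qb M p (grdQ M hτ))) := by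
  have hd : M * ℓ * p ∣ M * p * ℓ := dvd_of_eq (by ring)
  have hd' : M * p * ℓ ∣ M * ℓ * p := dvd_of_eq (by ring)
  -- the two elements downstairs
  have eα : s35eIncl hd (heckeAlphaBar Qb (M * ℓ) p (grdQ (M * ℓ) hτ'')) =
      heckeAlphaBar Qb (M * p) ℓ (heckeAlphaBar Qb M p (grdQ M hτ)) := by
    apply Subtype.ext
    rw [coe_s35eIncl, coe_heckeAlphaBar, coe_heckeAlphaBar, coe_heckeAlphaBar, mrmfd_grdQ_coe,
      mrmfd_grdQ_coe]
  have eβ : s35eIncl hd (Φ (heckeAlphaBar Qb M p (grdQ M hτ))) =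
      heckeBetaBar Qb (M * p) ℓ (heckeAlphaBar Qb M p (grdQ M hτ)) := by
    apply Subtype.ext
    rw [coe_s35eIncl, hΦ, coe_heckeBetaBar]
  -- and back upstairs
  have eα' : s35eIncl hd' (heckeAlphaBar Qb (M * p) ℓ (heckeAlphaBar Qb M p (grdQ M hτ))) =
      heckeAlphaBar Qb (M * ℓ) p (grdQ (M * ℓ) hτ'') := by
    apply Subtype.ext
    rw [coe_s35eIncl, coe_heckeAlphaBar, coe_heckeAlphaBar, coe_heckeAlphaBar, mrmfd_grdQ_coe,
      mrmfd_grdQ_coe]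
  have eβ' : s35eIncl hd' (heckeBetaBar Qb (M * p) ℓ (heckeAlphaBar Qb M p (grdQ M hτ))) =
      Φ (heckeAlphaBar Qb M p (grdQ M hτ)) := by
    apply Subtype.ext
    rw [coe_s35eIncl, hΦ, coe_heckeBetaBar]
  -- down
  have h1 : GrdIsInt (M * p * ℓ) A
      (heckeAlphaBar Qb (M * p) ℓ (heckeAlphaBar Qb M p (grdQ M hτ)))
      (heckeBetaBar Qb (M * p) ℓ (heckeAlphaBar Qb M p (grdQ M hτ))) :=
    mrmfd_isInt_map (M * ℓ * p) (M * p * ℓ) A (s35eIncl hd).toRingHom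
      (fun a => (s35eIncl hd).commutes a) eα eβ hu
  -- twin
  have h2 := mrmfd_twin (M * p) ℓ A hℓ hℓMp _ h1
  -- up
  exact mrmfd_isInt_map (M * p * ℓ) (M * ℓ * p) A (s35eIncl hd').toRingHom
    (fun a => (s35eIncl hd').commutes a) eβ' eα' h2

end Chart

end Fermat.Agent.MR
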