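import Mathlib
import Fermat.Agent.MR.Mu.Funct

/-!
# PROGRAM MR (S44), block `mrm`, leaf (B4b) : FUNCTORIALITY OF THE NODES, upwards

Owner: helper1.  Namespace `Fermat.Agent.MR`, prefix `mrmf`.

Every place of `F_k(M ℓ)` above the first branch of a node of `X₀(M p)` is the first branch of a
node of `X₀((M ℓ) p)`; hence the node sets correspond (`mrmf_node_iff`).
-/

set_option autoImplicit false
set_option linter.unusedSectionVars false
set_option linter.unusedVariables false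
set_option linter.style.haveILetI false
set_option synthInstance.maxHeartbeats 400000

noncomputable section

namespace Fermat.Agent.MR

open Polynomial ModularCurve AlgebraicCurve IsLocalRing Fermat.Agent.G Fermat.Agent.S18
  Fermat.Agent.S24 Fermat.Agent.FF Fermat.Agent.TT Fermat.Agent.SS

local notation "Qb" => AlgebraicClosure ℚ

section RedInt

variable {N : ℕ} [NeZero N] {A : ValuationSubring Qb}
variable {K2 : Type*} [Field K2] [Algebra (ResidueField A) K2]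

/-- the reduction of an element integral over `𝔸[u]` is integral over `k[ū]` (any subring `V`
with a reduction map compatible with the constants). -/
theorem mrmf_red_isInt (V : Subring ↥(modularFunctionFieldBar N)) (red : ↥V →+* K2)
    (hc : ∀ a : A, grdInclA N A a ∈ V)
    (hred : ∀ a : A, red ⟨grdInclA N A a, hc a⟩ = algebraMap (ResidueField A) K2 (residue A a))
    (ux x : ↥V)
    (hx : GrdIsInt N A (ux : ↥(modularFunctionFieldBar N)) (x : ↥(modularFunctionFieldBar N))) :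
    (eval₂RingHom (algebraMap (ResidueField A) K2) (red ux)).IsIntegralElem (red x) := by
  obtain ⟨P, hP, hPx⟩ := hx
  let ι' : A →+* ↥V := (grdInclA N A).codRestrict V hc
  let f' : A[X] →+* ↥V := eval₂RingHom ι' ux
  have hzero : eval₂ f' x P = 0 := by
    apply Subtype.ext
    have h1 := Polynomial.hom_eval₂ P f' V.subtype x
    have hcc : V.subtype.comp f' = eval₂RingHom (grdInclA N A) (ux : ↥(modularFunctionFieldBar N)) := by
      apply Polynomial.ringHom_ext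
      · intro a
        show ((eval₂ ι' ux (C a) : ↥V) : ↥(modularFunctionFieldBar N)) = eval₂ (grdInclA N A) _ (C a)
        rw [eval₂_C, eval₂_C]
        rfl
      · show ((eval₂ ι' ux X : ↥V) : ↥(modularFunctionFieldBar N)) = eval₂ (grdInclA N A) _ X
        rw [eval₂_X, eval₂_X]
    rw [hcc] at h1
    show V.subtype (eval₂ f' x P) = 0
    rw [h1]
    exact hPx
  have hcomp : (eval₂RingHom (algebraMap (ResidueField A) K2) (red ux)).comp
      (mapRingHom (residue A)) = red.comp f' := by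
    apply Polynomial.ringHom_ext
    · intro a
      show eval₂ (algebraMap (ResidueField A) K2) (red ux) ((C a).map (residue A)) =
        red (eval₂ ι' ux (C a))
      rw [Polynomial.map_C, eval₂_C, eval₂_C]
      exact (hred a).symm
    · show eval₂ (algebraMap (ResidueField A) K2) (red ux) ((X : A[X]).map (residue A)) =
        red (eval₂ ι' ux X)
      rw [Polynomial.map_X, eval₂_X, eval₂_X]
  refine ⟨P.map (mapRingHom (residue A)), hP.map _, ?_⟩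
  rw [eval₂_map, hcomp, ← Polynomial.hom_eval₂, hzero, map_zero]

end RedInt

section Up

variable (M : ℕ) [NeZero M] {p : ℕ} [Fact p.Prime] [NeZero p] (ℓ : ℕ) [NeZero ℓ]
variable (A : ValuationSubring Qb) (hpM : ¬ p ∣ M) (hpMℓ : ¬ p ∣ M * ℓ) (hA : A.LiesOverPrime p)
variable {τ τ' : LaurentSeries ℤ} (hat : GrdAtlas M A τ τ') (hat'' : GrdAtlas (M * ℓ) A τ τ')
variable {Φ : ↥(modularFunctionFieldBar (M * p)) →ₐ[Qb] ↥(modularFunctionFieldBar (M * ℓ * p))}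
  {φk : ↥(modularFunctionFieldFullC (ResidueField A) M) →ₐ[ResidueField A]
      ↥(modularFunctionFieldFullC (ResidueField A) (M * ℓ))}

variable (p) in
/-- the chart ring of the `α`-chart at level `M p`. -/
abbrev mrmfB : Subring ↥(modularFunctionFieldBar (M * p)) :=
  grdB (M * p) A (heckeAlphaBar Qb M p (grdQ M hat.c.mem))

/-- the first reduction on the chart ring. -/
def mrmfR₁ : ↥(mrmfB M p A hat) →+* ↥(modularFunctionFieldFullC (ResidueField A) M) :=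
  (ttalRedO₁ (V₂ := ttraV2 M A hpM hA) (ttraRed1 M A hpM hA)).comp
    (Subring.inclusion (ttru_le_inst M A hpM hA hat.c))

/-- the second reduction on the chart ring. -/
def mrmfR₂ : ↥(mrmfB M p A hat) →+* ↥(modularFunctionFieldFullC (ResidueField A) M) :=
  (ttalRedO₂ (V₁ := ttrV1 M A hpM hA) (ttraRed2 M A hpM hA)).comp
    (Subring.inclusion (ttru_le_inst M A hpM hA hat.c))

theorem mrmfR₁_apply (b : ↥(mrmfB M p A hat)) :
    mrmfR₁ M A hpM hA hat b =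
      ttrRed1 M A hA ⟨(b : ↥(modularFunctionFieldBar (M * p))),
        (ttru_le_inst M A hpM hA hat.c b.2).1⟩ := rfl

theorem mrmfR₂_apply (b : ↥(mrmfB M p A hat)) :
    mrmfR₂ M A hpM hA hat b =
      ttraRed2 M A hpM hA ⟨(b : ↥(modularFunctionFieldBar (M * p))),
        (ttru_le_inst M A hpM hA hat.c b.2).2⟩ := rfl

/-- the crossing pairs in the two spellings. -/
theorem mrmf_pair_iff (Q₁ Q₂ : Place (ResidueField A)
    ↥(modularFunctionFieldFullC (ResidueField A) M)) :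
    TtrzPair (ttrkR₁ (ttrkT M p A hpM hA hat)) (ttrkR₂ (ttrkT M p A hpM hA hat))
        (grdK M A hat.c.mem) (grdK M A hat.c.mem) Q₁ Q₂ ↔
      TtrzPair (mrmfR₁ M A hpM hA hat) (mrmfR₂ M A hpM hA hat)
        (grdK M A hat.c.mem) (grdK M A hat.c.mem) Q₁ Q₂ :=
  ⟨fun h => ⟨h.1, h.2.1, fun x => h.2.2 ⟨x.1, x.2⟩⟩,
    fun h => ⟨h.1, h.2.1, fun x => h.2.2 ⟨x.1, x.2⟩⟩⟩

/-- (hcl') -/
theorem mrmf_hcl
    (hu : Φ (heckeAlphaBar Qb M p (grdQ M hat.c.mem)) ∈ mrmfB (M * ℓ) p A hat'') :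
    letI := algebraAlong Φ
    ∀ z : ↥(modularFunctionFieldBar (M * ℓ * p)), IsIntegral ↥(mrmfB M p A hat) z →
      z ∈ mrmfB (M * ℓ) p A hat'' := by
  letI := algebraAlong Φ
  rintro z ⟨P, hP, hPz⟩
  exact mrmf_grdB_closed (M * p) (M * ℓ * p) A Φ hu z P hP hPz

/-- (hint) -/
theorem mrmf_hint
    (hu' : heckeAlphaBar Qb (M * ℓ) p (grdQ (M * ℓ) hat''.c.mem) ∈
      grdB (M * ℓ * p) A (Φ (heckeAlphaBar Qb M p (grdQ M hat.c.mem)))) :
    letI := algebraAlong Φ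
    ∀ z : ↥(mrmfB (M * ℓ) p A hat''),
      IsIntegral ↥(mrmfB M p A hat) (z : ↥(modularFunctionFieldBar (M * ℓ * p))) := by
  letI := algebraAlong Φ
  intro z
  obtain ⟨P, hP, hPz⟩ := mrmf_grdB_int (M * p) (M * ℓ * p) A Φ hu' z.2
  exact ⟨P, hP, hPz⟩

/-- `red₂` at level `(M, p)` is onto. -/
theorem mrmf_red₂_surjective : Function.Surjective (ttraRed2 M A hpM hA) := by
  intro c
  obtain ⟨x, hx⟩ := ttrRed1_surjective M A hA c
  have hm : ttrW M hpM (x : ↥(modularFunctionFieldBar (M * p))) ∈ ttraV2 M A hpM hA := by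
    rw [ttal_mem_V2, ttrW_invol]
    exact x.2
  refine ⟨⟨ttrW M hpM (x : ↥(modularFunctionFieldBar (M * p))), hm⟩, ?_⟩
  rw [← hx]
  show ttrRed1 M A hA ⟨ttrW M hpM (ttrW M hpM (x : ↥(modularFunctionFieldBar (M * p)))), _⟩ =
    ttrRed1 M A hA x
  congr 1
  exact Subtype.ext (ttrW_invol M hpM _)

/-- (hnorm) : the norm of an element of the chart ring upstairs with `red₂ = 1` lies in the chart
ring downstairs and has `red₂ = 1`. -/
theorem mrmf_hnorm (h : MrmfLvl M ℓ A hpM hpMℓ hA Φ φk) (hfin : FiniteAlong Qb Φ)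
    (hdeg : finrankAlong Qb Φ ≤ finrankAlong (ResidueField A) φk)
    (hu' : heckeAlphaBar Qb (M * ℓ) p (grdQ (M * ℓ) hat''.c.mem) ∈
      grdB (M * ℓ * p) A (Φ (heckeAlphaBar Qb M p (grdQ M hat.c.mem)))) :
    letI := algebraAlong Φ
    ∀ z : ↥(mrmfB (M * ℓ) p A hat''), mrmfR₂ (M * ℓ) A hpMℓ hA hat'' z = 1 →
      ∃ n : ↥(mrmfB M p A hat), (n : ↥(modularFunctionFieldBar (M * p))) =
        Algebra.norm ↥(modularFunctionFieldBar (M * p))
          (z : ↥(modularFunctionFieldBar (M * ℓ * p))) ∧ mrmfR₂ M A hpM hA hat n = 1 := by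
  letI := algebraAlong Φ
  intro z hz
  have h₁ := ttrvp_tb1' M A hpM hA
  have hz₂ : (z : ↥(modularFunctionFieldBar (M * ℓ * p))) ∈
      (ttraV2 (M * ℓ) A hpMℓ hA).toSubring := (ttru_le_inst (M * ℓ) A hpMℓ hA hat''.c z.2).2
  obtain ⟨hN, hNred⟩ := mrh_red_norm_along Φ φk hfin hdeg (ttraV2 M A hpM hA).toSubring
    (fun x => (ttraV2 M A hpM hA).mem_or_inv_mem x) (ttraRed2 M A hpM hA)
    (fun x hx => (ttra_ker₂ M A hpM hA h₁ x).2
      ((ValuationSubring.mem_nonunits_iff_or _).2 (Or.inr hx)))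
    (ttraV2 (M * ℓ) A hpMℓ hA).toSubring (ttraRed2 (M * ℓ) A hpMℓ hA)
    (mrmf_red₂_surjective (M * ℓ) A hpMℓ hA) (fun x hx => h.mem₂ hx)
    (fun x hx => h.red₂ x hx _) (z : ↥(modularFunctionFieldBar (M * ℓ * p))) hz₂
  have hint := mrmf_hint M ℓ A hat hat'' hu' z
  haveI : IsScalarTower ↥(mrmfB M p A hat) ↥(modularFunctionFieldBar (M * p))
      ↥(modularFunctionFieldBar (M * ℓ * p)) := IsScalarTower.of_algebraMap_eq (fun x => rfl)
  obtain ⟨P, hP, hPz⟩ := Algebra.isIntegral_norm ↥(modularFunctionFieldBar (M * p)) hint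
  have hNB : Algebra.norm ↥(modularFunctionFieldBar (M * p))
      (z : ↥(modularFunctionFieldBar (M * ℓ * p))) ∈ mrmfB M p A hat :=
    mrmf_grdB_closed (M * p) (M * p) A (AlgHom.id Qb _) (ttrli_u_mem (M * p) A _) _ P hP hPz
  refine ⟨⟨_, hNB⟩, rfl, ?_⟩
  rw [mrmfR₂_apply]
  have e : ttraRed2 (M * ℓ) A hpMℓ hA ⟨(z : ↥(modularFunctionFieldBar (M * ℓ * p))), hz₂⟩ = 1 := hz
  rw [e] at hNred
  have e1 : mrhNorm φk (1 : ↥(modularFunctionFieldFullC (ResidueField A) (M * ℓ))) = 1 := by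
    unfold mrhNorm
    exact map_one _
  rw [e1] at hNred
  exact hNred

/-- (ht) : the chart coordinate upstairs is regular at every place over a place at which the chart
coordinate downstairs is regular. -/
theorem mrmf_ht (h : MrmfLvl M ℓ A hpM hpMℓ hA Φ φk)
    (hu' : heckeAlphaBar Qb (M * ℓ) p (grdQ (M * ℓ) hat''.c.mem) ∈
      grdB (M * ℓ * p) A (Φ (heckeAlphaBar Qb M p (grdQ M hat.c.mem))))
    (y₁ : Place (ResidueField A) ↥(modularFunctionFieldFullC (ResidueField A) (M * ℓ)))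
    (hy : φk (grdK M A hat.c.mem) ∈ y₁.toValuationSubring) :
    grdK (M * ℓ) A hat''.c.mem ∈ y₁.toValuationSubring := by
  have hT := ttrvp_tb1' (M * ℓ) A hpMℓ hA
  have hu₁ : heckeAlphaBar Qb M p (grdQ M hat.c.mem) ∈ grdO (M * p) A :=
    ttr_alpha_mem M A (grdQ_mem_grdO M A hat.c.mem)
  have hu₁'' : heckeAlphaBar Qb (M * ℓ) p (grdQ (M * ℓ) hat''.c.mem) ∈ grdO (M * ℓ * p) A :=
    ttr_alpha_mem (M * ℓ) A (grdQ_mem_grdO (M * ℓ) A hat''.c.mem)
  have hint := mrmf_red_isInt (N := M * ℓ * p) (A := A) (grdO (M * ℓ * p) A)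
    (ttrRed1 (M * ℓ) A hA) hT.const_mem hT.red_const
    ⟨Φ (heckeAlphaBar Qb M p (grdQ M hat.c.mem)), h.mem₁ _ hu₁⟩
    ⟨heckeAlphaBar Qb (M * ℓ) p (grdQ (M * ℓ) hat''.c.mem), hu₁''⟩ hu'
  have e1 : ttrRed1 (M * ℓ) A hA ⟨Φ (heckeAlphaBar Qb M p (grdQ M hat.c.mem)), h.mem₁ _ hu₁⟩ =
      φk (grdK M A hat.c.mem) := by
    rw [h.red₁ _ hu₁]
    congr 1
    have := ttrRed1_alpha M A hA ⟨grdQ M hat.c.mem, grdQ_mem_grdO M A hat.c.mem⟩
    rw [grdRed_grdQ] at this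
    exact this
  have e2 : ttrRed1 (M * ℓ) A hA
      ⟨heckeAlphaBar Qb (M * ℓ) p (grdQ (M * ℓ) hat''.c.mem), hu₁''⟩ =
      grdK (M * ℓ) A hat''.c.mem := by
    have := ttrRed1_alpha (M * ℓ) A hA
      ⟨grdQ (M * ℓ) hat''.c.mem, grdQ_mem_grdO (M * ℓ) A hat''.c.mem⟩
    rw [grdRed_grdQ] at this
    exact this
  rw [e1, e2] at hint
  refine ttrc_mem_of_isIntegralElem y₁.toValuationSubring.toSubring
    (fun x => y₁.toValuationSubring.mem_or_inv_mem x) _ (fun r => ?_) hint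
  rw [coe_eval₂RingHom, eval₂_eq_sum_range]
  refine Subring.sum_mem _ fun i _ => ?_
  exact Subring.mul_mem _ (y₁.algebraMap_mem' _) (Subring.pow_mem _ hy i)

/-- **(B4b) FUNCTORIALITY OF THE NODES, upwards** : every place of `F_k(M ℓ)` above the first
branch of a node of `X₀(M p)` is the first branch of a node of `X₀((M ℓ) p)`. -/
theorem mrmf_node_up (h : MrmfLvl M ℓ A hpM hpMℓ hA Φ φk) (hfin : FiniteAlong Qb Φ)
    (hdeg : finrankAlong Qb Φ ≤ finrankAlong (ResidueField A) φk)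
    (hφk : φk.toRingHom.IsIntegral)
    (hu : Φ (heckeAlphaBar Qb M p (grdQ M hat.c.mem)) ∈ mrmfB (M * ℓ) p A hat'')
    (hu' : heckeAlphaBar Qb (M * ℓ) p (grdQ (M * ℓ) hat''.c.mem) ∈
      grdB (M * ℓ * p) A (Φ (heckeAlphaBar Qb M p (grdQ M hat.c.mem))))
    (hR₁ : ∀ y, y ∈ intRing (ResidueField A) (grdK (M * ℓ) A hat''.c.mem) ↔
      ∃ b, ttrkR₁ (ttrkT (M * ℓ) p A hpMℓ hA hat'') b = y)
    (hR₂ : ∀ y, y ∈ intRing (ResidueField A) (grdK (M * ℓ) A hat''.c.mem) ↔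
      ∃ b, ttrkR₂ (ttrkT (M * ℓ) p A hpMℓ hA hat'') b = y)
    (i : ttrkS M p A hpM hA hat)
    (y₁ : Place (ResidueField A) ↥(modularFunctionFieldFullC (ResidueField A) (M * ℓ)))
    (hy : y₁.restrictAlong φk hφk = ttrkSν₁ M p A hpM hA hat i) :
    ∃ i'' : ttrkS (M * ℓ) p A hpMℓ hA hat'', ttrkSν₁ (M * ℓ) p A hpMℓ hA hat'' i'' = y₁ := by
  haveI : IsAlgClosed (ResidueField A) := grd_isAlgClosed_residue A
  letI := algebraAlong Φ
  haveI : FiniteDimensional ↥(modularFunctionFieldBar (M * p))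
      ↥(modularFunctionFieldBar (M * ℓ * p)) := hfin
  have hp := (mrmf_pair_iff M A hpM hA hat _ _).1 i.2
  have hy₁ : grdK (M * ℓ) A hat''.c.mem ∈ y₁.toValuationSubring := by
    refine mrmf_ht M ℓ A hpM hpMℓ hA hat hat'' h hu' y₁ ?_
    have h1 := i.2.1
    have h2 : grdK M A hat.c.mem ∈ (y₁.restrictAlong φk hφk).toValuationSubring := by
      rw [hy]; exact h1
    exact (mrmf_mem_restrict φk hφk y₁ _).1 h2
  have hR₁' : ∀ y, y ∈ intRing (ResidueField A) (grdK (M * ℓ) A hat''.c.mem) ↔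
      ∃ b, mrmfR₁ (M * ℓ) A hpMℓ hA hat'' b = y := fun y =>
    ⟨fun hy => by obtain ⟨b, hb⟩ := (hR₁ y).1 hy; exact ⟨⟨b.1, b.2⟩, hb⟩,
      fun ⟨b, hb⟩ => (hR₁ y).2 ⟨⟨b.1, b.2⟩, hb⟩⟩
  have hR₂' : ∀ y, y ∈ intRing (ResidueField A) (grdK (M * ℓ) A hat''.c.mem) ↔
      ∃ b, mrmfR₂ (M * ℓ) A hpMℓ hA hat'' b = y := fun y =>
    ⟨fun hy => by obtain ⟨b, hb⟩ := (hR₂ y).1 hy; exact ⟨⟨b.1, b.2⟩, hb⟩,
      fun ⟨b, hb⟩ => (hR₂ y).2 ⟨⟨b.1, b.2⟩, hb⟩⟩
  have hconst' : ∀ c : ResidueField A, ∃ b : ↥(mrmfB (M * ℓ) p A hat''),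
      mrmfR₁ (M * ℓ) A hpMℓ hA hat'' b = algebraMap _ _ c ∧
      mrmfR₂ (M * ℓ) A hpMℓ hA hat'' b = algebraMap _ _ c := fun c => by
    obtain ⟨b, hb₁, hb₂⟩ := ttrk_plug_const (ttrkT (M * ℓ) p A hpMℓ hA hat'') c
    exact ⟨⟨b.1, b.2⟩, hb₁, hb₂⟩
  obtain ⟨y₂, hy₂⟩ := mrmf_pair_up (k := ResidueField A) (mrmfB M p A hat)
    (mrmfB (M * ℓ) p A hat'') (mrmf_hcl M ℓ A hat hat'' hu)
    (mrmfR₁ M A hpM hA hat) (mrmfR₂ M A hpM hA hat)
    (mrmfR₁ (M * ℓ) A hpMℓ hA hat'') (mrmfR₂ (M * ℓ) A hpMℓ hA hat'') φk hφk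
    (fun b h' => h.red₁ _ _ _) (mrmf_hint M ℓ A hat hat'' hu')
    (mrmf_hnorm M ℓ A hpM hpMℓ hA hat hat'' h hfin hdeg hu')
    hat''.c.sepK hat''.c.sepK hR₁' hR₂' hconst' hp y₁ hy hy₁
  exact ⟨⟨(y₁, y₂), (mrmf_pair_iff (M * ℓ) A hpMℓ hA hat'' _ _).2 hy₂⟩, rfl⟩

/-- **(B4) THE NODES CORRESPOND** : a place `y₁` of `F_k(M ℓ)` is the first branch of a node of
`X₀((M ℓ) p)` iff its restriction along `φk` is the first branch of a node of `X₀(M p)`. -/
theorem mrmf_node_iff (h : MrmfLvl M ℓ A hpM hpMℓ hA Φ φk) (hfin : FiniteAlong Qb Φ)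
    (hdeg : finrankAlong Qb Φ ≤ finrankAlong (ResidueField A) φk)
    (hφk : φk.toRingHom.IsIntegral)
    (hu : Φ (heckeAlphaBar Qb M p (grdQ M hat.c.mem)) ∈ mrmfB (M * ℓ) p A hat'')
    (hu' : heckeAlphaBar Qb (M * ℓ) p (grdQ (M * ℓ) hat''.c.mem) ∈
      grdB (M * ℓ * p) A (Φ (heckeAlphaBar Qb M p (grdQ M hat.c.mem))))
    (hR₁ : ∀ y, y ∈ intRing (ResidueField A) (grdK (M * ℓ) A hat''.c.mem) ↔
      ∃ b, ttrkR₁ (ttrkT (M * ℓ) p A hpMℓ hA hat'') b = y)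
    (hR₂ : ∀ y, y ∈ intRing (ResidueField A) (grdK (M * ℓ) A hat''.c.mem) ↔
      ∃ b, ttrkR₂ (ttrkT (M * ℓ) p A hpMℓ hA hat'') b = y)
    (y₁ : Place (ResidueField A) ↥(modularFunctionFieldFullC (ResidueField A) (M * ℓ))) :
    y₁ ∈ Set.range (ttrkSν₁ (M * ℓ) p A hpMℓ hA hat'') ↔
      y₁.restrictAlong φk hφk ∈ Set.range (ttrkSν₁ M p A hpM hA hat) := by
  constructor
  · rintro ⟨i'', rfl⟩
    obtain ⟨i, hi, -⟩ := mrmf_node_down M ℓ A hpM hpMℓ hA hat hat'' h hφk hu i''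
    exact ⟨i, hi⟩
  · rintro ⟨i, hi⟩
    exact mrmf_node_up M ℓ A hpM hpMℓ hA hat hat'' h hfin hdeg hφk hu hu' hR₁ hR₂ i y₁ hi.symm

end Up

end Fermat.Agent.MR
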