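import Mathlib
import Fermat.Agent.MR.Mu.BalanceInst
import Fermat.Agent.MR.Mu.FunctUp
import Fermat.Agent.MR.Mu.FunctChartInv
import Fermat.Agent.MR.Mu.FunctChart
import Fermat.Agent.TT.Red2.ChartOntoAtlas

/-!
# Program MR (S44), block `mrm`, leaf BALANCE : the closed form (helper18, prefix `mrmbb`)

(NODE-IFF) of `MR/Mu/BalanceInst.lean` discharged by helper1's `mrmf_node_iff`
(`MR/Mu/FunctUp.lean`) for both level maps; `hu'` for `β_ℓ` from `hu` by helper6's `mrmfd_hu'`.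

* `mrmbb_nodeIff_al` : (NODE-IFF) for `ᾱ`, closed (`p ≥ 5`, `j`-atlases);
* `mrmbb_nodeIff_be` : (NODE-IFF) for `β̄` from the chart hypothesis `hu` for `β_ℓ`;
* `mrmbb_balanceLeaf_of_chart` : `MrmBalanceLeaf M 𝔸 hpM h𝔸 hat` from
  (i) the chart hypothesis `hu` for `β_ℓ` at every prime `ℓ ∤ M p`,
  (ii) exact node coordinates `MrnCoordSpec` at the levels `M ℓ` (the coordinate block);
* **`mrmbb_balanceLeaf_closed`** : the same with (i) discharged by helper22's `mrmfc_hu`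
  (`MR/Mu/FunctChart.lean`) : the ONLY input left is (ii).
-/

set_option autoImplicit false
set_option linter.unusedSectionVars false
set_option linter.unusedVariables false
set_option linter.style.haveILetI false
set_option synthInstance.maxHeartbeats 400000

noncomputable section

namespace Fermat.Agent.MR

open Polynomial ModularCurve AlgebraicCurve IsLocalRing IntermediateField
  Fermat.Agent.G Fermat.Agent.S18 Fermat.Agent.S24 Fermat.Agent.FF Fermat.Agent.TT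
  Fermat.Agent.SS

local notation "Qb" => AlgebraicClosure ℚ

section NodeIff

variable (M : ℕ) [NeZero M] {p : ℕ} [Fact p.Prime] [NeZero p] (ℓ : ℕ) [NeZero ℓ]
variable (A : ValuationSubring Qb) (hpM : ¬ p ∣ M) (hpMℓ : ¬ p ∣ M * ℓ) (hA : A.LiesOverPrime p)
variable {σ' : LaurentSeries ℤ} (hat : GrdAtlas M A (jqModC ℤ) σ')
  (hat'' : GrdAtlas (M * ℓ) A (jqModC ℤ) σ')

/-- (NODE-IFF) for `ᾱ`, closed -/
theorem mrmbb_nodeIff_al (h5 : 5 ≤ p) (hℓ : ℓ.Prime) (hℓN : ¬ ℓ ∣ M * p) :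
    MrmbbNodeIff M ℓ A hpM hpMℓ hA hat hat'' (mrmAlB (ResidueField A) M ℓ)
      (mrmbb_alB_integral M p ℓ A hpMℓ hA) := fun y₁ =>
  mrmf_node_iff M ℓ A hpM hpMℓ hA hat hat'' (mrmbb_lvl_al M ℓ A hpM hpMℓ hA)
    (mrmbb_al_finite M p ℓ) (mrmbb_al_deg M p ℓ A hpM hA hℓ hℓN)
    (mrmbb_alB_integral M p ℓ A hpMℓ hA) (mrmbb_chart_al M ℓ A hat hat'')
    (mrmbb_chart_al' M ℓ A hat hat'') (ttrc_T_hR_j (M * ℓ) p A hpMℓ hA h5 hat'').1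
    (ttrc_T_hR_j (M * ℓ) p A hpMℓ hA h5 hat'').2.1 y₁

/-- (NODE-IFF) for `β̄`, from the chart hypothesis `hu` for `β_ℓ` -/
theorem mrmbb_nodeIff_be (h5 : 5 ≤ p) (hℓ : ℓ.Prime) (hℓN : ¬ ℓ ∣ M * p)
    (hu : mrmcBe M p ℓ (heckeAlphaBar Qb M p (grdQ M hat.c.mem)) ∈
      grdB (M * ℓ * p) A (heckeAlphaBar Qb (M * ℓ) p (grdQ (M * ℓ) hat''.c.mem))) :
    MrmbbNodeIff M ℓ A hpM hpMℓ hA hat hat'' (mrmBeB (ResidueField A) M ℓ)
      (mrmbb_beB_integral M p ℓ A hpMℓ hA) := fun y₁ =>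
  mrmf_node_iff M ℓ A hpM hpMℓ hA hat hat'' (mrmbb_lvl_be M ℓ A hpM hpMℓ hA)
    (mrmbb_be_finite M p ℓ) (mrmbb_be_deg M p ℓ A hpM hA hℓ hℓN)
    (mrmbb_beB_integral M p ℓ A hpMℓ hA) hu
    (mrmfd_hu' M p ℓ A hℓ hℓN (mrmcBe M p ℓ) (mrmcBe_coe M p ℓ) hat.c.mem hat''.c.mem hu)
    (ttrc_T_hR_j (M * ℓ) p A hpMℓ hA h5 hat'').1
    (ttrc_T_hR_j (M * ℓ) p A hpMℓ hA h5 hat'').2.1 y₁

end NodeIff

section Leaf

variable (M : ℕ) [NeZero M] {p : ℕ} [Fact p.Prime] [NeZero p]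
variable (A : ValuationSubring Qb) (hpM : ¬ p ∣ M) (hA : A.LiesOverPrime p)
variable {σ' : LaurentSeries ℤ} (hat : GrdAtlas M A (jqModC ℤ) σ')

/-- **`MrmBalanceLeaf`, closed up to two named inputs** : the chart hypothesis `hu` for `β_ℓ`
(`j(ℓ z)` over the `j`-chart of level `(M ℓ) p`) and exact node coordinates at the levels `M ℓ`. -/
theorem mrmbb_balanceLeaf_of_chart (h5 : 5 ≤ p)
    (hub : ∀ (ℓ : ℕ) [NeZero ℓ] (hℓ : ℓ.Prime) (hℓN : ¬ ℓ ∣ M * p),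
      mrmcBe M p ℓ (heckeAlphaBar Qb M p (grdQ M hat.c.mem)) ∈
        grdB (M * ℓ * p) A (heckeAlphaBar Qb (M * ℓ) p (grdQ (M * ℓ)
          (ttrli_atlas_j (M * ℓ) A (mrmc_hpMℓ M p ℓ hpM hℓ hℓN) hA h5 hat.inv).c.mem)))
    (hcoord : ∀ (ℓ : ℕ) [NeZero ℓ] (hℓ : ℓ.Prime) (hℓN : ¬ ℓ ∣ M * p),
      MrnCoordSpec (M * ℓ) A (mrmc_hpMℓ M p ℓ hpM hℓ hℓN) hA
        (ttrli_atlas_j (M * ℓ) A (mrmc_hpMℓ M p ℓ hpM hℓ hℓN) hA h5 hat.inv)) :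
    MrmBalanceLeaf M A hpM hA hat :=
  mrmbb_balanceLeaf M A hpM hA hat h5
    (fun ℓ _ hℓ hℓN => mrmbb_nodeIff_al M ℓ A hpM _ hA hat _ h5 hℓ hℓN)
    (fun ℓ _ hℓ hℓN => mrmbb_nodeIff_be M ℓ A hpM _ hA hat _ h5 hℓ hℓN (hub ℓ hℓ hℓN))
    hub hcoord

/-- **`MrmBalanceLeaf` from the exact node coordinates at the levels `M ℓ` alone.** -/
theorem mrmbb_balanceLeaf_closed (h5 : 5 ≤ p)
    (hcoord : ∀ (ℓ : ℕ) [NeZero ℓ] (hℓ : ℓ.Prime) (hℓN : ¬ ℓ ∣ M * p),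
      MrnCoordSpec (M * ℓ) A (mrmc_hpMℓ M p ℓ hpM hℓ hℓN) hA
        (ttrli_atlas_j (M * ℓ) A (mrmc_hpMℓ M p ℓ hpM hℓ hℓN) hA h5 hat.inv)) :
    MrmBalanceLeaf M A hpM hA hat :=
  mrmbb_balanceLeaf_of_chart M A hpM hA hat h5
    (fun ℓ _ hℓ hℓN => mrmfc_hu M ℓ A hA (mrmc_hpMℓ M p ℓ hpM hℓ hℓN) hat.c.mem _
      (mrmcBe M p ℓ) (mrmcBe_coe M p ℓ))
    hcoord

end Leaf

end Fermat.Agent.MR
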